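import Mathlib
import Fermat.Agent.LT.H556.A0
import Fermat.Agent.LT.T1.Spec

/-!
# Row LT, tower T2 (cuspidal `L²` theory, multiplicity one): SPEC (helper130, architect)

OFF-MAIN.  Definitions written out, sub-leaf Props, PROVED tops `top_cuspSpec`, `top_gps`,
`top_smo`.  Nothing is assumed, there is no opaque constant and no placeholder proof.
Vocabulary: `Fermat/Agent/LT/H556/A0.lean` (helper556) and `Fermat/Agent/LT/T1/Spec.lean`
(helper54, v1), byte-identical copies; nothing of them is re-defined.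

## The frame (IMPORTANT for T4, T5)

The functions of A0 are right invariant under the positive scalars at EVERY infinite place
(`A_inf = ∏_w ℝ_{>0}`).  The subgroup `GL₂(K) · A_inf` is NOT closed in `GL₂(𝔸_K)` when the unit
group of `K` is infinite (the scalar units lie in a compact group; `K = E` sextic), so the
quotient by `A_inf` carries no fundamental domain.  The frame of this tower is the frame of T1:

* `Z⁺ = ℝ_{>0}`, embedded DIAGONALLY in all infinite places (`IsDiagPosScalar`);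
  `GL₂(K) · Z⁺` is closed, `GL₂(K) Z⁺ \ GL₂(𝔸_K) = GL₂(K) \ GL₂(𝔸_K)¹` has finite volume;
* a `Frame K` = a Haar measure `μ` of `G K` (Borel) and a strict Borel fundamental domain `D` of
  `GL₂(K)` in the slab `T1.slab K = {1 ≤ ‖det g‖_𝔸 < 2}`, of finite measure (`T1.FundDomC`);
* `pair F φ ψ = ∫_D φ ψ̄ dμ`: for `Z⁺`-invariant functions this is the Petersson product of
  `GL₂(K) \ GL₂(𝔸_K)¹`, up to the positive constant `∫_{1 ≤ r^{2n} < 2} dr / r`;
* test functions are the functions of T3 (helper14): continuous with COMPACT SUPPORT on `G K`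
  (not invariant under any scalars), here in addition smooth at infinity and bi-invariant under
  `U(𝔫) K_∞`; `conv F f φ (x) = ∫_{G K} φ(x h) f(h) dμ(h)` is `T3.Rop` (same term), `adj` is
  `T3.starG`.  The scalars are central, so `conv F f` preserves the `A_inf`-invariant functions.

## Tower Props (the interface of T2)

* `CuspSpec K 𝔫`: for every frame, an orthonormal family of bounded continuous cusp functions of
  level `U(𝔫)`, joint eigenfunctions of the Hecke operators at `v ∤ 𝔫` (`A0.IsHeckeEigenAt`) and of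
  the sphere means at the infinite places (`MeanEigC`, `MeanEigR`; A0's parameter `0` is the
  eigenvalue function `sph0C`, resp. `sph0R`), COMPLETE (Parseval for every cusp function),
  with the unitarity relations `|b_v| = 1`, `conj a_v = a_v conj b_v`, `√q_v |a_v| ≤ q_v + 1`.
  The index type is arbitrary (no claim that the family is infinite).
* `GPSCore K 𝔫`: THE ESTIMATE in the form common to the cuspidal and to the Eisenstein-killing
  route: `R(f)ψ - R(f)ψ_N` is rapidly decreasing on Siegel sets, with constants `C ‖ψ‖₂`, for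
  every automorphic `ψ` of level `𝔫` (`IsAutFn`), `ψ_N` its constant term (`IsConstTerm`).
* `GPS K 𝔫`, `HSBound K 𝔫`, `ConvRegular K 𝔫`: the Gelfand--Piatetski-Shapiro estimate on cusp
  functions, its Hilbert--Schmidt form and its regularity form.
* `GPSKill K 𝔫`, `HSKill K 𝔫`: the same for ALL automorphic functions of level `𝔫`, for a test
  function which kills the constant terms (`KillsConstTerms`; the EK functions of T3 do):
  this is `EK_HilbertSchmidt` of the T5 interface.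
* `SMO K`: strong multiplicity one on `A0.notion556` (shape of `DescentPackage.multOne`).

## Sub-leaves (registry rows `T2.01` ... `T2.13`)

Each leaf is a `def ... : Prop`; the references are in the doc-comments; the memo
`coord/LT-T2-helper130.md` has the size estimates and the falsity checks of the author.
-/

set_option autoImplicit false

open IsDedekindDomain NumberField MeasureTheory AutomorphicForm
open Fermat.Agent.LT.H556.A0
open scoped ContDiff

noncomputable section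

namespace Fermat.Agent.LT.T2

variable {K : Type} [Field K] [NumberField K]

/-! ## 1. The frames -/

/-- A positive real scalar, THE SAME at every infinite place, trivial at the finite places:
the group `Z⁺`. -/
def IsDiagPosScalar (z : G K) : Prop :=
  (∀ v : HeightOneSpectrum (𝓞 K), TrivAtFin v z) ∧
    ∃ r : ℝ, 0 < r ∧ ∀ w : InfinitePlace K, infComp w z = Matrix.diagonal (fun _ => (r : ℂ))

/-- The Borel `σ`-algebra of `G K` (the one of `T1.UnimodC`, `T1.FundDomC`).  LOCAL instance of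
this file; a user writes `attribute [local instance] Fermat.Agent.LT.T2.borelG`. -/
local instance borelG : MeasurableSpace (G K) := borel (G K)

/-- A frame: a Haar measure of `G K` and a strict Borel fundamental domain of `GL₂(K)` in the
slab, of finite measure.  Frames exist by `T1.LocCompC` and `T1.FundDomC`. -/
structure Frame (K : Type) [Field K] [NumberField K] where
  μ : Measure (G K)
  haar : μ.IsHaarMeasure
  D : Set (G K)
  meas : MeasurableSet D
  sub : D ⊆ T1.slab K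
  strict : ∀ g ∈ T1.slab K, ∃! γ : GL (Fin 2) K, T1.ratG K γ * g ∈ D
  fin : μ D < ⊤

/-! ## 2. Cusp functions, test functions, operators -/

/-- A cusp function of level `U(𝔫)`: the conditions of `A0.IsSph0CuspFormFor` without the
eigen-conditions and without `ne_zero`. -/
structure IsCuspFn (𝔫 : Ideal (𝓞 K)) (φ : G K → ℂ) : Prop where
  cont : Continuous φ
  bdd : ∃ C : ℝ, ∀ g : G K, ‖φ g‖ ≤ C
  left_inv : ∀ (γ : GL (Fin 2) K) (g : G K),
    φ (Matrix.GeneralLinearGroup.map (algebraMap K (Adl K)) γ * g) = φ g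
  level_inv : ∀ u : G K, InLevelGroup 𝔫 u → ∀ g : G K, φ (g * u) = φ g
  arch_scalar : ∀ (w : InfinitePlace K) (z : G K), IsArchPosScalar w z →
    ∀ g : G K, φ (g * z) = φ g
  arch_compact : ∀ (w : InfinitePlace K) (k : G K), IsArchCompact w k →
    ∀ g : G K, φ (g * k) = φ g
  cuspidal : IsCuspidalFn φ

/-- The form of A0 is a cusp function of its level. -/
theorem isCuspFn_of_sph0 {π : HeckeEigensystem K ℂ} {φ : G K → ℂ}
    (h : IsSph0CuspFormFor π φ) : IsCuspFn π.level φ :=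
  ⟨h.cont, h.bdd, h.left_inv, h.level_inv, h.arch_scalar, h.arch_compact, h.cuspidal⟩

/-- An automorphic function of level `U(𝔫)`: a cusp function without the cuspidality. -/
structure IsAutFn (𝔫 : Ideal (𝓞 K)) (ψ : G K → ℂ) : Prop where
  cont : Continuous ψ
  bdd : ∃ C : ℝ, ∀ g : G K, ‖ψ g‖ ≤ C
  left_inv : ∀ (γ : GL (Fin 2) K) (g : G K),
    ψ (Matrix.GeneralLinearGroup.map (algebraMap K (Adl K)) γ * g) = ψ g
  level_inv : ∀ u : G K, InLevelGroup 𝔫 u → ∀ g : G K, ψ (g * u) = ψ g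
  arch_scalar : ∀ (w : InfinitePlace K) (z : G K), IsArchPosScalar w z →
    ∀ g : G K, ψ (g * z) = ψ g
  arch_compact : ∀ (w : InfinitePlace K) (k : G K), IsArchCompact w k →
    ∀ g : G K, ψ (g * k) = ψ g

theorem IsCuspFn.isAutFn {𝔫 : Ideal (𝓞 K)} {φ : G K → ℂ} (h : IsCuspFn 𝔫 φ) : IsAutFn 𝔫 φ :=
  ⟨h.cont, h.bdd, h.left_inv, h.level_inv, h.arch_scalar, h.arch_compact⟩

/-- `Ψ` is the constant term of `ψ` along the upper unipotent radical:
`∫_D ψ(n(x) g) dx = vol(D) Ψ(g)` for every Haar measure of `𝔸_K` and every fundamental domain `D`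
of `K` (quantifiers of `A0.IsCuspidalFn`). -/
def IsConstTerm (ψ Ψ : G K → ℂ) : Prop :=
  letI : MeasurableSpace (Adl K) := borel (Adl K)
  ∀ μ : MeasureTheory.Measure (Adl K), μ.IsAddHaarMeasure →
    ∀ D : Set (Adl K),
      MeasureTheory.IsAddFundamentalDomain
        ((algebraMap K (Adl K)).toAddMonoidHom.range) D μ →
      ∀ n : Adl K → G K,
        (∀ x : Adl K, (n x : Matrix (Fin 2) (Fin 2) (Adl K)) = !![1, x; 0, 1]) →
        ∀ g : G K, ∫ x in D, ψ (n x * g) ∂μ = (((μ D).toReal : ℝ) : ℂ) * Ψ g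

/-- A cuspidal function has constant term `0`. -/
theorem isConstTerm_zero {φ : G K → ℂ} (h : IsCuspidalFn φ) : IsConstTerm φ (fun _ => 0) := by
  intro μ hμ D hD n hn g
  simpa using h μ hμ D hD n hn g

/-- The Petersson pairing of the frame (linear in `φ`, conjugate linear in `ψ`). -/
def pair (F : Frame K) (φ ψ : G K → ℂ) : ℂ :=
  ∫ g in F.D, φ g * (starRingEnd ℂ) (ψ g) ∂F.μ

/-- The square of the `L²`-norm. -/
def nsq (F : Frame K) (φ : G K → ℂ) : ℝ := (pair F φ φ).re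

/-- `f` is smooth in the archimedean variables: smooth along every smooth finite-dimensional
family of elements supported at the infinite places. -/
def IsSmoothAtInf (f : G K → ℂ) : Prop :=
  ∀ (n : ℕ) (h : (Fin n → ℝ) → G K),
    (∀ (t : Fin n → ℝ) (v : HeightOneSpectrum (𝓞 K)), TrivAtFin v (h t)) →
    (∀ (w : InfinitePlace K) (i j : Fin 2), ContDiff ℝ ∞ (fun t => infComp w (h t) i j)) →
    ∀ g : G K, ContDiff ℝ ∞ (fun t => f (g * h t))

/-- A test function of level `U(𝔫)`: continuous with compact support on `G K` (as in T3), smooth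
at infinity, left and right invariant under `U(𝔫)` and under the compact groups at infinity. -/
structure IsTestFn (𝔫 : Ideal (𝓞 K)) (f : G K → ℂ) : Prop where
  cont : Continuous f
  smooth : IsSmoothAtInf f
  cpt : HasCompactSupport f
  level_right : ∀ u : G K, InLevelGroup 𝔫 u → ∀ g : G K, f (g * u) = f g
  level_left : ∀ u : G K, InLevelGroup 𝔫 u → ∀ g : G K, f (u * g) = f g
  arch_right : ∀ (w : InfinitePlace K) (k : G K), IsArchCompact w k → ∀ g : G K, f (g * k) = f g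
  arch_left : ∀ (w : InfinitePlace K) (k : G K), IsArchCompact w k → ∀ g : G K, f (k * g) = f g

/-- A SPHERICAL test function: a test function which, at the places dividing the level, is
supported in `U(𝔫)_v` (the unit element of the local Hecke algebra).  These commute. -/
structure IsSphTestFn (𝔫 : Ideal (𝓞 K)) (f : G K → ℂ) : Prop where
  test : IsTestFn 𝔫 f
  bad_unit : ∀ g : G K, f g ≠ 0 → ∀ v : HeightOneSpectrum (𝓞 K), v.asIdeal ∣ 𝔫 →
    ∀ i j : Fin 2, (finComp v g - 1) i j ∈ idealClosure 𝔫 v ∧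
      (finComp v g⁻¹ - 1) i j ∈ idealClosure 𝔫 v

/-- The adjoint test function `f*(g) = conj f(g⁻¹)`. -/
def adj (f : G K → ℂ) : G K → ℂ := fun g => (starRingEnd ℂ) (f g⁻¹)

/-- Right convolution `(R(f) φ)(x) = ∫_{G K} φ(x h) f(h) dμ(h)` (the term of `T3.Rop`). -/
def conv (F : Frame K) (f φ : G K → ℂ) : G K → ℂ :=
  fun x => ∫ h, φ (x * h) * f h ∂F.μ

/-- The Hecke sum `(T_H φ)(g) = ∑_{h ∈ H} φ(g h)`. -/
def heckeSum (H : Finset (G K)) (φ : G K → ℂ) : G K → ℂ :=
  fun g => ∑ h ∈ H, φ (g * h)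

/-- Right translation `(S_z φ)(g) = φ(g z)`. -/
def shift (z : G K) (φ : G K → ℂ) : G K → ℂ := fun g => φ (g * z)

/-- `Y` parametrises the geodesic sphere of radius `d` at the complex place `w` (A0). -/
def IsSphereAt (w : InfinitePlace K) (d : ℝ) (Y : ℝ → ℝ → G K) : Prop :=
  ∀ α β : ℝ, IsLocalAtInf w (Y α β) ∧ infComp w (Y α β) = rotZ α * rotY β * torus d

/-- `Y` parametrises the geodesic circle of radius `t` at the real place `w` (A0). -/
def IsCircleAt (w : InfinitePlace K) (t : ℝ) (Y : ℝ → G K) : Prop :=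
  ∀ θ : ℝ, IsLocalAtInf w (Y θ) ∧ infComp w (Y θ) = rotY θ * torus t

/-- The (unnormalised) sphere mean at a complex place. -/
def sphereMean (Y : ℝ → ℝ → G K) (φ : G K → ℂ) : G K → ℂ :=
  fun g => ∫ α in (0 : ℝ)..(2 * Real.pi), ∫ β in (0 : ℝ)..Real.pi,
    φ (g * Y α β) * ((Real.sin β : ℝ) : ℂ)

/-- The (unnormalised) circle mean at a real place. -/
def circleMean (Y : ℝ → G K) (φ : G K → ℂ) : G K → ℂ :=
  fun g => ∫ θ in (0 : ℝ)..(2 * Real.pi), φ (g * Y θ)

/-- `φ` is an eigenfunction of all sphere means at the complex place `w`, with eigenvalue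
function `m` (unnormalised: `m d = 4π ·` spherical function). -/
def MeanEigC (φ : G K → ℂ) (w : InfinitePlace K) (m : ℝ → ℂ) : Prop :=
  ∀ d : ℝ, 0 < d → ∀ Y : ℝ → ℝ → G K, IsSphereAt w d Y →
    ∀ g : G K, sphereMean Y φ g = m d * φ g

/-- `φ` is an eigenfunction of all circle means at the real place `w`, with eigenvalue
function `m` (unnormalised: `m t = 2π ·` spherical function). -/
def MeanEigR (φ : G K → ℂ) (w : InfinitePlace K) (m : ℝ → ℂ) : Prop :=
  ∀ t : ℝ, 0 < t → ∀ Y : ℝ → G K, IsCircleAt w t Y →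
    ∀ g : G K, circleMean Y φ g = m t * φ g

/-- The eigenvalue function of parameter `0` at a complex place: `4π d / sinh d`. -/
def sph0C : ℝ → ℂ := fun d => ((4 * Real.pi * (d / Real.sinh d) : ℝ) : ℂ)

/-- The eigenvalue function of parameter `0` at a real place: `2π P_{-1/2}(cosh t)`. -/
def sph0R : ℝ → ℂ := fun t =>
  ((∫ θ in (0 : ℝ)..(2 * Real.pi),
    (Real.cosh t + Real.sinh t * Real.cos θ) ^ (-(1 / 2 : ℝ)) : ℝ) : ℂ)

/-- Compatibility with A0 (complex place). -/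
theorem meanEigC_sph0_iff (φ : G K → ℂ) (w : InfinitePlace K) :
    MeanEigC φ w sph0C ↔ MeanValueComplex φ w :=
  Iff.rfl

/-- Compatibility with A0 (real place). -/
theorem meanEigR_sph0_iff (φ : G K → ℂ) (w : InfinitePlace K) :
    MeanEigR φ w sph0R ↔ MeanValueReal φ w :=
  Iff.rfl

/-- The operators of the tower: convolutions by spherical test functions, Hecke sums and scalar
shifts (and their inverses) at the places prime to the level, sphere and circle means at the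
infinite places, and their composites. -/
inductive IsOp (𝔫 : Ideal (𝓞 K)) (F : Frame K) : ((G K → ℂ) → (G K → ℂ)) → Prop
  | conv (f : G K → ℂ) (hf : IsSphTestFn 𝔫 f) : IsOp 𝔫 F (conv F f)
  | hecke (v : HeightOneSpectrum (𝓞 K)) (hv : ¬ v.asIdeal ∣ 𝔫) (H : Finset (G K))
      (hH : IsHeckeCosetSystem v H) : IsOp 𝔫 F (heckeSum H)
  | shift (v : HeightOneSpectrum (𝓞 K)) (hv : ¬ v.asIdeal ∣ 𝔫) (z : G K)
      (hz : IsScalarUniformizerAt v z) : IsOp 𝔫 F (shift z)
  | shiftInv (v : HeightOneSpectrum (𝓞 K)) (hv : ¬ v.asIdeal ∣ 𝔫) (z : G K)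
      (hz : IsScalarUniformizerAt v z) : IsOp 𝔫 F (shift z⁻¹)
  | sphere (w : InfinitePlace K) (hw : w.IsComplex) (d : ℝ) (hd : 0 < d) (Y : ℝ → ℝ → G K)
      (hY : IsSphereAt w d Y) : IsOp 𝔫 F (sphereMean Y)
  | circle (w : InfinitePlace K) (hw : w.IsReal) (t : ℝ) (ht : 0 < t) (Y : ℝ → G K)
      (hY : IsCircleAt w t Y) : IsOp 𝔫 F (circleMean Y)
  | comp (S T : (G K → ℂ) → (G K → ℂ)) (hS : IsOp 𝔫 F S) (hT : IsOp 𝔫 F T) :
      IsOp 𝔫 F (fun φ => S (T φ))

/-! ## 3. The tower Props -/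

/-- An orthonormal, complete family of joint eigen-cusp-functions of level `U(𝔫)`. -/
structure IsCuspBasis (𝔫 : Ideal (𝓞 K)) (F : Frame K) {ι : Type} (u : ι → G K → ℂ)
    (m : ι → InfinitePlace K → ℝ → ℂ) (a b : ι → HeightOneSpectrum (𝓞 K) → ℂ) : Prop where
  cusp : ∀ j, IsCuspFn 𝔫 (u j)
  norm_one : ∀ j, pair F (u j) (u j) = 1
  orth : ∀ i j, i ≠ j → pair F (u i) (u j) = 0
  eig_complex : ∀ j (w : InfinitePlace K), w.IsComplex → MeanEigC (u j) w (m j w)
  eig_real : ∀ j (w : InfinitePlace K), w.IsReal → MeanEigR (u j) w (m j w)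
  hecke : ∀ j (v : HeightOneSpectrum (𝓞 K)), ¬ v.asIdeal ∣ 𝔫 →
    IsHeckeEigenAt (u j) v (a j v) (b j v)
  /-- `S_v` is unitary. -/
  unit_b : ∀ j (v : HeightOneSpectrum (𝓞 K)), ¬ v.asIdeal ∣ 𝔫 → ‖b j v‖ = 1
  /-- `T_v* = S_v⁻¹ T_v` and `T_v` is normal. -/
  conj_a : ∀ j (v : HeightOneSpectrum (𝓞 K)), ¬ v.asIdeal ∣ 𝔫 →
    (starRingEnd ℂ) (a j v) = a j v * (starRingEnd ℂ) (b j v)
  /-- The trivial bound `‖T_v‖ ≤ q_v + 1`. -/
  bound_a : ∀ j (v : HeightOneSpectrum (𝓞 K)), ¬ v.asIdeal ∣ 𝔫 →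
    ‖a j v‖ * Real.sqrt (Ideal.absNorm v.asIdeal : ℝ) ≤ (Ideal.absNorm v.asIdeal : ℝ) + 1
  /-- The sphere and circle means are self-adjoint. -/
  real_m : ∀ j (w : InfinitePlace K) (d : ℝ), 0 < d → (m j w d).im = 0
  parseval : ∀ φ : G K → ℂ, IsCuspFn 𝔫 φ →
    HasSum (fun j => ‖pair F φ (u j)‖ ^ 2) (nsq F φ)

/-- **TOWER PROP 1 (discreteness of the cuspidal spectrum, eigenfunction form).**
[Gelfand--Graev--Piatetski-Shapiro, Representation theory and automorphic functions, ch. 3],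
[Godement, The spectral decomposition of cusp forms, Proc. Symp. Pure Math. 9],
[Bump, Automorphic forms and representations, §2.3 and §3.3],
[Garrett, Modern analysis of automorphic forms by example, vol. 1, ch. 7]. -/
def CuspSpec (K : Type) [Field K] [NumberField K] (𝔫 : Ideal (𝓞 K)) : Prop :=
  ∀ F : Frame K, ∃ (ι : Type) (u : ι → G K → ℂ) (m : ι → InfinitePlace K → ℝ → ℂ)
    (a b : ι → HeightOneSpectrum (𝓞 K) → ℂ), IsCuspBasis 𝔫 F u m a b

/-- **TOWER PROP 2 (strong multiplicity one on `notion556`).**  Shape of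
`AutomorphicForm.DescentPackage.multOne`, for `a` and `b`.
[Jacquet--Langlands, LNM 114, §11], [Casselman, On some results of Atkin and Lehner, 1973],
[Miyake, On automorphic forms on `GL₂` and Hecke operators, Ann. of Math. 94 (1971)],
[Piatetski-Shapiro, Multiplicity one theorems, Corvallis I]. -/
def SMO (K : Type) [Field K] [NumberField K] : Prop :=
  ∀ π π' : HeckeEigensystem K ℂ, notion556.IsCusp K π → notion556.IsCusp K π' →
    HeckeEigensystem.AgreesAwayFromFinite π π' →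
    ∀ v : HeightOneSpectrum (𝓞 K), ¬ v.asIdeal ∣ π.level → ¬ v.asIdeal ∣ π'.level →
      π.a v = π'.a v ∧ π.b v = π'.b v

/-! ## 4. The milestones of `CuspSpec` -/

/-- Frames exist (so that the tower Props are not vacuous). -/
def FrameExists (K : Type) [Field K] [NumberField K] : Prop := Nonempty (Frame K)

/-- Cusp functions are square integrable on the domain and the pairing is definite. -/
def PairDefinite (K : Type) [Field K] [NumberField K] (𝔫 : Ideal (𝓞 K)) : Prop :=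
  ∀ (F : Frame K) (φ : G K → ℂ), IsCuspFn 𝔫 φ →
    IntegrableOn (fun g => φ g * (starRingEnd ℂ) (φ g)) F.D F.μ ∧
      (pair F φ φ = 0 → ∀ g : G K, φ g = 0)

/-- Convolution by a test function preserves the cusp functions; the adjoint is the convolution
by `adj f`; convolutions by SPHERICAL test functions commute (Gelfand's trick). -/
def ConvCusp (K : Type) [Field K] [NumberField K] (𝔫 : Ideal (𝓞 K)) : Prop :=
  ∀ F : Frame K,
    (∀ f : G K → ℂ, IsTestFn 𝔫 f → IsTestFn 𝔫 (adj f)) ∧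
    (∀ f : G K → ℂ, IsSphTestFn 𝔫 f → IsSphTestFn 𝔫 (adj f)) ∧
    (∀ f φ : G K → ℂ, IsTestFn 𝔫 f → IsCuspFn 𝔫 φ → IsCuspFn 𝔫 (conv F f φ)) ∧
    (∀ f φ ψ : G K → ℂ, IsTestFn 𝔫 f → IsCuspFn 𝔫 φ → IsCuspFn 𝔫 ψ →
      pair F (conv F f φ) ψ = pair F φ (conv F (adj f) ψ)) ∧
    (∀ f₁ f₂ φ : G K → ℂ, IsSphTestFn 𝔫 f₁ → IsSphTestFn 𝔫 f₂ → IsCuspFn 𝔫 φ →
      conv F f₁ (conv F f₂ φ) = conv F f₂ (conv F f₁ φ))

/-- **THE ESTIMATE, core form**: for an automorphic `ψ` of level `𝔫` with constant term `Ψ`, the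
function `R(f)ψ - R(f)Ψ` is rapidly decreasing on the Siegel set `{H ≥ c}`:
`|R(f)ψ(x) - R(f)Ψ(x)| H(x)^N ≤ C ‖ψ‖₂`, with `C, c` depending on the frame, on `f` and on `N`
only.  (`H` = the height `T1.HasHeight`.)  Cuspidality is NOT assumed: this is the common core of
the classical estimate (`Ψ = 0`) and of the Eisenstein-killing estimate (`R(f)Ψ = 0`).
[Godement, Proc. Symp. Pure Math. 9, pp. 225--234], [Bump, §2.3 and §3.3],
[Garrett, vol. 1, ch. 7], [Lang, `SL₂(ℝ)`, ch. XII], [Harish-Chandra, LNM 62, ch. I].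
Proof: `R(f)ψ(x) = ∫_{N(K)\G} (∑_{ξ ∈ K} f(x⁻¹ n(ξ) y)) ψ(y) dy`; Poisson summation on
`K \ 𝔸_K` (T3 `PoissonNDC`): the term `ξ = 0` is `R(f)Ψ(x)`, the terms `ξ ≠ 0` are
`O(H(x)^{-N})` because `f` is smooth at infinity and locally constant at the finite places;
the support in `y` is `N(𝔸) x Ω`, which maps to `GL₂(K) \ G` with bounded multiplicity
(`T1.SiegelSepC`). -/
def GPSCore (K : Type) [Field K] [NumberField K] (𝔫 : Ideal (𝓞 K)) : Prop :=
  ∀ (F : Frame K) (f : G K → ℂ), IsTestFn 𝔫 f → ∀ N : ℕ,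
    ∃ C c : ℝ, 0 < c ∧ ∀ ψ Ψ : G K → ℂ, IsAutFn 𝔫 ψ → IsConstTerm ψ Ψ →
      ∀ (x : G K) (t : ℝ), T1.HasHeight K x t → c ≤ t →
        ‖conv F f ψ x - conv F f Ψ x‖ * t ^ N ≤ C * Real.sqrt (nsq F ψ)

/-- `R(f)` kills the constant terms of the automorphic functions of level `𝔫`
(the EK functions of T3 do: `T3.EKKillC`, `T3.ConstTermC`). -/
def KillsConstTerms (𝔫 : Ideal (𝓞 K)) (F : Frame K) (f : G K → ℂ) : Prop :=
  ∀ ψ Ψ : G K → ℂ, IsAutFn 𝔫 ψ → IsConstTerm ψ Ψ → ∀ x : G K, conv F f Ψ x = 0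

/-- **The estimate for a test function which kills the constant terms**: `sup |R(f) ψ| ≤ C ‖ψ‖₂`
for EVERY automorphic function of level `𝔫`.  (Lindenstrauss--Venkatesh, GAFA 17 (2007) §3;
memo helper261.) -/
def GPSKill (K : Type) [Field K] [NumberField K] (𝔫 : Ideal (𝓞 K)) : Prop :=
  ∀ (F : Frame K) (f : G K → ℂ), IsTestFn 𝔫 f → KillsConstTerms 𝔫 F f →
    ∃ C : ℝ, ∀ ψ : G K → ℂ, IsAutFn 𝔫 ψ →
      ∀ x : G K, ‖conv F f ψ x‖ ≤ C * Real.sqrt (nsq F ψ)

/-- **Hilbert--Schmidt form of `GPSKill`** (= `EK_HilbertSchmidt` of the T5 interface):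
`∑_i ‖R(f) ψ_i‖² ≤ C` for every finite orthonormal family of automorphic functions. -/
def HSKill (K : Type) [Field K] [NumberField K] (𝔫 : Ideal (𝓞 K)) : Prop :=
  ∀ (F : Frame K) (f : G K → ℂ), IsTestFn 𝔫 f → KillsConstTerms 𝔫 F f →
    ∃ C : ℝ, ∀ (n : ℕ) (ψ : Fin n → G K → ℂ), (∀ i, IsAutFn 𝔫 (ψ i)) →
      (∀ i j, pair F (ψ i) (ψ j) = if i = j then 1 else 0) →
      ∑ i, nsq F (conv F f (ψ i)) ≤ C

/-- **The Gelfand--Piatetski-Shapiro estimate**: `sup |R(f) φ| ≤ C(f) ‖φ‖₂` on the cusp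
functions.  [Godement, Proc. Symp. Pure Math. 9, pp. 225--234], [Bump, §2.3 and §3.3],
[Garrett, vol. 1, ch. 7], [Lang, `SL₂(ℝ)`, ch. XII].  Proof: `GPSCore` with `Ψ = 0` on the
Siegel set `{H ≥ c}`; the rest of a fundamental domain is compact modulo the centre
(`T1.ReductionC`, `T1.SiegelCompactC`), there the kernel is bounded. -/
def GPS (K : Type) [Field K] [NumberField K] (𝔫 : Ideal (𝓞 K)) : Prop :=
  ∀ (F : Frame K) (f : G K → ℂ), IsTestFn 𝔫 f →
    ∃ C : ℝ, ∀ φ : G K → ℂ, IsCuspFn 𝔫 φ →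
      ∀ x : G K, ‖conv F f φ x‖ ≤ C * Real.sqrt (nsq F φ)

/-- **Hilbert--Schmidt form of GPS**: `∑_i ‖R(f) φ_i‖² ≤ C` for every finite orthonormal family
of cusp functions. -/
def HSBound (K : Type) [Field K] [NumberField K] (𝔫 : Ideal (𝓞 K)) : Prop :=
  ∀ (F : Frame K) (f : G K → ℂ), IsTestFn 𝔫 f →
    ∃ C : ℝ, ∀ (n : ℕ) (φ : Fin n → G K → ℂ), (∀ i, IsCuspFn 𝔫 (φ i)) →
      (∀ i j, pair F (φ i) (φ j) = if i = j then 1 else 0) →
      ∑ i, nsq F (conv F f (φ i)) ≤ C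

/-- **Regularity form of GPS**: `R(f)` maps `L²`-Cauchy sequences of cusp functions to sequences
converging in `L²` to a cusp function. -/
def ConvRegular (K : Type) [Field K] [NumberField K] (𝔫 : Ideal (𝓞 K)) : Prop :=
  ∀ (F : Frame K) (f : G K → ℂ), IsTestFn 𝔫 f →
    ∀ φ : ℕ → G K → ℂ, (∀ k, IsCuspFn 𝔫 (φ k)) →
      (∀ ε : ℝ, 0 < ε → ∃ N : ℕ, ∀ k ≥ N, ∀ l ≥ N,
        nsq F (fun g => φ k g - φ l g) < ε) →
      ∃ ψ : G K → ℂ, IsCuspFn 𝔫 ψ ∧
        Filter.Tendsto (fun k => nsq F (fun g => conv F f (φ k) g - ψ g)) Filter.atTop (nhds 0)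

/-- **Approximate units**: every cusp function is an `L²`-limit of `R(f) φ`, `f` spherical and
self-adjoint. -/
def ApproxId (K : Type) [Field K] [NumberField K] (𝔫 : Ideal (𝓞 K)) : Prop :=
  ∀ (F : Frame K) (φ : G K → ℂ), IsCuspFn 𝔫 φ → ∀ ε : ℝ, 0 < ε →
    ∃ f : G K → ℂ, IsSphTestFn 𝔫 f ∧ adj f = f ∧
      nsq F (fun g => conv F f φ g - φ g) < ε

/-- **The operators of the tower on the cusp functions**: they preserve the cusp functions, are
additive and homogeneous there, bounded in `L²`, commute, and each has an adjoint among them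
(`T_v* = S_v⁻¹ T_v`, `S_v* = S_v⁻¹`, sphere and circle means are self-adjoint,
`R(f)* = R(adj f)`).  [Shimura, Introduction to the arithmetic theory of automorphic functions,
ch. 3], [Bump §4.6], [Helgason, Groups and geometric analysis, ch. IV §§2--3]. -/
def OpsGood (K : Type) [Field K] [NumberField K] (𝔫 : Ideal (𝓞 K)) : Prop :=
  ∀ F : Frame K,
    (∀ T, IsOp 𝔫 F T → ∀ φ : G K → ℂ, IsCuspFn 𝔫 φ → IsCuspFn 𝔫 (T φ)) ∧
    (∀ T, IsOp 𝔫 F T → ∀ (φ ψ : G K → ℂ) (c : ℂ), IsCuspFn 𝔫 φ → IsCuspFn 𝔫 ψ →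
      T (fun g => φ g + c * ψ g) = fun g => T φ g + c * T ψ g) ∧
    (∀ T, IsOp 𝔫 F T → ∃ C : ℝ, ∀ φ : G K → ℂ, IsCuspFn 𝔫 φ → nsq F (T φ) ≤ C * nsq F φ) ∧
    (∀ S T, IsOp 𝔫 F S → IsOp 𝔫 F T → ∀ φ : G K → ℂ, IsCuspFn 𝔫 φ → S (T φ) = T (S φ)) ∧
    (∀ T, IsOp 𝔫 F T → ∃ T', IsOp 𝔫 F T' ∧ ∀ φ ψ : G K → ℂ, IsCuspFn 𝔫 φ → IsCuspFn 𝔫 ψ →
      pair F (T φ) ψ = pair F φ (T' ψ))

/-- **The explicit adjoints** (needed for the unitarity relations of `IsCuspBasis`): `S_z` is an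
isometry, `T_H* = S_z⁻¹ T_H`, the sphere and circle means are self-adjoint.  TRUE for every coset
system `H` (the Hecke sum of a cusp function does not depend on `H`); for the proof take a
symmetric coset system.  Petersson invariance: `∫_D Φ(g h) dμ = ∫_D Φ(g) dμ` for every `h` and
every `GL₂(K)`-left- and `Z⁺`-invariant `Φ` (`T1.UnimodC`).  [Shimura, Introduction to the
arithmetic theory of automorphic functions, §3.4], [Bump, §4.6], [Miyake, Modular forms, §4.5]. -/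
def OpsAdj (K : Type) [Field K] [NumberField K] (𝔫 : Ideal (𝓞 K)) : Prop :=
  ∀ F : Frame K,
    (∀ v : HeightOneSpectrum (𝓞 K), ¬ v.asIdeal ∣ 𝔫 → ∀ z : G K, IsScalarUniformizerAt v z →
      ∀ φ ψ : G K → ℂ, IsCuspFn 𝔫 φ → IsCuspFn 𝔫 ψ →
        pair F (shift z φ) (shift z ψ) = pair F φ ψ) ∧
    (∀ v : HeightOneSpectrum (𝓞 K), ¬ v.asIdeal ∣ 𝔫 → ∀ (H : Finset (G K)) (z : G K),
      IsHeckeCosetSystem v H → IsScalarUniformizerAt v z →
      ∀ φ ψ : G K → ℂ, IsCuspFn 𝔫 φ → IsCuspFn 𝔫 ψ →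
        pair F (heckeSum H φ) ψ = pair F φ (shift z⁻¹ (heckeSum H ψ))) ∧
    (∀ w : InfinitePlace K, w.IsComplex → ∀ d : ℝ, 0 < d → ∀ Y : ℝ → ℝ → G K, IsSphereAt w d Y →
      ∀ φ ψ : G K → ℂ, IsCuspFn 𝔫 φ → IsCuspFn 𝔫 ψ →
        pair F (sphereMean Y φ) ψ = pair F φ (sphereMean Y ψ)) ∧
    (∀ w : InfinitePlace K, w.IsReal → ∀ t : ℝ, 0 < t → ∀ Y : ℝ → G K, IsCircleAt w t Y →
      ∀ φ ψ : G K → ℂ, IsCuspFn 𝔫 φ → IsCuspFn 𝔫 ψ →
        pair F (circleMean Y φ) ψ = pair F φ (circleMean Y ψ))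

/-- **Abstract spectral theorem** (Mathlib only; no automorphic content).  `V` a complex
pre-Hilbert space, `𝒜` a commuting family of bounded operators closed under adjoints, `𝒞 ⊆ 𝒜`
Hilbert--Schmidt, REGULAR (Cauchy sequences are mapped to sequences converging IN `V`) and
non-degenerate: then `V` has a complete orthonormal family of joint eigenvectors of `𝒜`.
Proof: completion of `V` (`UniformSpace.Completion`), Hilbert--Schmidt operators are compact,
joint eigenbasis of a commuting adjoint-closed family containing compact operators with trivial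
common kernel (pre-freeze assets of helper751, helper386, helper851, helper145, helper567);
the joint eigenspaces are finite dimensional and contained in `V` by regularity. -/
def AbstractSpectral : Prop :=
  ∀ (V : Type) [NormedAddCommGroup V] [InnerProductSpace ℂ V]
    (𝒜 𝒞 : Set (V →ₗ[ℂ] V)),
    𝒞 ⊆ 𝒜 →
    (∀ A ∈ 𝒜, ∀ B ∈ 𝒜, A ∘ₗ B = B ∘ₗ A) →
    (∀ A ∈ 𝒜, ∃ B ∈ 𝒜, ∀ x y : V, inner ℂ (A x) y = inner ℂ x (B y)) →
    (∀ A ∈ 𝒜, ∃ C : ℝ, ∀ x : V, ‖A x‖ ≤ C * ‖x‖) →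
    (∀ A ∈ 𝒞, ∃ C : ℝ, ∀ (n : ℕ) (x : Fin n → V), Orthonormal ℂ x →
      ∑ i, ‖A (x i)‖ ^ 2 ≤ C) →
    (∀ A ∈ 𝒞, ∀ x : ℕ → V, CauchySeq x →
      ∃ y : V, Filter.Tendsto (fun k => A (x k)) Filter.atTop (nhds y)) →
    (∀ x : V, ∀ ε : ℝ, 0 < ε → ∃ A ∈ 𝒞, ‖A x - x‖ < ε) →
    ∃ (ι : Type) (e : ι → V), Orthonormal ℂ e ∧
      (∀ A ∈ 𝒜, ∀ i, ∃ c : ℂ, A (e i) = c • e i) ∧
      ∀ x : V, HasSum (fun i => ‖inner ℂ (e i) x‖ ^ 2) (‖x‖ ^ 2)

/-! ## 5. The sub-leaves of `CuspSpec` (registry `T2.01` -- `T2.09`, `T2.13`)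

Every leaf takes the output `T1.T1Out K` of tower T1 as a hypothesis. -/

/-- **T2.01** `PairDefinite` (and `FrameExists`) from T1.  (≈ 0.8k lines.) -/
def Leaf01 (K : Type) [Field K] [NumberField K] : Prop :=
  T1.T1Out K → FrameExists K ∧ ∀ 𝔫 : Ideal (𝓞 K), 𝔫 ≠ ⊥ → PairDefinite K 𝔫

/-- **T2.02** `ConvCusp` from T1: Fubini, unimodularity (`T1.UnimodC`), Gelfand's trick with the
transpose.  (≈ 2.5k lines.) -/
def Leaf02 (K : Type) [Field K] [NumberField K] : Prop :=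
  T1.T1Out K → ∀ 𝔫 : Ideal (𝓞 K), 𝔫 ≠ ⊥ → ConvCusp K 𝔫

/-- **T2.03** THE ESTIMATE `GPSCore` (the analytic heart of the tower).  Needs Poisson summation
on `K \ 𝔸_K` in addition (tower T3, `PoissonNDC`; to be added as a hypothesis by the owner; the
statement is true as it stands).  (≈ 2 × 3k lines: the kernel on a Siegel set and the Fourier
expansion along `N`; decay of the terms `ξ ≠ 0`; the owner splits.) -/
def Leaf03 (K : Type) [Field K] [NumberField K] : Prop :=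
  T1.T1Out K → ∀ 𝔫 : Ideal (𝓞 K), 𝔫 ≠ ⊥ → GPSCore K 𝔫

/-- **T2.13** `GPSCore ⇒ GPS` and `GPSCore ⇒ GPSKill`: reduction theory (`T1.ReductionC`,
`T1.SiegelCompactC`) and the bounded kernel on the compact part.  (≈ 1.5k lines.) -/
def Leaf13 (K : Type) [Field K] [NumberField K] : Prop :=
  T1.T1Out K → ∀ 𝔫 : Ideal (𝓞 K), 𝔫 ≠ ⊥ → GPSCore K 𝔫 → GPS K 𝔫 ∧ GPSKill K 𝔫

/-- **T2.04** `GPS ⇒ HSBound` and `GPSKill ⇒ HSKill`: Bessel at a point, then integrate over the
domain of finite volume (asset: helper567 `sum_norm_sq_le567`).  (≈ 0.8k lines.) -/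
def Leaf04 (K : Type) [Field K] [NumberField K] : Prop :=
  T1.T1Out K → ∀ 𝔫 : Ideal (𝓞 K), 𝔫 ≠ ⊥ →
    (GPS K 𝔫 → HSBound K 𝔫) ∧ (GPSKill K 𝔫 → HSKill K 𝔫)

/-- **T2.05** `GPS ⇒ ConvRegular`: uniform limits of cusp functions are cusp functions.
(≈ 1k lines.) -/
def Leaf05 (K : Type) [Field K] [NumberField K] : Prop :=
  T1.T1Out K → ∀ 𝔫 : Ideal (𝓞 K), 𝔫 ≠ ⊥ → PairDefinite K 𝔫 → ConvCusp K 𝔫 → GPS K 𝔫 →
    ConvRegular K 𝔫

/-- **T2.06** `ApproxId`: spherical bump functions shrinking to `U(𝔫) K_∞ Z⁺`.  (≈ 2k lines.) -/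
def Leaf06 (K : Type) [Field K] [NumberField K] : Prop :=
  T1.T1Out K → ∀ 𝔫 : Ideal (𝓞 K), 𝔫 ≠ ⊥ → PairDefinite K 𝔫 → ConvCusp K 𝔫 → ApproxId K 𝔫

/-- **T2.07** `OpsGood` and `OpsAdj`: the Hecke operators (`T1.HeckeCosetC`) and the sphere means
on the cusp functions.  (≈ 3k lines; the owner may split finite / infinite places.) -/
def Leaf07 (K : Type) [Field K] [NumberField K] : Prop :=
  T1.T1Out K → ∀ 𝔫 : Ideal (𝓞 K), 𝔫 ≠ ⊥ → PairDefinite K 𝔫 → ConvCusp K 𝔫 →
    OpsGood K 𝔫 ∧ OpsAdj K 𝔫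

/-- **T2.08** the abstract spectral theorem.  (≈ 1.5k lines over the pre-freeze assets, Mathlib
only.) -/
def Leaf08 : Prop := AbstractSpectral

/-- **T2.09** ASSEMBLY: the cusp functions with `pair` are a pre-Hilbert space `V`, the operators
`IsOp` act on it; apply `AbstractSpectral`; a joint eigenvector of all `IsOp` satisfies
`IsHeckeEigenAt`, `MeanEigC`, `MeanEigR` pointwise; the unitarity relations follow from `OpsAdj`
(`conj_a`, `real_m`) and from the boundedness of the eigenfunction (`unit_b`, `bound_a`).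
(≈ 2.5k lines.) -/
def Leaf09 (K : Type) [Field K] [NumberField K] : Prop :=
  T1.T1Out K → AbstractSpectral → ∀ 𝔫 : Ideal (𝓞 K), 𝔫 ≠ ⊥ → PairDefinite K 𝔫 → ConvCusp K 𝔫 →
    HSBound K 𝔫 → ConvRegular K 𝔫 → ApproxId K 𝔫 → OpsGood K 𝔫 → OpsAdj K 𝔫 → CuspSpec K 𝔫

/-- ALL SUB-LEAVES of `CuspSpec` for the number field `K`. -/
structure Leaves (K : Type) [Field K] [NumberField K] : Prop where
  l01 : Leaf01 K
  l02 : Leaf02 K
  l03 : Leaf03 K
  l04 : Leaf04 K
  l05 : Leaf05 K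
  l06 : Leaf06 K
  l07 : Leaf07 K
  l08 : Leaf08
  l09 : Leaf09 K
  l13 : Leaf13 K

/-- **TOP of the tower, part 1**: the discreteness of the cuspidal spectrum from the leaves. -/
theorem top_cuspSpec (K : Type) [Field K] [NumberField K] (L : Leaves K) (hT1 : T1.T1Out K)
    (𝔫 : Ideal (𝓞 K)) (h𝔫 : 𝔫 ≠ ⊥) : CuspSpec K 𝔫 := by
  have hP : PairDefinite K 𝔫 := (L.l01 hT1).2 𝔫 h𝔫
  have hC : ConvCusp K 𝔫 := L.l02 hT1 𝔫 h𝔫
  have hG : GPS K 𝔫 := (L.l13 hT1 𝔫 h𝔫 (L.l03 hT1 𝔫 h𝔫)).1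
  have hO := L.l07 hT1 𝔫 h𝔫 hP hC
  exact L.l09 hT1 L.l08 𝔫 h𝔫 hP hC ((L.l04 hT1 𝔫 h𝔫).1 hG) (L.l05 hT1 𝔫 h𝔫 hP hC hG)
    (L.l06 hT1 𝔫 h𝔫 hP hC) hO.1 hO.2

/-- The estimates are part of the interface as well (T3', T4, T5 use them), and frames exist. -/
theorem top_gps (K : Type) [Field K] [NumberField K] (L : Leaves K) (hT1 : T1.T1Out K)
    (𝔫 : Ideal (𝓞 K)) (h𝔫 : 𝔫 ≠ ⊥) :
    FrameExists K ∧ PairDefinite K 𝔫 ∧ ConvCusp K 𝔫 ∧ GPSCore K 𝔫 ∧ GPS K 𝔫 ∧ HSBound K 𝔫 ∧
      ConvRegular K 𝔫 ∧ GPSKill K 𝔫 ∧ HSKill K 𝔫 := by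
  have hP : PairDefinite K 𝔫 := (L.l01 hT1).2 𝔫 h𝔫
  have hC : ConvCusp K 𝔫 := L.l02 hT1 𝔫 h𝔫
  have hCore : GPSCore K 𝔫 := L.l03 hT1 𝔫 h𝔫
  have hG := L.l13 hT1 𝔫 h𝔫 hCore
  have h4 := L.l04 hT1 𝔫 h𝔫
  exact ⟨(L.l01 hT1).1, hP, hC, hCore, hG.1, h4.1 hG.1, L.l05 hT1 𝔫 h𝔫 hP hC hG.1, hG.2,
    h4.2 hG.2⟩

/-! ## 6. Strong multiplicity one: the cases (registry `T2.10` -- `T2.12`) -/

/-- **T2.10** SMO, adelic--adelic case (the main case; over `E`, `F` the only one).
[Jacquet--Langlands §11], [Casselman 1973], [Miyake 1971].  (LARGE: Whittaker--Fourier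
expansion of cusp functions, local uniqueness at the unramified places, the newform argument at
the finitely many exceptional places; the owner splits; ≥ 10 sub-leaves.) -/
def SMO_AA (K : Type) [Field K] [NumberField K] : Prop :=
  ∀ π π' : HeckeEigensystem K ℂ, IsCuspAdelicSph0 K π → IsCuspAdelicSph0 K π' →
    HeckeEigensystem.AgreesAwayFromFinite π π' →
    ∀ v : HeightOneSpectrum (𝓞 K), ¬ v.asIdeal ∣ π.level → ¬ v.asIdeal ∣ π'.level →
      π.a v = π'.a v ∧ π.b v = π'.b v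

/-- **T2.11** SMO, holomorphic--holomorphic case (`[K : ℚ] = 1`, classical weight one forms).
[Miyake, Modular forms, §4.6], [Atkin--Lehner 1970], [Li 1975].  (≈ 3 × 3k lines.) -/
def SMO_HH (K : Type) [Field K] [NumberField K] : Prop :=
  ∀ π π' : HeckeEigensystem K ℂ, IsCuspHolQ K π → IsCuspHolQ K π' →
    HeckeEigensystem.AgreesAwayFromFinite π π' →
    ∀ v : HeightOneSpectrum (𝓞 K), ¬ v.asIdeal ∣ π.level → ¬ v.asIdeal ∣ π'.level →
      π.a v = π'.a v ∧ π.b v = π'.b v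

/-- **T2.12** SMO, mixed case: a Maass form of parameter `0` and a holomorphic form of weight one
over `ℚ` with the same eigenvalues at almost all primes have the same eigenvalues at the good
primes (in fact the hypothesis is never satisfied: [Jacquet--Langlands §11] with the
archimedean components). -/
def SMO_AH (K : Type) [Field K] [NumberField K] : Prop :=
  ∀ π π' : HeckeEigensystem K ℂ, IsCuspAdelicSph0 K π → IsCuspHolQ K π' →
    HeckeEigensystem.AgreesAwayFromFinite π π' →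
    ∀ v : HeightOneSpectrum (𝓞 K), ¬ v.asIdeal ∣ π.level → ¬ v.asIdeal ∣ π'.level →
      π.a v = π'.a v ∧ π.b v = π'.b v

theorem agreesAwayFromFinite_symm {π π' : HeckeEigensystem K ℂ}
    (h : HeckeEigensystem.AgreesAwayFromFinite π π') :
    HeckeEigensystem.AgreesAwayFromFinite π' π := by
  obtain ⟨S, hS⟩ := h
  exact ⟨S, fun v hv => ⟨(hS v hv).1.symm, (hS v hv).2.symm⟩⟩

/-- **TOP of the tower, part 2**: strong multiplicity one on `notion556` from the three cases. -/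
theorem top_smo (K : Type) [Field K] [NumberField K]
    (hAA : SMO_AA K) (hHH : SMO_HH K) (hAH : SMO_AH K) : SMO K := by
  intro π π' hπ hπ' hag v hv hv'
  rcases hπ with h | h <;> rcases hπ' with h' | h'
  · exact hAA π π' h h' hag v hv hv'
  · exact hAH π π' h h' hag v hv hv'
  · have := hAH π' π h' h (agreesAwayFromFinite_symm hag) v hv' hv
    exact ⟨this.1.symm, this.2.symm⟩
  · exact hHH π π' h h' hag v hv hv'

end Fermat.Agent.LT.T2

end
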