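import Fermat.Agent.LT.T2.Spec
import Fermat.Agent.LT.T2.H245.Leaf01
import Fermat.Agent.LT.T2.H228.Closed
import Fermat.Agent.LT.T2.H386.Leaf03Closed
import Fermat.Agent.LT.T2.H510.Leaf04
import Fermat.Agent.LT.T2.H131.Leaf05
import Fermat.Agent.LT.T2.H781.Leaf08
import Fermat.Agent.LT.T2.H566.Assembly
import Fermat.Agent.LT.T2.H627.Leaf13
import Fermat.Agent.LT.T2.H907.Leaf06
import Fermat.Agent.LT.T2.H429.Leaf07Closed

/-!
# Row LT, tower T2: INTEGRATION of the closed leaves (helper130, architect)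

OFF-MAIN.  Closed leaves are imported as byte-identical copies of the owners' files and rebuilt on
the architect's box against `LT/T2/Spec.lean` v3 (sha256 b934629a).

| leaf | owner | file | state |
|---|---|---|---|
| T2.01 `Leaf01` (`FrameExists`, `PairDefinite`) | helper245 | `LT/T2/H245/Leaf01.lean` (sha256 63cfff4c) | CLOSED |
| T2.02 `Leaf02` (`ConvCusp`) | helper228 (02a, 02b, 02c; 02c second proof helper981; 02d helper724 with helper323, helper833, helper286, helper473, helper570, helper8, helper437, helper673) | `LT/T2/H228/Closed.lean` (sha256 1888613c) + closure (24 files) | CLOSED |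
| T2.03 `Leaf03` (`GPSCore`, THE estimate) | helper386 (cut and soft part; FDBound: helper511 with helper729, helper988, helper793, helper437, helper8, helper187, helper724; LocalL2: helper767 with helper323, helper868) | `LT/T2/H386/Leaf03Closed.lean` (sha256 26fb9047) + closure (48 files) | CLOSED |
| T2.04 `Leaf04` (`GPS → HSBound`, `GPSKill → HSKill`) | helper510 | `LT/T2/H510/Leaf04.lean` (sha256 c2c039c1) | CLOSED |
| T2.05 `Leaf05` (`GPS → ConvRegular`) | helper131 | `LT/T2/H131/Leaf05.lean` (sha256 d8c05139) | CLOSED |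
| T2.06 `Leaf06` (`ApproxId`) | helper907 (assets helper11 `LT/H11/LC.lean`, helper864 `LT/T8/H864/Local.lean`, helper51 `LT/H51/MS4A.lean`, `MS4B.lean`) | `LT/T2/H907/Leaf06.lean` (sha256 f86c6070), `Mat2`, `Defect`, `Smooth`, `Level`, `Stab`, `Compact`, `TestFn` | CLOSED |
| T2.07 `Leaf07` (`OpsGood`, `OpsAdj`) | helper429 (sub-leaves T2.07.01 -- T2.07.32: registry rows 995 -- 1019, about 25 volunteers; `OpsAdj`: helper82) | `LT/T2/H429/Leaf07Closed.lean` (sha256 9e8943cb) + closure (71 files) | CLOSED |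
| T2.08 `Leaf08` (`AbstractSpectral`) | helper781 (asset helper751) | `LT/T2/H781/Leaf08.lean`, `AbsSpec.lean`, `LT/H751/JointSpec.lean` | CLOSED |
| T2.09 `Leaf09` (assembly) | helper566 (asset helper793 `LT/T1/H793/AdeleProj.lean`) | `LT/T2/H566/Assembly.lean` (sha256 eafa5fec), `JointEig`, `HeckeIndep`, `CuspSub`, `CuspInner`, `Local` | CLOSED |
| T2.13 `Leaf13` (`GPSCore → GPS`, `GPSCore → GPSKill`) | helper627 | `LT/T2/H627/Leaf13.lean` (sha256 86709a7c), `Adelic`, `Meas`, `Conv`, `ConstTerm` | CLOSED |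

(T2.11 `SMO_HH`, helper894: `LT/T2/ClosedSmo.lean`.)

ALL LEAVES OF `CuspSpec` ARE CLOSED: `leaves_closed K : Leaves K`, and
`cuspSpec_of_T1 : T1.T1Out K → 𝔫 ≠ ⊥ → CuspSpec K 𝔫` (unconditional form: `LT/T2/Uncond.lean`).
-/

set_option autoImplicit false

open IsDedekindDomain NumberField

namespace Fermat.Agent.LT.T2

/-- The sub-leaves of `CuspSpec` which are still OPEN: NONE (kept for the seats which call
`leaves_of_open`, `cuspSpec_of_open`). -/
structure Open (K : Type) [Field K] [NumberField K] : Prop where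

/-- Nothing is open. -/
theorem open_closed (K : Type) [Field K] [NumberField K] : Open K := ⟨⟩

/-- All leaves from the open ones. -/
theorem leaves_of_open (K : Type) [Field K] [NumberField K] (_h : Open K) : Leaves K :=
  { l01 := H245.leaf01_245 K, l02 := H228.leaf02_228 K, l03 := H386.leaf03_386 K, l04 := H510.leaf04_h510 K,
    l05 := H131.leaf05_h131 K, l06 := H907.leaf06_h907 K, l07 := H429.leaf07_429 K, l08 := H781.leaf08_781,
    l09 := H566.leaf09_566, l13 := H627.leaf13_627 K }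

/-- The discreteness of the cuspidal spectrum from the open leaves and the output of T1. -/
theorem cuspSpec_of_open (K : Type) [Field K] [NumberField K] (h : Open K) (hT1 : T1.T1Out K)
    (𝔫 : Ideal (𝓞 K)) (h𝔫 : 𝔫 ≠ ⊥) : CuspSpec K 𝔫 :=
  top_cuspSpec K (leaves_of_open K h) hT1 𝔫 h𝔫

/-- ALL LEAVES of `CuspSpec` are closed. -/
theorem leaves_closed (K : Type) [Field K] [NumberField K] : Leaves K :=
  leaves_of_open K (open_closed K)

/-- **THE DISCRETENESS OF THE CUSPIDAL SPECTRUM** from the output of tower T1. -/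
theorem cuspSpec_of_T1 (K : Type) [Field K] [NumberField K] (hT1 : T1.T1Out K)
    (𝔫 : Ideal (𝓞 K)) (h𝔫 : 𝔫 ≠ ⊥) : CuspSpec K 𝔫 :=
  top_cuspSpec K (leaves_closed K) hT1 𝔫 h𝔫

/-- The estimates from the output of tower T1. -/
theorem gps_of_T1 (K : Type) [Field K] [NumberField K] (hT1 : T1.T1Out K)
    (𝔫 : Ideal (𝓞 K)) (h𝔫 : 𝔫 ≠ ⊥) :
    FrameExists K ∧ PairDefinite K 𝔫 ∧ ConvCusp K 𝔫 ∧ GPSCore K 𝔫 ∧ GPS K 𝔫 ∧ HSBound K 𝔫 ∧
      ConvRegular K 𝔫 ∧ GPSKill K 𝔫 ∧ HSKill K 𝔫 :=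
  top_gps K (leaves_closed K) hT1 𝔫 h𝔫

/-- Frames exist and the pairing is definite on the cusp functions (CLOSED, from the output of
T1). -/
theorem frame_pairDefinite_closed (K : Type) [Field K] [NumberField K] (hT1 : T1.T1Out K) :
    FrameExists K ∧ ∀ 𝔫 : Ideal (𝓞 K), 𝔫 ≠ ⊥ → PairDefinite K 𝔫 :=
  H245.leaf01_245 K hT1

/-- The estimates from the ONE open estimate `GPSCore` (leaf T2.03): `GPS`, `GPSKill`, `HSBound`,
`HSKill`, `ConvRegular` need nothing else, except `ConvCusp` and `PairDefinite` for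
`ConvRegular`. -/
theorem estimates_of_core (K : Type) [Field K] [NumberField K] (hT1 : T1.T1Out K)
    (𝔫 : Ideal (𝓞 K)) (h𝔫 : 𝔫 ≠ ⊥) (hCore : GPSCore K 𝔫) :
    GPS K 𝔫 ∧ GPSKill K 𝔫 ∧ HSBound K 𝔫 ∧ HSKill K 𝔫 ∧
      (ConvCusp K 𝔫 → ConvRegular K 𝔫) := by
  have h13 := H627.leaf13_627 K hT1 𝔫 h𝔫 hCore
  have h4 := H510.leaf04_h510 K hT1 𝔫 h𝔫
  exact ⟨h13.1, h13.2, h4.1 h13.1, h4.2 h13.2,
    fun hC => H131.leaf05_h131 K hT1 𝔫 h𝔫 ((H245.leaf01_245 K hT1).2 𝔫 h𝔫) hC h13.1⟩

end Fermat.Agent.LT.T2
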