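import Mathlib
import Fermat.Agent.LT.H556.A0
import Fermat.Agent.LT.T1.Spec
import Fermat.Agent.LT.T2.Spec

/-!
# Row LT, tower T2: the SAME Props for the class of T5 (helper130, architect)

OFF-MAIN.  ADDITIVE to `LT/T2/Spec.lean` v3 (sha256 b934629a), which is not changed.
Definitions written out, Props, PROVED `top_cuspSpecT`, `top_gpsT`, `gps_of_gpsT`.

`LT/T2/Spec.lean` treats the class of A0: trivial `K_∞`-type, invariant under the positive scalars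
at EVERY infinite place.  The trace formula of T5 (helper32, Spec v3) lives on the larger class

* level `U(𝔫)`, `K_∞`-TYPE `τ` (`ψ(g k) = τ(k) ψ(g)`; `IsKType` = `T5.IsKType` verbatim),
* invariant under the generator `r` of the discrete ray only (`IsRayGen` = `T5.IsRayGen`
  verbatim): functions on `GL₂(K) ⟨r⟩ \ GL₂(𝔸_K)`, for which `pair F` IS the `L²` product
  (the slab is a fundamental domain of `⟨r⟩`).

`IsAutT`, `IsCuspT` are `T5.IsAutomorphicFn`, `T5.IsCuspFn` (same fields); `IsTestT` is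
`T5.IsTestFn` without the field `ktype`.  New operators: the central shifts at the infinite
places and the `τ`-twisted circle mean at the real places (the sphere mean at a complex place
needs no twist: a character of `U(2)` is trivial on `SU(2)`).  `IsCuspBasisT` carries the
characters `c j` of the central shifts: the A0 class is `τ = trivType`, `c j = 1`.

Every leaf `T2.0x` of `Spec.lean` has its `T`-form here (`LeafT0x`, SAME proof with `τ` and `r`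
as parameters); owners are asked to prove the `T`-form; `LeafT14`, `LeafT15` bring it back to the
A0 class.
-/

set_option autoImplicit false

open IsDedekindDomain NumberField MeasureTheory AutomorphicForm
open Fermat.Agent.LT.H556.A0
open scoped ContDiff

noncomputable section

namespace Fermat.Agent.LT.T2

variable {K : Type} [Field K] [NumberField K]

attribute [local instance] borelG

/-! ## 1. The class -/

/-- A `K_∞`-type: a unitary character of each group `K_w` (`SO(2)` at a real place, `U(2)` at a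
complex place), given as a function on `GL₂(𝔸_K)` of which only the values on the elements of the
groups `K_w` matter.  (`T5.IsKType` verbatim.) -/
structure IsKType (τ : G K → ℂ) : Prop where
  norm_one : ∀ (w : InfinitePlace K) (k : G K), IsArchCompact w k → ‖τ k‖ = 1
  mul : ∀ (w : InfinitePlace K) (k k' : G K), IsArchCompact w k → IsArchCompact w k' →
    τ (k * k') = τ k * τ k'
  cont : ∀ w : InfinitePlace K, ContinuousOn τ {k : G K | IsArchCompact w k}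

/-- The trivial `K_∞`-type. -/
def trivType : G K → ℂ := fun _ => 1

/-- `r` is the generator of the discrete ray: the positive scalar `t`, the same at every infinite
place, with `‖det r‖_𝔸 = t^{2 [K:ℚ]} = 2`; trivial at the finite places.  (`T5.IsRayGen`
verbatim.) -/
def IsRayGen (r : G K) : Prop :=
  (∀ v : HeightOneSpectrum (𝓞 K), TrivAtFin v r) ∧
    ∃ t : ℝ, 0 < t ∧ t ^ (2 * Module.finrank ℚ K) = 2 ∧
      ∀ w : InfinitePlace K, infComp w r = Matrix.diagonal (fun _ => (t : ℂ))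

/-- A frame with the ray generator. -/
structure FrameR (K : Type) [Field K] [NumberField K] where
  F : Frame K
  r : G K
  ray : IsRayGen r

/-- A bounded continuous automorphic function of level `U(𝔫)` and type `τ`, invariant under the
ray generator `r`. -/
structure IsAutT (𝔫 : Ideal (𝓞 K)) (τ : G K → ℂ) (r : G K) (ψ : G K → ℂ) : Prop where
  cont : Continuous ψ
  bdd : ∃ C : ℝ, ∀ g : G K, ‖ψ g‖ ≤ C
  left_inv : ∀ (γ : GL (Fin 2) K) (g : G K),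
    ψ (Matrix.GeneralLinearGroup.map (algebraMap K (Adl K)) γ * g) = ψ g
  level_inv : ∀ u : G K, InLevelGroup 𝔫 u → ∀ g : G K, ψ (g * u) = ψ g
  arch_compact : ∀ (w : InfinitePlace K) (k : G K), IsArchCompact w k →
    ∀ g : G K, ψ (g * k) = τ k * ψ g
  ray : ∀ g : G K, ψ (g * r) = ψ g

/-- A cusp function of level `U(𝔫)` and type `τ`, invariant under `r`. -/
structure IsCuspT (𝔫 : Ideal (𝓞 K)) (τ : G K → ℂ) (r : G K) (φ : G K → ℂ) : Prop where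
  aut : IsAutT 𝔫 τ r φ
  cuspidal : IsCuspidalFn φ

/-- A test function of level `U(𝔫)` and type `τ`:
`f(k₁ g k₂) = τ(k₁)⁻¹ τ(k₂)⁻¹ f(g)` (so that `conv F f` preserves the functions of type `τ`). -/
structure IsTestT (𝔫 : Ideal (𝓞 K)) (τ : G K → ℂ) (f : G K → ℂ) : Prop where
  cont : Continuous f
  smooth : IsSmoothAtInf f
  cpt : HasCompactSupport f
  level_right : ∀ u : G K, InLevelGroup 𝔫 u → ∀ g : G K, f (g * u) = f g
  level_left : ∀ u : G K, InLevelGroup 𝔫 u → ∀ g : G K, f (u * g) = f g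
  arch_right : ∀ (w : InfinitePlace K) (k : G K), IsArchCompact w k →
    ∀ g : G K, f (g * k) = (τ k)⁻¹ * f g
  arch_left : ∀ (w : InfinitePlace K) (k : G K), IsArchCompact w k →
    ∀ g : G K, f (k * g) = (τ k)⁻¹ * f g

/-- A spherical test function of type `τ`. -/
structure IsSphTestT (𝔫 : Ideal (𝓞 K)) (τ : G K → ℂ) (f : G K → ℂ) : Prop where
  test : IsTestT 𝔫 τ f
  bad_unit : ∀ g : G K, f g ≠ 0 → ∀ v : HeightOneSpectrum (𝓞 K), v.asIdeal ∣ 𝔫 →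
    ∀ i j : Fin 2, (finComp v g - 1) i j ∈ idealClosure 𝔫 v ∧
      (finComp v g⁻¹ - 1) i j ∈ idealClosure 𝔫 v

/-- `k` parametrises the rotations at the real place `w` (`rotY θ` = rotation of angle `θ/2`). -/
def IsRotAt (w : InfinitePlace K) (k : ℝ → G K) : Prop :=
  ∀ θ : ℝ, IsLocalAtInf w (k θ) ∧ infComp w (k θ) = rotY θ

/-- `a` is the torus element `diag(e^{t/2}, e^{-t/2})` at the place `w`. -/
def IsTorusAt (w : InfinitePlace K) (t : ℝ) (a : G K) : Prop :=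
  IsLocalAtInf w a ∧ infComp w a = torus t

/-- The `τ`-twisted circle mean at a real place:
`(M φ)(g) = ∫₀^{2π} τ(k_θ)⁻¹ φ(g k_θ a) dθ`. -/
def circleMeanT (τ : G K → ℂ) (k : ℝ → G K) (a : G K) (φ : G K → ℂ) : G K → ℂ :=
  fun g => ∫ θ in (0 : ℝ)..(2 * Real.pi), (τ (k θ))⁻¹ * φ (g * k θ * a)

/-- `φ` is an eigenfunction of the `τ`-twisted circle means at the real place `w`. -/
def MeanEigRT (τ : G K → ℂ) (φ : G K → ℂ) (w : InfinitePlace K) (m : ℝ → ℂ) : Prop :=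
  ∀ t : ℝ, 0 < t → ∀ (k : ℝ → G K) (a : G K), IsRotAt w k → IsTorusAt w t a →
    ∀ g : G K, circleMeanT τ k a φ g = m t * φ g

/-- The operators of the class: those of `IsOp` (circle means `τ`-twisted) and the central shifts
at the infinite places. -/
inductive IsOpT (𝔫 : Ideal (𝓞 K)) (τ : G K → ℂ) (F : Frame K) :
    ((G K → ℂ) → (G K → ℂ)) → Prop
  | conv (f : G K → ℂ) (hf : IsSphTestT 𝔫 τ f) : IsOpT 𝔫 τ F (conv F f)
  | hecke (v : HeightOneSpectrum (𝓞 K)) (hv : ¬ v.asIdeal ∣ 𝔫) (H : Finset (G K))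
      (hH : IsHeckeCosetSystem v H) : IsOpT 𝔫 τ F (heckeSum H)
  | shift (v : HeightOneSpectrum (𝓞 K)) (hv : ¬ v.asIdeal ∣ 𝔫) (z : G K)
      (hz : IsScalarUniformizerAt v z) : IsOpT 𝔫 τ F (shift z)
  | shiftInv (v : HeightOneSpectrum (𝓞 K)) (hv : ¬ v.asIdeal ∣ 𝔫) (z : G K)
      (hz : IsScalarUniformizerAt v z) : IsOpT 𝔫 τ F (shift z⁻¹)
  | central (w : InfinitePlace K) (z : G K) (hz : IsArchPosScalar w z) : IsOpT 𝔫 τ F (shift z)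
  | centralInv (w : InfinitePlace K) (z : G K) (hz : IsArchPosScalar w z) :
      IsOpT 𝔫 τ F (shift z⁻¹)
  | sphere (w : InfinitePlace K) (hw : w.IsComplex) (d : ℝ) (hd : 0 < d) (Y : ℝ → ℝ → G K)
      (hY : IsSphereAt w d Y) : IsOpT 𝔫 τ F (sphereMean Y)
  | circle (w : InfinitePlace K) (hw : w.IsReal) (t : ℝ) (ht : 0 < t) (k : ℝ → G K) (a : G K)
      (hk : IsRotAt w k) (ha : IsTorusAt w t a) : IsOpT 𝔫 τ F (circleMeanT τ k a)
  | comp (S T : (G K → ℂ) → (G K → ℂ)) (hS : IsOpT 𝔫 τ F S) (hT : IsOpT 𝔫 τ F T) :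
      IsOpT 𝔫 τ F (fun φ => S (T φ))

/-! ## 2. The tower Props for the class -/

/-- An orthonormal, complete family of joint eigen-cusp-functions of the class `(𝔫, τ, r)`;
`c j z` is the eigenvalue of the central shift by `z` (`z` a positive scalar at one infinite
place). -/
structure IsCuspBasisT (𝔫 : Ideal (𝓞 K)) (τ : G K → ℂ) (R : FrameR K) {ι : Type}
    (u : ι → G K → ℂ) (m : ι → InfinitePlace K → ℝ → ℂ)
    (a b : ι → HeightOneSpectrum (𝓞 K) → ℂ) (c : ι → G K → ℂ) : Prop where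
  cusp : ∀ j, IsCuspT 𝔫 τ R.r (u j)
  norm_one : ∀ j, pair R.F (u j) (u j) = 1
  orth : ∀ i j, i ≠ j → pair R.F (u i) (u j) = 0
  eig_complex : ∀ j (w : InfinitePlace K), w.IsComplex → MeanEigC (u j) w (m j w)
  eig_real : ∀ j (w : InfinitePlace K), w.IsReal → MeanEigRT τ (u j) w (m j w)
  hecke : ∀ j (v : HeightOneSpectrum (𝓞 K)), ¬ v.asIdeal ∣ 𝔫 →
    IsHeckeEigenAt (u j) v (a j v) (b j v)
  central : ∀ j (w : InfinitePlace K) (z : G K), IsArchPosScalar w z →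
    ∀ g : G K, u j (g * z) = c j z * u j g
  unit_c : ∀ j (w : InfinitePlace K) (z : G K), IsArchPosScalar w z → ‖c j z‖ = 1
  unit_b : ∀ j (v : HeightOneSpectrum (𝓞 K)), ¬ v.asIdeal ∣ 𝔫 → ‖b j v‖ = 1
  conj_a : ∀ j (v : HeightOneSpectrum (𝓞 K)), ¬ v.asIdeal ∣ 𝔫 →
    (starRingEnd ℂ) (a j v) = a j v * (starRingEnd ℂ) (b j v)
  bound_a : ∀ j (v : HeightOneSpectrum (𝓞 K)), ¬ v.asIdeal ∣ 𝔫 →
    ‖a j v‖ * Real.sqrt (Ideal.absNorm v.asIdeal : ℝ) ≤ (Ideal.absNorm v.asIdeal : ℝ) + 1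
  real_m : ∀ j (w : InfinitePlace K) (d : ℝ), 0 < d → (m j w d).im = 0
  parseval : ∀ φ : G K → ℂ, IsCuspT 𝔫 τ R.r φ →
    HasSum (fun j => ‖pair R.F φ (u j)‖ ^ 2) (nsq R.F φ)

/-- **TOWER PROP 1, class of T5** (= `T5.CuspONBExistsC` with an arbitrary index type, plus the
eigen-properties). -/
def CuspSpecT (K : Type) [Field K] [NumberField K] (𝔫 : Ideal (𝓞 K)) (τ : G K → ℂ) : Prop :=
  ∀ R : FrameR K, ∃ (ι : Type) (u : ι → G K → ℂ) (m : ι → InfinitePlace K → ℝ → ℂ)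
    (a b : ι → HeightOneSpectrum (𝓞 K) → ℂ) (c : ι → G K → ℂ), IsCuspBasisT 𝔫 τ R u m a b c

/-- `PairDefinite` for the class. -/
def PairDefiniteT (K : Type) [Field K] [NumberField K] (𝔫 : Ideal (𝓞 K)) (τ : G K → ℂ) : Prop :=
  ∀ (R : FrameR K) (φ : G K → ℂ), IsCuspT 𝔫 τ R.r φ →
    IntegrableOn (fun g => φ g * (starRingEnd ℂ) (φ g)) R.F.D R.F.μ ∧
      (pair R.F φ φ = 0 → ∀ g : G K, φ g = 0)

/-- `ConvCusp` for the class. -/
def ConvCuspT (K : Type) [Field K] [NumberField K] (𝔫 : Ideal (𝓞 K)) (τ : G K → ℂ) : Prop :=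
  ∀ R : FrameR K,
    (∀ f : G K → ℂ, IsTestT 𝔫 τ f → IsTestT 𝔫 τ (adj f)) ∧
    (∀ f : G K → ℂ, IsSphTestT 𝔫 τ f → IsSphTestT 𝔫 τ (adj f)) ∧
    (∀ f φ : G K → ℂ, IsTestT 𝔫 τ f → IsCuspT 𝔫 τ R.r φ → IsCuspT 𝔫 τ R.r (conv R.F f φ)) ∧
    (∀ f ψ : G K → ℂ, IsTestT 𝔫 τ f → IsAutT 𝔫 τ R.r ψ → IsAutT 𝔫 τ R.r (conv R.F f ψ)) ∧
    (∀ f φ ψ : G K → ℂ, IsTestT 𝔫 τ f → IsAutT 𝔫 τ R.r φ → IsAutT 𝔫 τ R.r ψ →
      pair R.F (conv R.F f φ) ψ = pair R.F φ (conv R.F (adj f) ψ)) ∧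
    (∀ f₁ f₂ ψ : G K → ℂ, IsSphTestT 𝔫 τ f₁ → IsSphTestT 𝔫 τ f₂ → IsAutT 𝔫 τ R.r ψ →
      conv R.F f₁ (conv R.F f₂ ψ) = conv R.F f₂ (conv R.F f₁ ψ))

/-- `GPSCore` for the class. -/
def GPSCoreT (K : Type) [Field K] [NumberField K] (𝔫 : Ideal (𝓞 K)) (τ : G K → ℂ) : Prop :=
  ∀ (R : FrameR K) (f : G K → ℂ), IsTestT 𝔫 τ f → ∀ N : ℕ,
    ∃ C c : ℝ, 0 < c ∧ ∀ ψ Ψ : G K → ℂ, IsAutT 𝔫 τ R.r ψ → IsConstTerm ψ Ψ →
      ∀ (x : G K) (t : ℝ), T1.HasHeight K x t → c ≤ t →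
        ‖conv R.F f ψ x - conv R.F f Ψ x‖ * t ^ N ≤ C * Real.sqrt (nsq R.F ψ)

/-- `GPS` for the class. -/
def GPST (K : Type) [Field K] [NumberField K] (𝔫 : Ideal (𝓞 K)) (τ : G K → ℂ) : Prop :=
  ∀ (R : FrameR K) (f : G K → ℂ), IsTestT 𝔫 τ f →
    ∃ C : ℝ, ∀ φ : G K → ℂ, IsCuspT 𝔫 τ R.r φ →
      ∀ x : G K, ‖conv R.F f φ x‖ ≤ C * Real.sqrt (nsq R.F φ)

/-- `KillsConstTerms` for the class. -/
def KillsConstTermsT (𝔫 : Ideal (𝓞 K)) (τ : G K → ℂ) (R : FrameR K) (f : G K → ℂ) : Prop :=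
  ∀ ψ Ψ : G K → ℂ, IsAutT 𝔫 τ R.r ψ → IsConstTerm ψ Ψ → ∀ x : G K, conv R.F f Ψ x = 0

/-- `GPSKill` for the class. -/
def GPSKillT (K : Type) [Field K] [NumberField K] (𝔫 : Ideal (𝓞 K)) (τ : G K → ℂ) : Prop :=
  ∀ (R : FrameR K) (f : G K → ℂ), IsTestT 𝔫 τ f → KillsConstTermsT 𝔫 τ R f →
    ∃ C : ℝ, ∀ ψ : G K → ℂ, IsAutT 𝔫 τ R.r ψ →
      ∀ x : G K, ‖conv R.F f ψ x‖ ≤ C * Real.sqrt (nsq R.F ψ)

/-- `HSBound` for the class. -/
def HSBoundT (K : Type) [Field K] [NumberField K] (𝔫 : Ideal (𝓞 K)) (τ : G K → ℂ) : Prop :=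
  ∀ (R : FrameR K) (f : G K → ℂ), IsTestT 𝔫 τ f →
    ∃ C : ℝ, ∀ (n : ℕ) (φ : Fin n → G K → ℂ), (∀ i, IsCuspT 𝔫 τ R.r (φ i)) →
      (∀ i j, pair R.F (φ i) (φ j) = if i = j then 1 else 0) →
      ∑ i, nsq R.F (conv R.F f (φ i)) ≤ C

/-- `HSKill` for the class (= `EK_HilbertSchmidt` of the T5 interface). -/
def HSKillT (K : Type) [Field K] [NumberField K] (𝔫 : Ideal (𝓞 K)) (τ : G K → ℂ) : Prop :=
  ∀ (R : FrameR K) (f : G K → ℂ), IsTestT 𝔫 τ f → KillsConstTermsT 𝔫 τ R f →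
    ∃ C : ℝ, ∀ (n : ℕ) (ψ : Fin n → G K → ℂ), (∀ i, IsAutT 𝔫 τ R.r (ψ i)) →
      (∀ i j, pair R.F (ψ i) (ψ j) = if i = j then 1 else 0) →
      ∑ i, nsq R.F (conv R.F f (ψ i)) ≤ C

/-- `ConvRegular` for the class. -/
def ConvRegularT (K : Type) [Field K] [NumberField K] (𝔫 : Ideal (𝓞 K)) (τ : G K → ℂ) : Prop :=
  ∀ (R : FrameR K) (f : G K → ℂ), IsTestT 𝔫 τ f →
    ∀ φ : ℕ → G K → ℂ, (∀ k, IsCuspT 𝔫 τ R.r (φ k)) →
      (∀ ε : ℝ, 0 < ε → ∃ N : ℕ, ∀ k ≥ N, ∀ l ≥ N,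
        nsq R.F (fun g => φ k g - φ l g) < ε) →
      ∃ ψ : G K → ℂ, IsCuspT 𝔫 τ R.r ψ ∧
        Filter.Tendsto (fun k => nsq R.F (fun g => conv R.F f (φ k) g - ψ g)) Filter.atTop
          (nhds 0)

/-- `ApproxId` for the class. -/
def ApproxIdT (K : Type) [Field K] [NumberField K] (𝔫 : Ideal (𝓞 K)) (τ : G K → ℂ) : Prop :=
  ∀ (R : FrameR K) (φ : G K → ℂ), IsCuspT 𝔫 τ R.r φ → ∀ ε : ℝ, 0 < ε →
    ∃ f : G K → ℂ, IsSphTestT 𝔫 τ f ∧ adj f = f ∧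
      nsq R.F (fun g => conv R.F f φ g - φ g) < ε

/-- `OpsGood` for the class. -/
def OpsGoodT (K : Type) [Field K] [NumberField K] (𝔫 : Ideal (𝓞 K)) (τ : G K → ℂ) : Prop :=
  ∀ R : FrameR K,
    (∀ T, IsOpT 𝔫 τ R.F T → ∀ φ : G K → ℂ, IsCuspT 𝔫 τ R.r φ → IsCuspT 𝔫 τ R.r (T φ)) ∧
    (∀ T, IsOpT 𝔫 τ R.F T → ∀ (φ ψ : G K → ℂ) (c : ℂ), IsCuspT 𝔫 τ R.r φ →
      IsCuspT 𝔫 τ R.r ψ → T (fun g => φ g + c * ψ g) = fun g => T φ g + c * T ψ g) ∧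
    (∀ T, IsOpT 𝔫 τ R.F T → ∃ C : ℝ, ∀ φ : G K → ℂ, IsCuspT 𝔫 τ R.r φ →
      nsq R.F (T φ) ≤ C * nsq R.F φ) ∧
    (∀ S T, IsOpT 𝔫 τ R.F S → IsOpT 𝔫 τ R.F T → ∀ φ : G K → ℂ, IsCuspT 𝔫 τ R.r φ →
      S (T φ) = T (S φ)) ∧
    (∀ T, IsOpT 𝔫 τ R.F T → ∃ T', IsOpT 𝔫 τ R.F T' ∧ ∀ φ ψ : G K → ℂ,
      IsCuspT 𝔫 τ R.r φ → IsCuspT 𝔫 τ R.r ψ → pair R.F (T φ) ψ = pair R.F φ (T' ψ))

/-- `OpsAdj` for the class: explicit adjoints, the central shifts included. -/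
def OpsAdjT (K : Type) [Field K] [NumberField K] (𝔫 : Ideal (𝓞 K)) (τ : G K → ℂ) : Prop :=
  ∀ R : FrameR K,
    (∀ v : HeightOneSpectrum (𝓞 K), ¬ v.asIdeal ∣ 𝔫 → ∀ z : G K, IsScalarUniformizerAt v z →
      ∀ φ ψ : G K → ℂ, IsCuspT 𝔫 τ R.r φ → IsCuspT 𝔫 τ R.r ψ →
        pair R.F (shift z φ) (shift z ψ) = pair R.F φ ψ) ∧
    (∀ (w : InfinitePlace K) (z : G K), IsArchPosScalar w z →
      ∀ φ ψ : G K → ℂ, IsCuspT 𝔫 τ R.r φ → IsCuspT 𝔫 τ R.r ψ →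
        pair R.F (shift z φ) (shift z ψ) = pair R.F φ ψ) ∧
    (∀ v : HeightOneSpectrum (𝓞 K), ¬ v.asIdeal ∣ 𝔫 → ∀ (H : Finset (G K)) (z : G K),
      IsHeckeCosetSystem v H → IsScalarUniformizerAt v z →
      ∀ φ ψ : G K → ℂ, IsCuspT 𝔫 τ R.r φ → IsCuspT 𝔫 τ R.r ψ →
        pair R.F (heckeSum H φ) ψ = pair R.F φ (shift z⁻¹ (heckeSum H ψ))) ∧
    (∀ w : InfinitePlace K, w.IsComplex → ∀ d : ℝ, 0 < d → ∀ Y : ℝ → ℝ → G K, IsSphereAt w d Y →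
      ∀ φ ψ : G K → ℂ, IsCuspT 𝔫 τ R.r φ → IsCuspT 𝔫 τ R.r ψ →
        pair R.F (sphereMean Y φ) ψ = pair R.F φ (sphereMean Y ψ)) ∧
    (∀ w : InfinitePlace K, w.IsReal → ∀ t : ℝ, 0 < t → ∀ (k : ℝ → G K) (a : G K),
      IsRotAt w k → IsTorusAt w t a →
      ∀ φ ψ : G K → ℂ, IsCuspT 𝔫 τ R.r φ → IsCuspT 𝔫 τ R.r ψ →
        pair R.F (circleMeanT τ k a φ) ψ = pair R.F φ (circleMeanT τ k a ψ))

/-! ## 3. The leaves for the class (registry `T2.21` -- `T2.35`) and the top -/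

/-- Ray generators exist and frames exist. -/
def FrameRExists (K : Type) [Field K] [NumberField K] : Prop := Nonempty (FrameR K)

/-- **T2.21** (`T`-form of T2.01). -/
def LeafT01 (K : Type) [Field K] [NumberField K] : Prop :=
  T1.T1Out K → FrameRExists K ∧
    ∀ (𝔫 : Ideal (𝓞 K)) (τ : G K → ℂ), 𝔫 ≠ ⊥ → IsKType τ → PairDefiniteT K 𝔫 τ

/-- **T2.22** (`T`-form of T2.02). -/
def LeafT02 (K : Type) [Field K] [NumberField K] : Prop :=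
  T1.T1Out K → ∀ (𝔫 : Ideal (𝓞 K)) (τ : G K → ℂ), 𝔫 ≠ ⊥ → IsKType τ → ConvCuspT K 𝔫 τ

/-- **T2.23** (`T`-form of T2.03): THE ESTIMATE. -/
def LeafT03 (K : Type) [Field K] [NumberField K] : Prop :=
  T1.T1Out K → ∀ (𝔫 : Ideal (𝓞 K)) (τ : G K → ℂ), 𝔫 ≠ ⊥ → IsKType τ → GPSCoreT K 𝔫 τ

/-- **T2.33** (`T`-form of T2.13). -/
def LeafT13 (K : Type) [Field K] [NumberField K] : Prop :=
  T1.T1Out K → ∀ (𝔫 : Ideal (𝓞 K)) (τ : G K → ℂ), 𝔫 ≠ ⊥ → IsKType τ →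
    GPSCoreT K 𝔫 τ → GPST K 𝔫 τ ∧ GPSKillT K 𝔫 τ

/-- **T2.24** (`T`-form of T2.04). -/
def LeafT04 (K : Type) [Field K] [NumberField K] : Prop :=
  T1.T1Out K → ∀ (𝔫 : Ideal (𝓞 K)) (τ : G K → ℂ), 𝔫 ≠ ⊥ → IsKType τ →
    (GPST K 𝔫 τ → HSBoundT K 𝔫 τ) ∧ (GPSKillT K 𝔫 τ → HSKillT K 𝔫 τ)

/-- **T2.25** (`T`-form of T2.05). -/
def LeafT05 (K : Type) [Field K] [NumberField K] : Prop :=
  T1.T1Out K → ∀ (𝔫 : Ideal (𝓞 K)) (τ : G K → ℂ), 𝔫 ≠ ⊥ → IsKType τ →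
    PairDefiniteT K 𝔫 τ → ConvCuspT K 𝔫 τ → GPST K 𝔫 τ → ConvRegularT K 𝔫 τ

/-- **T2.26** (`T`-form of T2.06). -/
def LeafT06 (K : Type) [Field K] [NumberField K] : Prop :=
  T1.T1Out K → ∀ (𝔫 : Ideal (𝓞 K)) (τ : G K → ℂ), 𝔫 ≠ ⊥ → IsKType τ →
    PairDefiniteT K 𝔫 τ → ConvCuspT K 𝔫 τ → ApproxIdT K 𝔫 τ

/-- **T2.27** (`T`-form of T2.07). -/
def LeafT07 (K : Type) [Field K] [NumberField K] : Prop :=
  T1.T1Out K → ∀ (𝔫 : Ideal (𝓞 K)) (τ : G K → ℂ), 𝔫 ≠ ⊥ → IsKType τ →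
    PairDefiniteT K 𝔫 τ → ConvCuspT K 𝔫 τ → OpsGoodT K 𝔫 τ ∧ OpsAdjT K 𝔫 τ

/-- **T2.29** (`T`-form of T2.09): assembly. -/
def LeafT09 (K : Type) [Field K] [NumberField K] : Prop :=
  T1.T1Out K → AbstractSpectral → ∀ (𝔫 : Ideal (𝓞 K)) (τ : G K → ℂ), 𝔫 ≠ ⊥ → IsKType τ →
    PairDefiniteT K 𝔫 τ → ConvCuspT K 𝔫 τ → HSBoundT K 𝔫 τ → ConvRegularT K 𝔫 τ →
    ApproxIdT K 𝔫 τ → OpsGoodT K 𝔫 τ → OpsAdjT K 𝔫 τ → CuspSpecT K 𝔫 τ

/-- The invariance of A0 (positive scalars at every infinite place) implies the invariance under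
the ray generator: `r` is the product of its local components. -/
def RayOfArch (K : Type) [Field K] [NumberField K] : Prop :=
  ∀ φ : G K → ℂ,
    (∀ (w : InfinitePlace K) (z : G K), IsArchPosScalar w z → ∀ g : G K, φ (g * z) = φ g) →
    ∀ r : G K, IsRayGen r → ∀ g : G K, φ (g * r) = φ g

/-- **T2.34** the ray generator exists and is a product of local scalars.  (≈ 0.4k lines; assets
helper849 `locInf849`, helper729 `rayIdele729`.) -/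
def LeafT14 (K : Type) [Field K] [NumberField K] : Prop :=
  (∃ r : G K, IsRayGen r) ∧ RayOfArch K

/-- **T2.35** back to the A0 class: the members of a basis of the class `(𝔫, trivType, r)` with
trivial central characters form a basis of the class of `Spec.lean`.  (≈ 0.8k lines.) -/
def LeafT15 (K : Type) [Field K] [NumberField K] : Prop :=
  T1.T1Out K → LeafT14 K → ∀ 𝔫 : Ideal (𝓞 K), 𝔫 ≠ ⊥ → OpsAdjT K 𝔫 trivType →
    CuspSpecT K 𝔫 trivType → CuspSpec K 𝔫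

/-- ALL SUB-LEAVES of `CuspSpecT`. -/
structure LeavesT (K : Type) [Field K] [NumberField K] : Prop where
  l01 : LeafT01 K
  l02 : LeafT02 K
  l03 : LeafT03 K
  l04 : LeafT04 K
  l05 : LeafT05 K
  l06 : LeafT06 K
  l07 : LeafT07 K
  l08 : Leaf08
  l09 : LeafT09 K
  l13 : LeafT13 K

/-- **TOP, class of T5**: the discreteness of the cuspidal spectrum from the leaves. -/
theorem top_cuspSpecT (K : Type) [Field K] [NumberField K] (L : LeavesT K) (hT1 : T1.T1Out K)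
    (𝔫 : Ideal (𝓞 K)) (τ : G K → ℂ) (h𝔫 : 𝔫 ≠ ⊥) (hτ : IsKType τ) : CuspSpecT K 𝔫 τ := by
  have hP : PairDefiniteT K 𝔫 τ := (L.l01 hT1).2 𝔫 τ h𝔫 hτ
  have hC : ConvCuspT K 𝔫 τ := L.l02 hT1 𝔫 τ h𝔫 hτ
  have hG : GPST K 𝔫 τ := (L.l13 hT1 𝔫 τ h𝔫 hτ (L.l03 hT1 𝔫 τ h𝔫 hτ)).1
  have hO := L.l07 hT1 𝔫 τ h𝔫 hτ hP hC
  exact L.l09 hT1 L.l08 𝔫 τ h𝔫 hτ hP hC ((L.l04 hT1 𝔫 τ h𝔫 hτ).1 hG)
    (L.l05 hT1 𝔫 τ h𝔫 hτ hP hC hG) (L.l06 hT1 𝔫 τ h𝔫 hτ hP hC) hO.1 hO.2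

/-- **TOP, class of T5**: the estimates. -/
theorem top_gpsT (K : Type) [Field K] [NumberField K] (L : LeavesT K) (hT1 : T1.T1Out K)
    (𝔫 : Ideal (𝓞 K)) (τ : G K → ℂ) (h𝔫 : 𝔫 ≠ ⊥) (hτ : IsKType τ) :
    FrameRExists K ∧ PairDefiniteT K 𝔫 τ ∧ ConvCuspT K 𝔫 τ ∧ GPSCoreT K 𝔫 τ ∧ GPST K 𝔫 τ ∧
      HSBoundT K 𝔫 τ ∧ ConvRegularT K 𝔫 τ ∧ GPSKillT K 𝔫 τ ∧ HSKillT K 𝔫 τ := by
  have hP : PairDefiniteT K 𝔫 τ := (L.l01 hT1).2 𝔫 τ h𝔫 hτ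
  have hC : ConvCuspT K 𝔫 τ := L.l02 hT1 𝔫 τ h𝔫 hτ
  have hCore : GPSCoreT K 𝔫 τ := L.l03 hT1 𝔫 τ h𝔫 hτ
  have hG := L.l13 hT1 𝔫 τ h𝔫 hτ hCore
  have h4 := L.l04 hT1 𝔫 τ h𝔫 hτ
  exact ⟨(L.l01 hT1).1, hP, hC, hCore, hG.1, h4.1 hG.1, L.l05 hT1 𝔫 τ h𝔫 hτ hP hC hG.1, hG.2,
    h4.2 hG.2⟩

/-! ## 4. Back to the A0 class (PROVED reductions) -/

theorem isKType_triv : IsKType (trivType : G K → ℂ) :=
  ⟨fun _ _ _ => by simp [trivType], fun _ _ _ _ _ => by simp [trivType],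
    fun _ => continuousOn_const⟩

/-- A cusp function of `Spec.lean` is a cusp function of the class `(𝔫, trivType, r)`. -/
theorem isCuspT_of_isCuspFn (hray : RayOfArch K) {𝔫 : Ideal (𝓞 K)} {φ : G K → ℂ}
    (h : IsCuspFn 𝔫 φ) {r : G K} (hr : IsRayGen r) : IsCuspT 𝔫 trivType r φ :=
  ⟨⟨h.cont, h.bdd, h.left_inv, h.level_inv,
      fun w k hk g => by simpa [trivType] using h.arch_compact w k hk g,
      hray φ h.arch_scalar r hr⟩, h.cuspidal⟩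

/-- A test function of `Spec.lean` is a test function of trivial type. -/
theorem isTestT_of_isTestFn {𝔫 : Ideal (𝓞 K)} {f : G K → ℂ} (h : IsTestFn 𝔫 f) :
    IsTestT 𝔫 trivType f :=
  ⟨h.cont, h.smooth, h.cpt, h.level_right, h.level_left,
    fun w k hk g => by simpa [trivType] using h.arch_right w k hk g,
    fun w k hk g => by simpa [trivType] using h.arch_left w k hk g⟩

/-- `GPS` of `Spec.lean` from `GPST` at the trivial type. -/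
theorem gps_of_gpsT (h14 : LeafT14 K) {𝔫 : Ideal (𝓞 K)} (h : GPST K 𝔫 trivType) :
    GPS K 𝔫 := by
  intro F f hf
  obtain ⟨r, hr⟩ := h14.1
  obtain ⟨C, hC⟩ := h ⟨F, r, hr⟩ f (isTestT_of_isTestFn hf)
  exact ⟨C, fun φ hφ x => hC φ (isCuspT_of_isCuspFn h14.2 hφ hr) x⟩

/-- `HSBound` of `Spec.lean` from `HSBoundT` at the trivial type. -/
theorem hsBound_of_hsBoundT (h14 : LeafT14 K) {𝔫 : Ideal (𝓞 K)} (h : HSBoundT K 𝔫 trivType) :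
    HSBound K 𝔫 := by
  intro F f hf
  obtain ⟨r, hr⟩ := h14.1
  obtain ⟨C, hC⟩ := h ⟨F, r, hr⟩ f (isTestT_of_isTestFn hf)
  exact ⟨C, fun n φ hφ ho => hC n φ (fun i => isCuspT_of_isCuspFn h14.2 (hφ i) hr) ho⟩

end Fermat.Agent.LT.T2

end
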