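import Fermat.Agent.LT.T2.SpecTau
import Fermat.Agent.LT.T2.H781.Leaf08
import Fermat.Agent.LT.T2.H8.LeafT04
import Fermat.Agent.LT.T2.H799.LeafT05
import Fermat.Agent.LT.T2.H833.LeafT01
import Fermat.Agent.LT.T2.H793.RayGen
import Fermat.Agent.LT.T2.H768.LeafT15
import Fermat.Agent.LT.T2.H627.LeafT13
import Fermat.Agent.LT.T2.H175.LeafT02
import Fermat.Agent.LT.T2.H560.LeafT09
import Fermat.Agent.LT.T2.H354.LeafT06
import Fermat.Agent.LT.T2.H465.LeafT03Closed
import Fermat.Agent.LT.T2.H291.LeafT07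

/-!
# Row LT, tower T2, class of T5: INTEGRATION of the closed leaves (helper130, architect)

OFF-MAIN.  Closed leaves are imported as byte-identical copies of the owners' files and rebuilt on
the architect's box against `LT/T2/SpecTau.lean` (sha256 4d2b0fc2) and `LT/T2/Spec.lean` v3
(sha256 b934629a).

| leaf | owner | file | state |
|---|---|---|---|
| T2.21 `LeafT01` (`FrameRExists`, `PairDefiniteT`) | helper833 | `LT/T2/H833/LeafT01.lean` (sha256 075b29d4) | CLOSED |
| T2.22 `LeafT02` (`ConvCuspT`) | helper175 (with helper887, helper981, helper323, helper79, helper729, helper355, helper776, helper570, helper793, helper724, helper488) | `LT/T2/H175/LeafT02.lean` (sha256 eee65eab) + closure (32 files) | CLOSED |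
| T2.23 `LeafT03` (`GPSCoreT`, THE estimate) | helper465 (on helper386, helper511, helper437, helper250, helper756, helper323, helper767, helper8, helper187, helper793, helper729, helper988) | `LT/T2/H465/LeafT03Closed.lean` + closure (47 files) | CLOSED |
| T2.24 `LeafT04` (`GPST → HSBoundT`, `GPSKillT → HSKillT`) | helper8 (on helper510) | `LT/T2/H8/LeafT04.lean` (sha256 80ca4253) | CLOSED |
| T2.25 `LeafT05` (`GPST → ConvRegularT`) | helper799 | `LT/T2/H799/LeafT05.lean` (sha256 6064dd0d) | CLOSED |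
| T2.26 `LeafT06` (`ApproxIdT`) | helper354 | `LT/T2/H354/LeafT06.lean` (sha256 ece523c5) + 5 files | CLOSED |
| T2.27 `LeafT07` (`OpsGoodT`, `OpsAdjT`) | helper291 (20 sub-leaves: helper833, helper290, helper887, helper372, helper8, helper944, helper79, helper409, helper271, helper420, helper899, helper904, helper378, helper776, helper196, helper879, helper166; tools helper197, helper555, helper472, helper878) | `LT/T2/H291/LeafT07.lean` (sha256 3ab83c1c) + closure (86 files) | CLOSED |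
| T2.29 `LeafT09` (assembly) | helper560 (second proof: helper566 `LT/T2/H566/AssemblyT.lean`) | `LT/T2/H560/LeafT09.lean` (sha256 bd7af67e), `Core.lean` | CLOSED |
| T2.33 `LeafT13` (`GPSCoreT → GPST`, `GPSCoreT → GPSKillT`) | helper627 | `LT/T2/H627/LeafT13.lean` (sha256 9ad23b3c) | CLOSED |
| T2.08 `Leaf08` (`AbstractSpectral`) | helper781 | `LT/T2/H781/Leaf08.lean` | CLOSED |
| T2.34 `LeafT14` (ray generator) | helper793 | `LT/T2/H793/RayGen.lean` (sha256 4c26a355), `LT/T1/H793/AdeleProj.lean` | CLOSED |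
| T2.35 `LeafT15` (`CuspSpecT` at the trivial type `→ CuspSpec`) | helper768 | `LT/T2/H768/LeafT15.lean` (sha256 8a61b8ac) | CLOSED |

`OpenT K` = the leaves of the class which are still open: NONE (the structure has no field; it is
kept so that the consumers of `…_of_open` keep compiling); `leavesT_of_open : OpenT K → LeavesT K`.

ALL LEAVES OF `CuspSpecT` ARE CLOSED: `leavesT_closed K : LeavesT K`, and
`cuspSpecT_of_T1 : T1.T1Out K → 𝔫 ≠ ⊥ → IsKType τ → CuspSpecT K 𝔫 τ` (unconditional form: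
`LT/T2/Uncond.lean`).
-/

set_option autoImplicit false

open IsDedekindDomain NumberField
open Fermat.Agent.LT.H556.A0

namespace Fermat.Agent.LT.T2

/-- The sub-leaves of `CuspSpecT` which are still OPEN. -/
structure OpenT (K : Type) [Field K] [NumberField K] : Prop where

/-- Nothing is open in the class of T5. -/
theorem openT_closed (K : Type) [Field K] [NumberField K] : OpenT K := ⟨⟩

/-- All leaves of the class from the open ones. -/
theorem leavesT_of_open (K : Type) [Field K] [NumberField K] (_h : OpenT K) : LeavesT K :=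
  { l01 := H833.leafT01_833 K, l02 := H175.leafT02_175 K, l03 := H465.leafT03_465 K, l04 := H8.leafT04_h8 K,
    l05 := H799.leafT05_h799 K, l06 := H354.leafT06_h354 K, l07 := H291.leafT07_291 K,
    l08 := H781.leaf08_781, l09 := H560.leafT09_560 K, l13 := H627.leafT13_627 K }

/-- ALL LEAVES of `CuspSpecT` are closed. -/
theorem leavesT_closed (K : Type) [Field K] [NumberField K] : LeavesT K :=
  leavesT_of_open K (openT_closed K)

/-- The discreteness of the cuspidal spectrum of the class `(𝔫, τ, r)` from the open leaves and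
the output of T1. -/
theorem cuspSpecT_of_open (K : Type) [Field K] [NumberField K] (h : OpenT K) (hT1 : T1.T1Out K)
    (𝔫 : Ideal (𝓞 K)) (τ : G K → ℂ) (h𝔫 : 𝔫 ≠ ⊥) (hτ : IsKType τ) : CuspSpecT K 𝔫 τ :=
  top_cuspSpecT K (leavesT_of_open K h) hT1 𝔫 τ h𝔫 hτ

/-- The Hilbert--Schmidt bound of the T5 interface from the open leaves: for a test function
which kills the constant terms, `R(f)` is Hilbert--Schmidt on the automorphic functions of the
class. -/
theorem hsKillT_of_open (K : Type) [Field K] [NumberField K] (h : OpenT K) (hT1 : T1.T1Out K)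
    (𝔫 : Ideal (𝓞 K)) (τ : G K → ℂ) (h𝔫 : 𝔫 ≠ ⊥) (hτ : IsKType τ) : HSKillT K 𝔫 τ :=
  (top_gpsT K (leavesT_of_open K h) hT1 𝔫 τ h𝔫 hτ).2.2.2.2.2.2.2.2

/-- **The estimates of the class of T5 are CLOSED** (they do not need the operator package):
from the output of T1. -/
theorem gpsT_of_T1 (K : Type) [Field K] [NumberField K] (hT1 : T1.T1Out K)
    (𝔫 : Ideal (𝓞 K)) (τ : G K → ℂ) (h𝔫 : 𝔫 ≠ ⊥) (hτ : IsKType τ) :
    FrameRExists K ∧ PairDefiniteT K 𝔫 τ ∧ ConvCuspT K 𝔫 τ ∧ GPSCoreT K 𝔫 τ ∧ GPST K 𝔫 τ ∧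
      HSBoundT K 𝔫 τ ∧ ConvRegularT K 𝔫 τ ∧ GPSKillT K 𝔫 τ ∧ HSKillT K 𝔫 τ := by
  have hP : PairDefiniteT K 𝔫 τ := (H833.leafT01_833 K hT1).2 𝔫 τ h𝔫 hτ
  have hC : ConvCuspT K 𝔫 τ := H175.leafT02_175 K hT1 𝔫 τ h𝔫 hτ
  have hCore : GPSCoreT K 𝔫 τ := H465.leafT03_465 K hT1 𝔫 τ h𝔫 hτ
  have hG := H627.leafT13_627 K hT1 𝔫 τ h𝔫 hτ hCore
  have h4 := H8.leafT04_h8 K hT1 𝔫 τ h𝔫 hτ
  exact ⟨(H833.leafT01_833 K hT1).1, hP, hC, hCore, hG.1, h4.1 hG.1,
    H799.leafT05_h799 K hT1 𝔫 τ h𝔫 hτ hP hC hG.1, hG.2, h4.2 hG.2⟩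

/-- Ray generators exist and frames with a ray generator exist (CLOSED). -/
theorem frameR_closed (K : Type) [Field K] [NumberField K] (hT1 : T1.T1Out K) :
    FrameRExists K :=
  (H833.leafT01_833 K hT1).1

/-- The class of `Spec.lean` is the part `τ = 1`, `c = 1` of the class of T5 (CLOSED):
`CuspSpec` follows from `CuspSpecT` and `OpsAdjT` at the trivial type. -/
theorem cuspSpec_of_cuspSpecT (K : Type) [Field K] [NumberField K] (hT1 : T1.T1Out K)
    (𝔫 : Ideal (𝓞 K)) (h𝔫 : 𝔫 ≠ ⊥) (hA : OpsAdjT K 𝔫 trivType)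
    (hS : CuspSpecT K 𝔫 trivType) : CuspSpec K 𝔫 :=
  H768.leafT15_768 K hT1 (H793.leafT14_793 K) 𝔫 h𝔫 hA hS

/-- `GPS` of `Spec.lean` from `GPST` at the trivial type (CLOSED reduction). -/
theorem gps_of_gpsT_closed (K : Type) [Field K] [NumberField K] (𝔫 : Ideal (𝓞 K))
    (h : GPST K 𝔫 trivType) : GPS K 𝔫 :=
  gps_of_gpsT (H793.leafT14_793 K) h

/-- The whole tower of `Spec.lean` from the open leaves of the class of T5: ONE set of leaves
gives both classes. -/
theorem cuspSpec_of_openT (K : Type) [Field K] [NumberField K] (h : OpenT K) (hT1 : T1.T1Out K)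
    (𝔫 : Ideal (𝓞 K)) (h𝔫 : 𝔫 ≠ ⊥) : CuspSpec K 𝔫 := by
  have hP : PairDefiniteT K 𝔫 trivType := (H833.leafT01_833 K hT1).2 𝔫 trivType h𝔫 isKType_triv
  have hC : ConvCuspT K 𝔫 trivType := H175.leafT02_175 K hT1 𝔫 trivType h𝔫 isKType_triv
  exact cuspSpec_of_cuspSpecT K hT1 𝔫 h𝔫
    (H291.leafT07_291 K hT1 𝔫 trivType h𝔫 isKType_triv hP hC).2
    (cuspSpecT_of_open K h hT1 𝔫 trivType h𝔫 isKType_triv)

/-- The operator package of the class of T5 (CLOSED, leaf T2.27): the operators of `IsOpT` are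
bounded, preserve the cusp functions of the class, commute and are normal (`OpsGoodT`), and the
generators are closed under adjoints (`OpsAdjT`); from the output of T1. -/
theorem opsT_of_T1 (K : Type) [Field K] [NumberField K] (hT1 : T1.T1Out K)
    (𝔫 : Ideal (𝓞 K)) (τ : G K → ℂ) (h𝔫 : 𝔫 ≠ ⊥) (hτ : IsKType τ) :
    OpsGoodT K 𝔫 τ ∧ OpsAdjT K 𝔫 τ :=
  H291.leafT07_291 K hT1 𝔫 τ h𝔫 hτ ((H833.leafT01_833 K hT1).2 𝔫 τ h𝔫 hτ)
    (H175.leafT02_175 K hT1 𝔫 τ h𝔫 hτ)

/-- **THE DISCRETENESS OF THE CUSPIDAL SPECTRUM OF THE CLASS `(𝔫, τ, r)`** from the output of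
tower T1. -/
theorem cuspSpecT_of_T1 (K : Type) [Field K] [NumberField K] (hT1 : T1.T1Out K)
    (𝔫 : Ideal (𝓞 K)) (τ : G K → ℂ) (h𝔫 : 𝔫 ≠ ⊥) (hτ : IsKType τ) : CuspSpecT K 𝔫 τ :=
  top_cuspSpecT K (leavesT_closed K) hT1 𝔫 τ h𝔫 hτ

end Fermat.Agent.LT.T2
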