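import Fermat.Agent.LT.T1.Closed
import Fermat.Agent.LT.T2.Closed
import Fermat.Agent.LT.T2.ClosedTau

/-!
# Row LT, tower T2 on the CLOSED tower T1 (helper130, architect)

OFF-MAIN.  Tower T1 is closed (helper54, `LT/T1/Closed.lean`, `t1Out K : T1Out K` for every
number field, byte-identical copy of helper54@272e43fd2 rebuilt on this box).  So the hypothesis
`T1.T1Out K` of every leaf of T2 is discharged here.

* `frame_closed`, `frameR_uncond`, `pairDefinite_closed`, `pairDefiniteT_closed`, `approxId_of`: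
  UNCONDITIONAL outputs.
* `estimates_uncond`: everything from the ONE estimate `GPSCore`.
* `convCusp_closed`, `convCuspT_closed`, `approxId_closed`: UNCONDITIONAL.
* **`cuspSpec_closed K 𝔫 h𝔫 : CuspSpec K 𝔫`, `estimates_closed`: TOWER T2 IS CLOSED.**
* **`estimatesT_closed`: the estimates of the class of T5 are CLOSED** (`GPSKillT`, `HSKillT`);
  `approxIdT_closed`; `cuspSpecT_of_ops : OpsGoodT ∧ OpsAdjT → CuspSpecT`.
* `ops_closed`, `gpsCore_closed` UNCONDITIONAL; `cuspSpec_of_core : GPSCore K 𝔫 → CuspSpec K 𝔫` (THE STATE).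
* `cuspSpec_of_two : GPSCore K 𝔫 → OpsGood K 𝔫 ∧ OpsAdj K 𝔫 → CuspSpec K 𝔫`.
* `cuspSpec_uncond : Open K → CuspSpec K 𝔫`, `cuspSpecT_uncond : OpenT K → CuspSpecT K 𝔫 τ`.
* **`opsT_closed`, `cuspSpecT_closed K 𝔫 τ h𝔫 hτ : CuspSpecT K 𝔫 τ`: THE CLASS OF T5 IS CLOSED**
  (leaf T2.27 of helper291); `towerT_closed` = estimates + operators + spectrum in one statement.
-/

set_option autoImplicit false

open IsDedekindDomain NumberField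
open Fermat.Agent.LT.H556.A0

namespace Fermat.Agent.LT.T2

/-- Frames exist (UNCONDITIONAL). -/
theorem frame_closed (K : Type) [Field K] [NumberField K] : FrameExists K :=
  (frame_pairDefinite_closed K (T1.t1Out K)).1

/-- Frames with a ray generator exist (UNCONDITIONAL). -/
theorem frameR_uncond (K : Type) [Field K] [NumberField K] : FrameRExists K :=
  frameR_closed K (T1.t1Out K)

/-- The Petersson pairing is definite on the cusp functions (UNCONDITIONAL). -/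
theorem pairDefinite_closed (K : Type) [Field K] [NumberField K] (𝔫 : Ideal (𝓞 K))
    (h𝔫 : 𝔫 ≠ ⊥) : PairDefinite K 𝔫 :=
  (frame_pairDefinite_closed K (T1.t1Out K)).2 𝔫 h𝔫

/-- The Petersson pairing is definite on the cusp functions of the class of T5
(UNCONDITIONAL). -/
theorem pairDefiniteT_closed (K : Type) [Field K] [NumberField K] (𝔫 : Ideal (𝓞 K))
    (τ : G K → ℂ) (h𝔫 : 𝔫 ≠ ⊥) (hτ : IsKType τ) : PairDefiniteT K 𝔫 τ :=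
  (H833.leafT01_833 K (T1.t1Out K)).2 𝔫 τ h𝔫 hτ

/-- The approximate identity from `ConvCusp`. -/
theorem approxId_of (K : Type) [Field K] [NumberField K] (𝔫 : Ideal (𝓞 K)) (h𝔫 : 𝔫 ≠ ⊥)
    (hC : ConvCusp K 𝔫) : ApproxId K 𝔫 :=
  H907.leaf06_h907 K (T1.t1Out K) 𝔫 h𝔫 (pairDefinite_closed K 𝔫 h𝔫) hC

/-- Everything from the ONE open estimate `GPSCore`. -/
theorem estimates_uncond (K : Type) [Field K] [NumberField K] (𝔫 : Ideal (𝓞 K)) (h𝔫 : 𝔫 ≠ ⊥)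
    (hCore : GPSCore K 𝔫) :
    GPS K 𝔫 ∧ GPSKill K 𝔫 ∧ HSBound K 𝔫 ∧ HSKill K 𝔫 ∧ (ConvCusp K 𝔫 → ConvRegular K 𝔫) :=
  estimates_of_core K (T1.t1Out K) 𝔫 h𝔫 hCore

/-- The discreteness of the cuspidal spectrum from the open leaves of T2 ALONE. -/
theorem cuspSpec_uncond (K : Type) [Field K] [NumberField K] (h : Open K) (𝔫 : Ideal (𝓞 K))
    (h𝔫 : 𝔫 ≠ ⊥) : CuspSpec K 𝔫 :=
  cuspSpec_of_open K h (T1.t1Out K) 𝔫 h𝔫

/-- `ConvCusp` (UNCONDITIONAL). -/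
theorem convCusp_closed (K : Type) [Field K] [NumberField K] (𝔫 : Ideal (𝓞 K)) (h𝔫 : 𝔫 ≠ ⊥) :
    ConvCusp K 𝔫 :=
  H228.leaf02_228 K (T1.t1Out K) 𝔫 h𝔫

/-- `ConvCuspT` (UNCONDITIONAL). -/
theorem convCuspT_closed (K : Type) [Field K] [NumberField K] (𝔫 : Ideal (𝓞 K)) (τ : G K → ℂ)
    (h𝔫 : 𝔫 ≠ ⊥) (hτ : IsKType τ) : ConvCuspT K 𝔫 τ :=
  H175.leafT02_175 K (T1.t1Out K) 𝔫 τ h𝔫 hτ

/-- The approximate identity (UNCONDITIONAL). -/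
theorem approxId_closed (K : Type) [Field K] [NumberField K] (𝔫 : Ideal (𝓞 K)) (h𝔫 : 𝔫 ≠ ⊥) :
    ApproxId K 𝔫 :=
  approxId_of K 𝔫 h𝔫 (convCusp_closed K 𝔫 h𝔫)

/-- The discreteness of the cuspidal spectrum from the TWO open Props at ONE level: the estimate
`GPSCore` and the operator package `OpsGood`, `OpsAdj`. -/
theorem cuspSpec_of_two (K : Type) [Field K] [NumberField K] (𝔫 : Ideal (𝓞 K)) (h𝔫 : 𝔫 ≠ ⊥)
    (hCore : GPSCore K 𝔫) (hO : OpsGood K 𝔫 ∧ OpsAdj K 𝔫) : CuspSpec K 𝔫 := by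
  have hT1 := T1.t1Out K
  have hP := pairDefinite_closed K 𝔫 h𝔫
  have hC := convCusp_closed K 𝔫 h𝔫
  have hE := estimates_uncond K 𝔫 h𝔫 hCore
  exact H566.leaf09_566 hT1 H781.leaf08_781 𝔫 h𝔫 hP hC hE.2.2.1 (hE.2.2.2.2 hC)
    (approxId_closed K 𝔫 h𝔫) hO.1 hO.2

/-- The operator package (UNCONDITIONAL). -/
theorem ops_closed (K : Type) [Field K] [NumberField K] (𝔫 : Ideal (𝓞 K)) (h𝔫 : 𝔫 ≠ ⊥) :
    OpsGood K 𝔫 ∧ OpsAdj K 𝔫 :=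
  H429.leaf07_429 K (T1.t1Out K) 𝔫 h𝔫 (pairDefinite_closed K 𝔫 h𝔫) (convCusp_closed K 𝔫 h𝔫)

/-- **THE STATE OF TOWER T2**: the discreteness of the cuspidal spectrum from the ONE open
estimate `GPSCore` at the level `𝔫` (leaf T2.03). -/
theorem cuspSpec_of_core (K : Type) [Field K] [NumberField K] (𝔫 : Ideal (𝓞 K)) (h𝔫 : 𝔫 ≠ ⊥)
    (hCore : GPSCore K 𝔫) : CuspSpec K 𝔫 :=
  cuspSpec_of_two K 𝔫 h𝔫 hCore (ops_closed K 𝔫 h𝔫)

/-- THE estimate (UNCONDITIONAL). -/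
theorem gpsCore_closed (K : Type) [Field K] [NumberField K] (𝔫 : Ideal (𝓞 K)) (h𝔫 : 𝔫 ≠ ⊥) :
    GPSCore K 𝔫 :=
  H386.leaf03_386 K (T1.t1Out K) 𝔫 h𝔫

/-- **TOWER T2 IS CLOSED**: the cuspidal spectrum of level `U(𝔫)` is discrete, with an
orthonormal complete family of joint eigen-cusp-functions, for every number field `K` and every
level `𝔫 ≠ 0`.  UNCONDITIONAL. -/
theorem cuspSpec_closed (K : Type) [Field K] [NumberField K] (𝔫 : Ideal (𝓞 K)) (h𝔫 : 𝔫 ≠ ⊥) :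
    CuspSpec K 𝔫 :=
  cuspSpec_of_core K 𝔫 h𝔫 (gpsCore_closed K 𝔫 h𝔫)

/-- **TOWER T2 IS CLOSED**: the estimates.  UNCONDITIONAL. -/
theorem estimates_closed (K : Type) [Field K] [NumberField K] (𝔫 : Ideal (𝓞 K)) (h𝔫 : 𝔫 ≠ ⊥) :
    FrameExists K ∧ PairDefinite K 𝔫 ∧ ConvCusp K 𝔫 ∧ GPSCore K 𝔫 ∧ GPS K 𝔫 ∧ HSBound K 𝔫 ∧
      ConvRegular K 𝔫 ∧ GPSKill K 𝔫 ∧ HSKill K 𝔫 :=
  gps_of_T1 K (T1.t1Out K) 𝔫 h𝔫

/-- **The estimates of the class of T5 are CLOSED.**  UNCONDITIONAL: for every number field `K`,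
every level `𝔫 ≠ 0` and every `K_∞`-type `τ`; in particular `GPSKillT` and `HSKillT`
(= `EK_HilbertSchmidt` of the T5 interface). -/
theorem estimatesT_closed (K : Type) [Field K] [NumberField K] (𝔫 : Ideal (𝓞 K)) (τ : G K → ℂ)
    (h𝔫 : 𝔫 ≠ ⊥) (hτ : IsKType τ) :
    FrameRExists K ∧ PairDefiniteT K 𝔫 τ ∧ ConvCuspT K 𝔫 τ ∧ GPSCoreT K 𝔫 τ ∧ GPST K 𝔫 τ ∧
      HSBoundT K 𝔫 τ ∧ ConvRegularT K 𝔫 τ ∧ GPSKillT K 𝔫 τ ∧ HSKillT K 𝔫 τ :=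
  gpsT_of_T1 K (T1.t1Out K) 𝔫 τ h𝔫 hτ

/-- The approximate identity of the class of T5 (UNCONDITIONAL). -/
theorem approxIdT_closed (K : Type) [Field K] [NumberField K] (𝔫 : Ideal (𝓞 K)) (τ : G K → ℂ)
    (h𝔫 : 𝔫 ≠ ⊥) (hτ : IsKType τ) : ApproxIdT K 𝔫 τ :=
  H354.leafT06_h354 K (T1.t1Out K) 𝔫 τ h𝔫 hτ (pairDefiniteT_closed K 𝔫 τ h𝔫 hτ)
    (convCuspT_closed K 𝔫 τ h𝔫 hτ)

/-- The discreteness of the cuspidal spectrum of the class of T5 from the ONE open leaf of the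
class, the operator package `OpsGoodT`, `OpsAdjT` (T2.27). -/
theorem cuspSpecT_of_ops (K : Type) [Field K] [NumberField K] (𝔫 : Ideal (𝓞 K)) (τ : G K → ℂ)
    (h𝔫 : 𝔫 ≠ ⊥) (hτ : IsKType τ) (hO : OpsGoodT K 𝔫 τ ∧ OpsAdjT K 𝔫 τ) : CuspSpecT K 𝔫 τ := by
  have hE := estimatesT_closed K 𝔫 τ h𝔫 hτ
  exact H560.leafT09_560 K (T1.t1Out K) H781.leaf08_781 𝔫 τ h𝔫 hτ hE.2.1 hE.2.2.1
    hE.2.2.2.2.2.1 hE.2.2.2.2.2.2.1 (approxIdT_closed K 𝔫 τ h𝔫 hτ) hO.1 hO.2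

/-- The discreteness of the cuspidal spectrum from the three open Props at ONE level. -/
theorem cuspSpec_of_three (K : Type) [Field K] [NumberField K] (𝔫 : Ideal (𝓞 K)) (h𝔫 : 𝔫 ≠ ⊥)
    (hC : ConvCusp K 𝔫) (hCore : GPSCore K 𝔫) (hO : OpsGood K 𝔫 ∧ OpsAdj K 𝔫) :
    CuspSpec K 𝔫 := by
  have hT1 := T1.t1Out K
  have hP := pairDefinite_closed K 𝔫 h𝔫
  have hE := estimates_uncond K 𝔫 h𝔫 hCore
  exact H566.leaf09_566 hT1 H781.leaf08_781 𝔫 h𝔫 hP hC hE.2.2.1 (hE.2.2.2.2 hC)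
    (approxId_of K 𝔫 h𝔫 hC) hO.1 hO.2

/-- The discreteness of the cuspidal spectrum of the class of T5 from the open leaves of the
class ALONE. -/
theorem cuspSpecT_uncond (K : Type) [Field K] [NumberField K] (h : OpenT K) (𝔫 : Ideal (𝓞 K))
    (τ : G K → ℂ) (h𝔫 : 𝔫 ≠ ⊥) (hτ : IsKType τ) : CuspSpecT K 𝔫 τ :=
  cuspSpecT_of_open K h (T1.t1Out K) 𝔫 τ h𝔫 hτ

/-- The Hilbert--Schmidt bound of the T5 interface from the open leaves of the class ALONE. -/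
theorem hsKillT_uncond (K : Type) [Field K] [NumberField K] (h : OpenT K) (𝔫 : Ideal (𝓞 K))
    (τ : G K → ℂ) (h𝔫 : 𝔫 ≠ ⊥) (hτ : IsKType τ) : HSKillT K 𝔫 τ :=
  hsKillT_of_open K h (T1.t1Out K) 𝔫 τ h𝔫 hτ

/-- Both classes from the open leaves of the class of T5 ALONE. -/
theorem cuspSpec_of_openT_uncond (K : Type) [Field K] [NumberField K] (h : OpenT K)
    (𝔫 : Ideal (𝓞 K)) (h𝔫 : 𝔫 ≠ ⊥) : CuspSpec K 𝔫 :=
  cuspSpec_of_openT K h (T1.t1Out K) 𝔫 h𝔫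

/-- The operator package of the class of T5 (UNCONDITIONAL, leaf T2.27): `OpsGoodT` and
`OpsAdjT` for every number field, every level `𝔫 ≠ 0` and every `K_∞`-type `τ`. -/
theorem opsT_closed (K : Type) [Field K] [NumberField K] (𝔫 : Ideal (𝓞 K)) (τ : G K → ℂ)
    (h𝔫 : 𝔫 ≠ ⊥) (hτ : IsKType τ) : OpsGoodT K 𝔫 τ ∧ OpsAdjT K 𝔫 τ :=
  opsT_of_T1 K (T1.t1Out K) 𝔫 τ h𝔫 hτ

/-- **THE CLASS OF T5 IS CLOSED**: the cuspidal spectrum of level `U(𝔫)`, `K_∞`-type `τ` and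
ray generator `r` is discrete, with an orthonormal basis of joint eigenfunctions of the
operators of `IsOpT`.  UNCONDITIONAL: for every number field `K`, every level `𝔫 ≠ 0` and every
`K_∞`-type `τ`. -/
theorem cuspSpecT_closed (K : Type) [Field K] [NumberField K] (𝔫 : Ideal (𝓞 K)) (τ : G K → ℂ)
    (h𝔫 : 𝔫 ≠ ⊥) (hτ : IsKType τ) : CuspSpecT K 𝔫 τ :=
  cuspSpecT_of_T1 K (T1.t1Out K) 𝔫 τ h𝔫 hτ

/-- The whole class of T5 in one statement (UNCONDITIONAL): the estimates, the approximate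
identity, the operator package and the discreteness of the cuspidal spectrum. -/
theorem towerT_closed (K : Type) [Field K] [NumberField K] (𝔫 : Ideal (𝓞 K)) (τ : G K → ℂ)
    (h𝔫 : 𝔫 ≠ ⊥) (hτ : IsKType τ) :
    (FrameRExists K ∧ PairDefiniteT K 𝔫 τ ∧ ConvCuspT K 𝔫 τ ∧ GPSCoreT K 𝔫 τ ∧ GPST K 𝔫 τ ∧
      HSBoundT K 𝔫 τ ∧ ConvRegularT K 𝔫 τ ∧ GPSKillT K 𝔫 τ ∧ HSKillT K 𝔫 τ) ∧
      ApproxIdT K 𝔫 τ ∧ (OpsGoodT K 𝔫 τ ∧ OpsAdjT K 𝔫 τ) ∧ CuspSpecT K 𝔫 τ :=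
  ⟨estimatesT_closed K 𝔫 τ h𝔫 hτ, approxIdT_closed K 𝔫 τ h𝔫 hτ, opsT_closed K 𝔫 τ h𝔫 hτ,
    cuspSpecT_closed K 𝔫 τ h𝔫 hτ⟩

end Fermat.Agent.LT.T2
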