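import Mathlib
import Fermat.Agent.LT.T2.Uncond

/-!
# Row LT, tower T2: EXTRAS for the consumers (helper130, architect)

OFF-MAIN.  ADDITIVE: `Spec.lean` v3 (sha256 b934629a) is unchanged.  PROVED, UNCONDITIONAL.

The frozen `IsCuspBasis` records the eigenvalues of the Hecke operators and of the sphere and
circle means.  The construction (helper566 `exists_jointEig566`) gives MORE: the members of the
basis are eigenfunctions of EVERY operator of the tower (`IsOp`: convolutions by spherical test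
functions, Hecke sums, central shifts, sphere and circle means and their composites).  This file
exports it, together with the bound on the eigenvalues of the means which the comparison layer
asks for (`T7.EigData.IsUnitaryOut`: `‖m w d‖ ≤ 4π`):

* `norm_sphereMean_le130`, `norm_circleMean_le130`: `|M φ| ≤ 4π sup |φ|`, resp. `2π sup |φ|`;
* `IsCuspBasisPlus` = `IsCuspBasis` + `eig_op` + `bound_m`;
* `cuspSpecPlus_closed K 𝔫 h𝔫 F : ∃ ι u m a b, IsCuspBasisPlus 𝔫 F u m a b`.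
-/

set_option autoImplicit false
set_option linter.unusedSectionVars false
set_option linter.style.haveILetI false

open IsDedekindDomain NumberField MeasureTheory
open Fermat.Agent.LT.H556.A0
open scoped ComplexConjugate

noncomputable section

namespace Fermat.Agent.LT.T2

variable {K : Type} [Field K] [NumberField K]

attribute [local instance] borelG

/-- If `|c| |e(g)| ≤ A sup |e|` for all `g` and `e` is bounded and not zero, then `|c| ≤ A`. -/
theorem norm_le_of_pointwise130 {e : G K → ℂ} (hb : ∃ C : ℝ, ∀ g : G K, ‖e g‖ ≤ C)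
    (hne : ∃ g : G K, e g ≠ 0) {A : ℝ} {c : ℂ}
    (h : ∀ C : ℝ, (∀ g : G K, ‖e g‖ ≤ C) → ∀ g : G K, ‖c‖ * ‖e g‖ ≤ A * C) : ‖c‖ ≤ A := by
  obtain ⟨C₀, hC₀⟩ := hb
  obtain ⟨g₀, hg₀⟩ := hne
  have hbdd : BddAbove (Set.range fun g : G K => ‖e g‖) := ⟨C₀, by rintro _ ⟨g, rfl⟩; exact hC₀ g⟩
  set S : ℝ := ⨆ g : G K, ‖e g‖ with hS
  have hle : ∀ g : G K, ‖e g‖ ≤ S := fun g => le_ciSup hbdd g
  have hSpos : 0 < S := lt_of_lt_of_le (norm_pos_iff.2 hg₀) (hle g₀)
  have hmain : ∀ g : G K, ‖c‖ * ‖e g‖ ≤ A * S := h S hle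
  by_contra hcon
  push Not at hcon
  have hcpos : 0 < ‖c‖ := by
    by_contra h0
    have h0' : ‖c‖ = 0 := le_antisymm (not_lt.1 h0) (norm_nonneg c)
    have := hmain g₀
    rw [h0', zero_mul] at this
    have hA : 0 ≤ A := by
      by_contra hA
      push Not at hA
      have : A * S < 0 := mul_neg_of_neg_of_pos hA hSpos
      linarith
    rw [h0'] at hcon
    linarith
  have h2 : ∀ g : G K, ‖e g‖ ≤ A * S / ‖c‖ := fun g => by
    rw [le_div_iff₀ hcpos, mul_comm]
    exact hmain g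
  haveI : Nonempty (G K) := ⟨g₀⟩
  have h3 : S ≤ A * S / ‖c‖ := ciSup_le h2
  rw [le_div_iff₀ hcpos] at h3
  have h4 : S * ‖c‖ ≤ S * A := by rw [mul_comm S A]; exact h3
  have h5 : ‖c‖ ≤ A := le_of_mul_le_mul_left h4 hSpos
  exact absurd h5 (not_le.2 hcon)

/-- `|M φ (g)| ≤ 4π sup |φ|` for the sphere mean. -/
theorem norm_sphereMean_le130 (Y : ℝ → ℝ → G K) (e : G K → ℂ) (C : ℝ)
    (hC : ∀ g : G K, ‖e g‖ ≤ C) (g : G K) : ‖sphereMean Y e g‖ ≤ 4 * Real.pi * C := by
  have hC0 : 0 ≤ C := le_trans (norm_nonneg _) (hC g)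
  have hinner : ∀ α : ℝ,
      ‖∫ β in (0 : ℝ)..Real.pi, e (g * Y α β) * ((Real.sin β : ℝ) : ℂ)‖ ≤ 2 * C := by
    intro α
    have hb : IntervalIntegrable (fun β : ℝ => C * Real.sin β) volume 0 Real.pi :=
      (Real.continuous_sin.intervalIntegrable 0 Real.pi).const_mul C
    have hae : ∀ᵐ β : ℝ ∂(volume : Measure ℝ), β ∈ Set.Ioc (0 : ℝ) Real.pi →
        ‖e (g * Y α β) * ((Real.sin β : ℝ) : ℂ)‖ ≤ C * Real.sin β := by
      refine Filter.Eventually.of_forall fun β hβ => ?_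
      have hs : 0 ≤ Real.sin β := Real.sin_nonneg_of_nonneg_of_le_pi hβ.1.le hβ.2
      rw [norm_mul, Complex.norm_real, Real.norm_of_nonneg hs]
      exact mul_le_mul_of_nonneg_right (hC _) hs
    have h1 := intervalIntegral.norm_integral_le_of_norm_le
      (f := fun β : ℝ => e (g * Y α β) * ((Real.sin β : ℝ) : ℂ))
      (g := fun β : ℝ => C * Real.sin β) (μ := volume) Real.pi_pos.le hae hb
    have h2 : ∫ β in (0 : ℝ)..Real.pi, C * Real.sin β = 2 * C := by
      rw [intervalIntegral.integral_const_mul, integral_sin]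
      simp
      ring
    rw [h2] at h1
    exact h1
  have h3 := intervalIntegral.norm_integral_le_of_norm_le_const
    (f := fun α : ℝ => ∫ β in (0 : ℝ)..Real.pi, e (g * Y α β) * ((Real.sin β : ℝ) : ℂ))
    (a := 0) (b := 2 * Real.pi) (C := 2 * C) (fun α _ => hinner α)
  have h4 : |2 * Real.pi - 0| = 2 * Real.pi := by
    rw [sub_zero, abs_of_nonneg (by positivity)]
  rw [h4] at h3
  unfold sphereMean
  calc ‖∫ α in (0 : ℝ)..(2 * Real.pi), ∫ β in (0 : ℝ)..Real.pi,
        e (g * Y α β) * ((Real.sin β : ℝ) : ℂ)‖ ≤ 2 * C * (2 * Real.pi) := h3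
    _ = 4 * Real.pi * C := by ring

/-- `|M φ (g)| ≤ 2π sup |φ|` for the circle mean. -/
theorem norm_circleMean_le130 (Y : ℝ → G K) (e : G K → ℂ) (C : ℝ)
    (hC : ∀ g : G K, ‖e g‖ ≤ C) (g : G K) : ‖circleMean Y e g‖ ≤ 2 * Real.pi * C := by
  have h3 := intervalIntegral.norm_integral_le_of_norm_le_const
    (f := fun θ : ℝ => e (g * Y θ)) (a := 0) (b := 2 * Real.pi) (C := C) (fun θ _ => hC _)
  have h4 : |2 * Real.pi - 0| = 2 * Real.pi := by
    rw [sub_zero, abs_of_nonneg (by positivity)]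
  rw [h4] at h3
  unfold circleMean
  calc ‖∫ θ in (0 : ℝ)..(2 * Real.pi), e (g * Y θ)‖ ≤ C * (2 * Real.pi) := h3
    _ = 2 * Real.pi * C := by ring

/-- An `IsCuspBasis` whose members are eigenfunctions of EVERY operator of the tower and whose
mean eigenvalues are bounded by `4π`. -/
structure IsCuspBasisPlus (𝔫 : Ideal (𝓞 K)) (F : Frame K) {ι : Type}
    (u : ι → G K → ℂ) (m : ι → InfinitePlace K → ℝ → ℂ)
    (a b : ι → HeightOneSpectrum (𝓞 K) → ℂ) : Prop where
  basis : IsCuspBasis 𝔫 F u m a b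
  eig_op : ∀ T, IsOp 𝔫 F T → ∀ j, ∃ c : ℂ, T (u j) = c • u j
  bound_m : ∀ j (w : InfinitePlace K) (d : ℝ), 0 < d → ‖m j w d‖ ≤ 4 * Real.pi

section Pack

variable (𝔫 : Ideal (𝓞 K)) (F : Frame K) (hOA : OpsAdj K 𝔫)
  {e : G K → ℂ} (he : IsCuspFn 𝔫 e) (h1 : pair F e e = 1)
  (heig : ∀ T, IsOp 𝔫 F T → ∃ c : ℂ, T e = c • e)

include hOA he h1 heig in
/-- The archimedean data of a joint eigenfunction, with the bound. -/
theorem mean_pack130 (w : InfinitePlace K) (d : ℝ) :
    ∃ c : ℂ, c.im = 0 ∧ ‖c‖ ≤ 4 * Real.pi ∧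
      (w.IsComplex → 0 < d → ∀ Y : ℝ → ℝ → G K, IsSphereAt w d Y →
        ∀ g : G K, sphereMean Y e g = c * e g) ∧
      (w.IsReal → 0 < d → ∀ Y : ℝ → G K, IsCircleAt w d Y →
        ∀ g : G K, circleMean Y e g = c * e g) := by
  have h4pi : (0 : ℝ) ≤ 4 * Real.pi := by positivity
  have hzero : ‖(0 : ℂ)‖ ≤ 4 * Real.pi := by rw [norm_zero]; exact h4pi
  have hne := H566.exists_ne_zero566 F h1
  by_cases hd : 0 < d
  · by_cases hw : w.IsComplex
    · have hnr : ¬ w.IsReal := InfinitePlace.not_isReal_iff_isComplex.2 hw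
      by_cases hex : ∃ Y : ℝ → ℝ → G K, IsSphereAt w d Y
      · obtain ⟨Y₀, hY₀⟩ := hex
        obtain ⟨c, hc⟩ := heig (sphereMean Y₀) (IsOp.sphere w hw d hd Y₀ hY₀)
        refine ⟨c, ?_, ?_, fun _ _ Y hY g => ?_, fun h => absurd h hnr⟩
        · exact H566.im_eq_zero_of_selfAdj566 F h1 hc
            ((hOA F).2.2.1 w hw d hd Y₀ hY₀ e e he he)
        · refine norm_le_of_pointwise130 he.bdd hne fun C hC g => ?_
          have := norm_sphereMean_le130 Y₀ e C hC g
          rw [hc] at this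
          simpa [Pi.smul_apply, smul_eq_mul, norm_mul] using this
        · rw [H566.isSphereAt_unique566 hY₀ hY, hc]
          rfl
      · exact ⟨0, rfl, hzero, fun _ _ Y hY => absurd ⟨Y, hY⟩ hex, fun h => absurd h hnr⟩
    · have hr : w.IsReal := InfinitePlace.not_isComplex_iff_isReal.1 hw
      by_cases hex : ∃ Y : ℝ → G K, IsCircleAt w d Y
      · obtain ⟨Y₀, hY₀⟩ := hex
        obtain ⟨c, hc⟩ := heig (circleMean Y₀) (IsOp.circle w hr d hd Y₀ hY₀)
        refine ⟨c, ?_, ?_, fun h => absurd h hw, fun _ _ Y hY g => ?_⟩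
        · exact H566.im_eq_zero_of_selfAdj566 F h1 hc
            ((hOA F).2.2.2 w hr d hd Y₀ hY₀ e e he he)
        · refine norm_le_of_pointwise130 he.bdd hne fun C hC g => ?_
          have h2 := norm_circleMean_le130 Y₀ e C hC g
          rw [hc] at h2
          have hC0 : 0 ≤ C := le_trans (norm_nonneg _) (hC g)
          have h3 : 2 * Real.pi * C ≤ 4 * Real.pi * C :=
            mul_le_mul_of_nonneg_right (by nlinarith [Real.pi_pos]) hC0
          have h4 : ‖c‖ * ‖e g‖ ≤ 2 * Real.pi * C := by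
            simpa [Pi.smul_apply, smul_eq_mul, norm_mul] using h2
          exact le_trans h4 h3
        · rw [H566.isCircleAt_unique566 hY₀ hY, hc]
          rfl
      · exact ⟨0, rfl, hzero, fun h => absurd h hw, fun _ _ Y hY => absurd ⟨Y, hY⟩ hex⟩
  · exact ⟨0, rfl, hzero, fun _ h => absurd h hd, fun _ h => absurd h hd⟩

end Pack

/-- **The discreteness of the cuspidal spectrum, strong form** (UNCONDITIONAL): for every frame
there is an orthonormal complete family of cusp functions of level `U(𝔫)` which are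
eigenfunctions of EVERY operator of the tower, with unitary eigen-data. -/
theorem cuspSpecPlus_closed (K : Type) [Field K] [NumberField K] (𝔫 : Ideal (𝓞 K))
    (h𝔫 : 𝔫 ≠ ⊥) (F : Frame K) :
    ∃ (ι : Type) (u : ι → G K → ℂ) (m : ι → InfinitePlace K → ℝ → ℂ)
      (a b : ι → HeightOneSpectrum (𝓞 K) → ℂ), IsCuspBasisPlus 𝔫 F u m a b := by
  have hT1 := T1.t1Out K
  have hE := estimates_closed K 𝔫 h𝔫
  have hPD : PairDefinite K 𝔫 := hE.2.1
  have hO := ops_closed K 𝔫 h𝔫
  have hOA : OpsAdj K 𝔫 := hO.2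
  obtain ⟨ι, e, hcusp, hone, horth, heig, hpar⟩ :=
    H566.exists_jointEig566 hT1.addFundDom 𝔫 F hPD H781.leaf08_781 hE.2.2.2.2.2.1
      hE.2.2.2.2.2.2.1 (approxId_closed K 𝔫 h𝔫) hO.1
  have hH : ∀ (j : ι) (v : HeightOneSpectrum (𝓞 K)), ∃ ab : ℂ × ℂ, ¬ v.asIdeal ∣ 𝔫 →
      (IsHeckeEigenAt (e j) v ab.1 ab.2 ∧ ‖ab.2‖ = 1 ∧ conj ab.1 = ab.1 * conj ab.2 ∧
        ‖ab.1‖ * Real.sqrt (Ideal.absNorm v.asIdeal : ℝ)
          ≤ (Ideal.absNorm v.asIdeal : ℝ) + 1) := by
    intro j v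
    by_cases hv : ¬ v.asIdeal ∣ 𝔫
    · obtain ⟨a, b, h⟩ := H566.hecke_pack566 hT1.heckeCoset 𝔫 F hOA (hcusp j) (hone j)
        (fun T hT => heig T hT j) v hv
      exact ⟨(a, b), fun _ => h⟩
    · exact ⟨(0, 0), fun h => absurd h hv⟩
  choose ab hab using hH
  have hM : ∀ (j : ι) (w : InfinitePlace K) (d : ℝ), ∃ c : ℂ, c.im = 0 ∧ ‖c‖ ≤ 4 * Real.pi ∧
      (w.IsComplex → 0 < d → ∀ Y : ℝ → ℝ → G K, IsSphereAt w d Y →
        ∀ g : G K, sphereMean Y (e j) g = c * e j g) ∧
      (w.IsReal → 0 < d → ∀ Y : ℝ → G K, IsCircleAt w d Y →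
        ∀ g : G K, circleMean Y (e j) g = c * e j g) := fun j w d =>
    mean_pack130 𝔫 F hOA (hcusp j) (hone j) (fun T hT => heig T hT j) w d
  choose m hm using hM
  refine ⟨ι, e, m, fun j v => (ab j v).1, fun j v => (ab j v).2, ?_, heig, ?_⟩
  · exact
      { cusp := hcusp
        norm_one := hone
        orth := horth
        eig_complex := fun j w hw d hd Y hY g => (hm j w d).2.2.1 hw hd Y hY g
        eig_real := fun j w hw d hd Y hY g => (hm j w d).2.2.2 hw hd Y hY g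
        hecke := fun j v hv => (hab j v hv).1
        unit_b := fun j v hv => (hab j v hv).2.1
        conj_a := fun j v hv => (hab j v hv).2.2.1
        bound_a := fun j v hv => (hab j v hv).2.2.2
        real_m := fun j w d _ => (hm j w d).1
        parseval := hpar }
  · exact fun j w d _ => (hm j w d).2.1

end Fermat.Agent.LT.T2

end
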