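import Mathlib
import Fermat.Agent.LT.T2.Extras

/-!
# Row LT, tower T2: EXTRAS for the consumers, part 2 (helper130, architect)

OFF-MAIN.  ADDITIVE, PROVED, UNCONDITIONAL.

* `approxSeq130`: ONE sequence `f_k` of spherical self-adjoint test functions with
  `R(f_k) φ → φ` in `L²` for EVERY cusp function `φ` (the sequence of helper907, whose leaf
  exports the existence for each `φ` only).
* `finite_large130`, `countable_index130`: the index type of a joint eigenbasis is COUNTABLE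
  (for each `k` only finitely many members have `|eigenvalue of R(f_k)| > 1/2`:
  Hilbert--Schmidt; every member occurs for some `k`: approximate identity).
* `finite_class130`: FINITE MULTIPLICITY of every system of joint eigenvalues.
* `exists_natBasis130`: the basis as a SEQUENCE indexed by `ℕ`, padded by zeros (the shape of
  `T5.IsCuspONB`: orthogonal, norm `1` or identically `0`, Parseval), every member a joint
  eigenfunction of every operator of the tower.
-/

set_option autoImplicit false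
set_option linter.unusedSectionVars false
set_option linter.style.haveILetI false

open IsDedekindDomain NumberField Matrix MeasureTheory Filter Topology
open scoped MatrixGroups Classical ComplexConjugate

noncomputable section

namespace Fermat.Agent.LT.T2

open Fermat.Agent.LT.H556.A0 Fermat.Agent.LT.T8.H864 Fermat.Agent.LT.H51.MS4
open Fermat.Agent.LT.T2.H907

attribute [local instance] Fermat.Agent.LT.T2.borelG

variable {K : Type} [Field K] [NumberField K]

/-- ONE approximate identity for all cusp functions. -/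
theorem approxSeq130 (K : Type) [Field K] [NumberField K] (𝔫 : Ideal (𝓞 K)) (h𝔫 : 𝔫 ≠ ⊥)
    (F : Frame K) :
    ∃ f : ℕ → G K → ℂ, (∀ k, IsSphTestFn 𝔫 (f k)) ∧ (∀ k, adj (f k) = f k) ∧
      ∀ φ : G K → ℂ, IsCuspFn 𝔫 φ →
        Tendsto (fun k => nsq F (fun g => conv F (f k) φ g - φ g)) atTop (𝓝 0) := by
  have hC : ConvCusp K 𝔫 := convCusp_closed K 𝔫 h𝔫
  have := borelSpace_G907 (K := K)
  have := F.haar
  set η : ℕ → ℝ := fun k => 1 / ((k : ℝ) + 1) with hη
  have hηpos : ∀ k, 0 < η k := fun k => by positivity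
  have hη1 : ∀ k, η k ≤ 1 := fun k => by
    rw [hη, div_le_one (by positivity)]
    have : (0 : ℝ) ≤ k := Nat.cast_nonneg k
    linarith
  refine ⟨fun k => apx907 F 𝔫 (η k), fun k => isSphTestFn_testFn907 h𝔫 (hηpos k) (hη1 k) _,
    fun k => adj_testFn907 𝔫 (η k) _, fun φ hφ => ?_⟩
  obtain ⟨B, hB⟩ := hφ.bdd
  have hB0 : 0 ≤ B := (norm_nonneg _).trans (hB 1)
  set ψ : ℕ → G K → ℂ := fun k g => conv F (apx907 F 𝔫 (η k)) φ g - φ g with hψ
  have hψc : ∀ k, Continuous (ψ k) := fun k =>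
    ((hC F).2.2.1 _ φ (isTestFn_testFn907 h𝔫 (hηpos k) (hη1 k) _) hφ).cont.sub hφ.cont
  have hψb : ∀ k g, ‖ψ k g‖ ≤ 2 * B := fun k g => by
    refine norm_conv_sub_le907 F h𝔫 (hηpos k) (hη1 k) hφ.cont g fun h _ => ?_
    calc ‖φ (g * h) - φ g‖ ≤ ‖φ (g * h)‖ + ‖φ g‖ := norm_sub_le _ _
      _ ≤ B + B := add_le_add (hB _) (hB _)
      _ = 2 * B := by ring
  have hψlim : ∀ g, Tendsto (fun k => ψ k g) atTop (𝓝 0) := fun g => by
    rw [Metric.tendsto_atTop]
    intro ε' hε'
    obtain ⟨k₀, hk₀⟩ := exists_close907 h𝔫 hφ.cont hφ.level_inv hφ.arch_compact g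
      (half_pos hε')
    refine ⟨k₀, fun k hk => ?_⟩
    rw [dist_zero_right]
    have hle : ‖ψ k g‖ ≤ ε' / 2 := by
      refine norm_conv_sub_le907 F h𝔫 (hηpos k) (hη1 k) hφ.cont g fun h hb => ?_
      obtain ⟨hP, hD⟩ := pfin_of_bump907_ne_zero (hηpos k) hb
      refine (hk₀ h hP (hD.le.trans ?_)).le
      rw [hη]
      apply one_div_le_one_div_of_le (by positivity)
      have : (k₀ : ℝ) ≤ k := Nat.cast_le.mpr hk
      linarith
    linarith
  have hfin : IsFiniteMeasure (F.μ.restrict F.D) :=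
    ⟨by rw [Measure.restrict_apply_univ]; exact F.fin⟩
  have hlim : Tendsto (fun k => ∫ g in F.D, ψ k g * (starRingEnd ℂ) (ψ k g) ∂F.μ) atTop
      (𝓝 (∫ _ in F.D, (0 : ℂ) ∂F.μ)) := by
    refine tendsto_integral_of_dominated_convergence (fun _ => (2 * B) ^ 2)
      (fun k => ?_) (integrable_const _) (fun k => Eventually.of_forall fun g => ?_)
      (Eventually.of_forall fun g => ?_)
    · exact ((hψc k).mul (Complex.continuous_conj.comp (hψc k))).aestronglyMeasurable
    · rw [norm_mul, RCLike.norm_conj, ← sq]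
      exact pow_le_pow_left₀ (norm_nonneg _) (hψb k g) 2
    · have := (hψlim g).mul ((Complex.continuous_conj.tendsto 0).comp (hψlim g))
      simpa using this
  rw [integral_zero] at hlim
  have h0 : Tendsto (fun k => (∫ g in F.D, ψ k g * (starRingEnd ℂ) (ψ k g) ∂F.μ).re) atTop
      (𝓝 ((0 : ℂ).re)) := (Complex.continuous_re.tendsto 0).comp hlim
  rw [Complex.zero_re] at h0
  exact h0

/-- `‖c φ‖² = |c|² ‖φ‖²`. -/
theorem nsq_smul130 (F : Frame K) (c : ℂ) (φ : G K → ℂ) :
    nsq F (c • φ) = ‖c‖ ^ 2 * nsq F φ := by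
  unfold nsq
  rw [H566.pair_smul_left566, H566.pair_smul_right566, H566.pair_self_ofReal566, ← mul_assoc,
    Complex.mul_conj, ← Complex.ofReal_mul, Complex.ofReal_re, Complex.normSq_eq_norm_sq]
  rfl

section Count

variable {𝔫 : Ideal (𝓞 K)} {F : Frame K} {ι : Type} {u : ι → G K → ℂ}

/-- For a test function `f`: only finitely many members of an orthonormal family of
eigenfunctions of `R(f)` have an eigenvalue of absolute value `> 1/2`. -/
theorem finite_large130 (hHS : HSBound K 𝔫) (hcusp : ∀ j, IsCuspFn 𝔫 (u j))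
    (hone : ∀ j, pair F (u j) (u j) = 1) (horth : ∀ i j, i ≠ j → pair F (u i) (u j) = 0)
    (f : G K → ℂ) (hf : IsTestFn 𝔫 f) (c : ι → ℂ) (hc : ∀ j, conv F f (u j) = c j • u j) :
    {j : ι | 1 / 2 < ‖c j‖}.Finite := by
  obtain ⟨C, hC⟩ := hHS F f hf
  by_contra hinf
  have hinf' : {j : ι | 1 / 2 < ‖c j‖}.Infinite := hinf
  obtain ⟨n, hn⟩ := exists_nat_gt (4 * C)
  obtain ⟨t, hts, htc⟩ := hinf'.exists_subset_card_eq n
  have e : Fin n ≃ t := (t.equivFin.trans (finCongr htc)).symm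
  have hnsq1 : ∀ j, nsq F (u j) = 1 := fun j => by
    unfold nsq
    rw [hone j]
    rfl
  have hsum := hC n (fun i => u (e i)) (fun i => hcusp _) (fun i j => by
    by_cases hij : i = j
    · rw [hij, if_pos rfl]
      exact hone _
    · rw [if_neg hij]
      refine horth _ _ fun h => hij ?_
      exact e.injective (Subtype.ext h))
  have hterm : ∀ i : Fin n, (1 : ℝ) / 4 ≤ nsq F (conv F f (u (e i))) := fun i => by
    rw [hc, nsq_smul130, hnsq1, mul_one]
    have h1 : 1 / 2 < ‖c (e i)‖ := hts (e i).2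
    nlinarith [norm_nonneg (c (e i))]
  have h2 : (n : ℝ) * (1 / 4) ≤ ∑ i : Fin n, nsq F (conv F f (u (e i))) := by
    calc (n : ℝ) * (1 / 4) = ∑ _i : Fin n, (1 / 4 : ℝ) := by
          rw [Finset.sum_const, Finset.card_univ, Fintype.card_fin, nsmul_eq_mul]
      _ ≤ ∑ i : Fin n, nsq F (conv F f (u (e i))) := Finset.sum_le_sum fun i _ => hterm i
  linarith

/-- If `R(f_k) e → e` in `L²` and `R(f_k) e = c_k e`, `‖e‖ = 1`, then `|c_k| > 1/2` for some
`k`. -/
theorem large_of_approx130 {f : ℕ → G K → ℂ} {e : G K → ℂ} (h1 : pair F e e = 1)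
    (hlim : Tendsto (fun k => nsq F (fun g => conv F (f k) e g - e g)) atTop (𝓝 0))
    (c : ℕ → ℂ) (hc : ∀ k, conv F (f k) e = c k • e) : ∃ k : ℕ, 1 / 2 < ‖c k‖ := by
  have hnsq1 : nsq F e = 1 := by
    unfold nsq
    rw [h1]
    rfl
  have h2 : ∀ k, nsq F (fun g => conv F (f k) e g - e g) = ‖c k - 1‖ ^ 2 := by
    intro k
    have h3 : (fun g => conv F (f k) e g - e g) = (c k - 1) • e := by
      funext g
      rw [hc k]
      simp only [Pi.smul_apply, smul_eq_mul]
      ring
    rw [h3, nsq_smul130, hnsq1, mul_one]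
  simp only [h2] at hlim
  obtain ⟨k, hk⟩ := ((tendsto_order.1 hlim).2 (1 / 4) (by norm_num)).exists
  refine ⟨k, ?_⟩
  have h4 : ‖c k - 1‖ < 1 / 2 := by
    by_contra h5
    push Not at h5
    nlinarith [norm_nonneg (c k - 1)]
  have h6 : ‖(1 : ℂ)‖ ≤ ‖c k‖ + ‖c k - 1‖ := by
    have := norm_sub_le (c k) (c k - 1)
    simpa using this
  rw [norm_one] at h6
  linarith

/-- The index type of an orthonormal family of joint eigen-cusp-functions is countable. -/
theorem countable_index130 (h𝔫 : 𝔫 ≠ ⊥) (hcusp : ∀ j, IsCuspFn 𝔫 (u j))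
    (hone : ∀ j, pair F (u j) (u j) = 1) (horth : ∀ i j, i ≠ j → pair F (u i) (u j) = 0)
    (heig : ∀ T, IsOp 𝔫 F T → ∀ j, ∃ c : ℂ, T (u j) = c • u j) : Countable ι := by
  obtain ⟨f, hsph, -, hlim⟩ := approxSeq130 K 𝔫 h𝔫 F
  have hHS : HSBound K 𝔫 := (estimates_closed K 𝔫 h𝔫).2.2.2.2.2.1
  have hex : ∀ (k : ℕ) (j : ι), ∃ c : ℂ, conv F (f k) (u j) = c • u j := fun k j =>
    heig (conv F (f k)) (IsOp.conv (f k) (hsph k)) j
  choose c hc using hex
  have hcover : ∀ j : ι, ∃ k : ℕ, 1 / 2 < ‖c k j‖ := fun j =>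
    large_of_approx130 (hone j) (hlim (u j) (hcusp j)) (fun k => c k j) (fun k => hc k j)
  have hfin : ∀ k : ℕ, {j : ι | 1 / 2 < ‖c k j‖}.Finite := fun k =>
    finite_large130 hHS hcusp hone horth (f k) (hsph k).test (c k) (hc k)
  have huniv : (Set.univ : Set ι) = ⋃ k : ℕ, {j : ι | 1 / 2 < ‖c k j‖} := by
    ext j
    simp only [Set.mem_univ, Set.mem_iUnion, true_iff]
    show ∃ k, 1 / 2 < ‖c k j‖
    exact hcover j
  have hcount : (Set.univ : Set ι).Countable := by
    rw [huniv]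
    exact Set.countable_iUnion fun k => (hfin k).countable
  exact Set.countable_univ_iff.1 hcount

/-- **Finite multiplicity**: the members of an orthonormal family of joint eigen-cusp-functions
which have the same eigenvalues as `u j₀` for every operator of the tower are finite in
number. -/
theorem finite_class130 (h𝔫 : 𝔫 ≠ ⊥) (hcusp : ∀ j, IsCuspFn 𝔫 (u j))
    (hone : ∀ j, pair F (u j) (u j) = 1) (horth : ∀ i j, i ≠ j → pair F (u i) (u j) = 0)
    (heig : ∀ T, IsOp 𝔫 F T → ∀ j, ∃ c : ℂ, T (u j) = c • u j) (j₀ : ι) :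
    {j : ι | ∀ T, IsOp 𝔫 F T → ∀ c : ℂ, T (u j₀) = c • u j₀ → T (u j) = c • u j}.Finite := by
  obtain ⟨f, hsph, -, hlim⟩ := approxSeq130 K 𝔫 h𝔫 F
  have hHS : HSBound K 𝔫 := (estimates_closed K 𝔫 h𝔫).2.2.2.2.2.1
  have hex : ∀ (k : ℕ) (j : ι), ∃ c : ℂ, conv F (f k) (u j) = c • u j := fun k j =>
    heig (conv F (f k)) (IsOp.conv (f k) (hsph k)) j
  choose c hc using hex
  obtain ⟨k, hk⟩ := large_of_approx130 (hone j₀) (hlim (u j₀) (hcusp j₀)) (fun k => c k j₀)
    (fun k => hc k j₀)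
  set P : ι → Prop := fun j =>
    ∀ T, IsOp 𝔫 F T → ∀ c : ℂ, T (u j₀) = c • u j₀ → T (u j) = c • u j with hP
  set c' : ι → ℂ := fun j => if P j then c k j₀ else c k j with hc'
  have hc'eig : ∀ j, conv F (f k) (u j) = c' j • u j := fun j => by
    by_cases hj : P j
    · simp only [hc', if_pos hj]
      exact hj (conv F (f k)) (IsOp.conv (f k) (hsph k)) (c k j₀) (hc k j₀)
    · simp only [hc', if_neg hj]
      exact hc k j
  refine (finite_large130 hHS hcusp hone horth (f k) (hsph k).test c' hc'eig).subset ?_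
  intro j hj
  show 1 / 2 < ‖c' j‖
  have hj' : P j := hj
  simp only [hc', if_pos hj']
  exact hk

end Count

/-- **The joint eigenbasis as a SEQUENCE** (UNCONDITIONAL): for every frame there is a sequence
`e : ℕ → (G K → ℂ)` of cusp functions of level `U(𝔫)`, pairwise orthogonal, each of norm `1` or
identically `0`, complete (Parseval), each an eigenfunction of every operator of the tower. -/
theorem exists_natBasis130 (K : Type) [Field K] [NumberField K] (𝔫 : Ideal (𝓞 K))
    (h𝔫 : 𝔫 ≠ ⊥) (F : Frame K) :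
    ∃ e : ℕ → G K → ℂ, (∀ n, IsCuspFn 𝔫 (e n)) ∧
      (∀ n n', n ≠ n' → pair F (e n) (e n') = 0) ∧
      (∀ n, pair F (e n) (e n) = 1 ∨ ∀ g : G K, e n g = 0) ∧
      (∀ T, IsOp 𝔫 F T → ∀ n, ∃ c : ℂ, T (e n) = c • e n) ∧
      ∀ φ : G K → ℂ, IsCuspFn 𝔫 φ → HasSum (fun n => ‖pair F φ (e n)‖ ^ 2) (nsq F φ) := by
  obtain ⟨ι, u, m, a, b, hB⟩ := cuspSpecPlus_closed K 𝔫 h𝔫 F
  have hcount : Countable ι :=
    countable_index130 h𝔫 hB.basis.cusp hB.basis.norm_one hB.basis.orth hB.eig_op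
  obtain ⟨g, hg⟩ := hcount.exists_injective_nat
  have hO := ops_closed K 𝔫 h𝔫
  have hzero : IsCuspFn 𝔫 (fun _ : G K => (0 : ℂ)) := H566.isCuspFn_zero566 𝔫
  set e : ℕ → G K → ℂ := fun n =>
    if h : ∃ j, g j = n then u (Classical.choose h) else fun _ => 0 with he
  have he_g : ∀ j, e (g j) = u j := fun j => by
    have h : ∃ j', g j' = g j := ⟨j, rfl⟩
    simp only [he, dif_pos h]
    rw [hg (Classical.choose_spec h)]
  have he_not : ∀ n, (¬ ∃ j, g j = n) → e n = fun _ => 0 := fun n h => by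
    simp only [he, dif_neg h]
  have hpair0 : ∀ φ : G K → ℂ, pair F φ (fun _ => 0) = 0 := fun φ => by
    unfold pair
    simp
  have hpair0' : ∀ φ : G K → ℂ, pair F (fun _ => 0) φ = 0 := fun φ => by
    unfold pair
    simp
  refine ⟨e, fun n => ?_, fun n n' hnn => ?_, fun n => ?_, fun T hT n => ?_, fun φ hφ => ?_⟩
  · by_cases h : ∃ j, g j = n
    · obtain ⟨j, rfl⟩ := h
      rw [he_g]
      exact hB.basis.cusp j
    · rw [he_not n h]
      exact hzero
  · by_cases h : ∃ j, g j = n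
    · obtain ⟨j, rfl⟩ := h
      by_cases h' : ∃ j', g j' = n'
      · obtain ⟨j', rfl⟩ := h'
        rw [he_g, he_g]
        exact hB.basis.orth j j' fun hjj => hnn (by rw [hjj])
      · rw [he_not n' h']
        exact hpair0 _
    · rw [he_not n h]
      exact hpair0' _
  · by_cases h : ∃ j, g j = n
    · obtain ⟨j, rfl⟩ := h
      left
      rw [he_g]
      exact hB.basis.norm_one j
    · right
      intro x
      rw [he_not n h]
  · by_cases h : ∃ j, g j = n
    · obtain ⟨j, rfl⟩ := h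
      rw [he_g]
      exact hB.eig_op T hT j
    · rw [he_not n h]
      refine ⟨0, ?_⟩
      rw [zero_smul]
      exact H566.op_zero566 𝔫 F hO.1 hT
  · have hsum := hB.basis.parseval φ hφ
    have hiff := hg.hasSum_iff (f := fun n => ‖pair F φ (e n)‖ ^ 2) (a := nsq F φ)
      (fun n hn => by
        have h : ¬ ∃ j, g j = n := fun ⟨j, hj⟩ => hn ⟨j, hj⟩
        show ‖pair F φ (e n)‖ ^ 2 = 0
        rw [he_not n h, hpair0]
        simp)
    refine hiff.1 ?_
    have hcomp : ((fun n => ‖pair F φ (e n)‖ ^ 2) ∘ g) = fun j => ‖pair F φ (u j)‖ ^ 2 := by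
      funext j
      simp only [Function.comp_apply]
      rw [he_g]
    rw [hcomp]
    exact hsum

end Fermat.Agent.LT.T2

end
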