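import Fermat.Agent.LT.T2.Uncond
import Fermat.Agent.LT.T2.ExtrasSeq
import Fermat.Agent.LT.T7.Level2

/-!
# Row LT, tower T2 → T7 level 2: the eigenbasis of T2 in the vocabulary of `T7/Level2.lean`
(helper130, architect of T2)

OFF-MAIN.  ADDITIVE.  Vocabulary: `T7/Level2.lean` (helper797@819237e8b, sha256 15516646),
`T5/Spec.lean` v4 (sha256 f2d97e70), `T2/Spec.lean` v3 (sha256 b934629a); byte-identical copies.

The class of `T2/Spec.lean` v3 (`T2.IsCuspFn 𝔫`: trivial `K_∞`-type, invariant under the positive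
scalars at EVERY infinite place) IS the class `T7.IsWFn 𝔫 r 0 o` of level 2 (cusp functions of
the class of T5 of trivial type which are invariant under the positive scalars at infinity; no
Iwahori condition for `l = 0`).  So `T2.cuspSpec_closed` is the restricted `CuspSpec`.

* `frameOf130 R hR : T2.Frame K` for `hR : T7.IsFrame5 R` (same measure, same domain);
  `pair_frameOf130 : T2.pair (frameOf130 R hR) = T5.innerD R.μ R.F`;
* `isWFn_zero_iff130 : T5.IsRayGen r → (T7.IsWFn 𝔫 r 0 o ψ ↔ T2.IsCuspFn 𝔫 ψ)`;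
* `meanEig_iff130 : T7.MeanEig ψ w m ↔ T2.MeanEigC ψ w m`;
* `IsWBasis130 𝔫 R l o u C`: an orthonormal family of `T7.IsEigFn 𝔫 R.r l o (u j) (C j)`,
  complete for `T7.IsWFn 𝔫 R.r l o`, with unitary eigen-data outside the level and a countable
  index type;
* **`wBasis0_130`**: for a totally complex `K`, every level `𝔫 ≠ 0` and every frame of T5 there
  is an `IsWBasis130 𝔫 R 0 o`.  UNCONDITIONAL.
-/

set_option autoImplicit false

open IsDedekindDomain NumberField MeasureTheory AutomorphicForm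
open Fermat.Agent.LT.H556 Fermat.Agent.LT.H556.A0
open scoped ComplexConjugate

noncomputable section

namespace Fermat.Agent.LT.T2

variable {K : Type} [Field K] [NumberField K]

attribute [local instance] borelG

/-! ## 1. Frames and pairings -/

/-- The frame of T2 of a frame of T5: same Haar measure, same fundamental domain. -/
def frameOf130 (R : T7.Frame5 K) (hR : T7.IsFrame5 R) : Frame K where
  μ := R.μ
  haar := hR.frame.haar
  D := R.F
  meas := hR.frame.meas
  sub := hR.frame.sub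
  strict := hR.frame.strict
  fin := hR.frame.finite

theorem pair_frameOf130 (R : T7.Frame5 K) (hR : T7.IsFrame5 R) (φ ψ : G K → ℂ) :
    pair (frameOf130 R hR) φ ψ = T5.innerD R.μ R.F φ ψ := rfl

theorem nsq_frameOf130 (R : T7.Frame5 K) (hR : T7.IsFrame5 R) (φ : G K → ℂ) :
    nsq (frameOf130 R hR) φ = (T5.innerD R.μ R.F φ φ).re := rfl

/-- A ray generator is a diagonal positive scalar. -/
theorem isDiagPosScalar_of_rayGen130 {r : G K} (hr : T5.IsRayGen r) : IsDiagPosScalar r :=
  ⟨hr.1, hr.2.choose, hr.2.choose_spec.1, hr.2.choose_spec.2.2⟩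

/-! ## 2. The classes -/

/-- An element which is trivial at every place is `1`. -/
theorem eq_one_of_triv130 {h : G K} (hI : ∀ w : InfinitePlace K, TrivAtInf w h)
    (hF : ∀ v : HeightOneSpectrum (𝓞 K), TrivAtFin v h) : h = 1 := by
  refine H129.G_ext129 (fun w => ?_) (fun v => ?_)
  · rw [map_one]
    exact (H129.trivAtInf_iff129 w h).1 (hI w)
  · rw [map_one]
    exact (H129.trivAtFin_iff129 v h).1 (hF v)

/-- The cusp functions of `T2/Spec.lean` are cusp functions of the class of T5 (trivial type). -/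
theorem isCuspFn5_of_isCuspFn130 {𝔫 : Ideal (𝓞 K)} {r : G K} (hr : T5.IsRayGen r)
    {ψ : G K → ℂ} (h : IsCuspFn 𝔫 ψ) : T5.IsCuspFn 𝔫 T5.trivType r ψ where
  cont := h.cont
  bdd := h.bdd
  aut :=
    { left_inv := h.left_inv
      level_inv := h.level_inv
      arch_compact := fun w k hk g => by
        rw [h.arch_compact w k hk g]
        show ψ g = 1 * ψ g
        rw [one_mul]
      ray := fun g => H429.cusp_diag_inv429 h r (isDiagPosScalar_of_rayGen130 hr) g }
  cuspidal := h.cuspidal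

/-- **The class of `T2/Spec.lean` is the class `IsWFn` of level 2 without Iwahori condition.** -/
theorem isWFn_zero_iff130 {𝔫 : Ideal (𝓞 K)} {r : G K} (hr : T5.IsRayGen r)
    (o : ℕ → HeightOneSpectrum (𝓞 K)) (ψ : G K → ℂ) :
    T7.IsWFn 𝔫 r 0 o ψ ↔ IsCuspFn 𝔫 ψ := by
  constructor
  · intro h
    exact
      { cont := h.cusp.cont
        bdd := h.cusp.bdd
        left_inv := h.cusp.aut.left_inv
        level_inv := h.cusp.aut.level_inv
        arch_scalar := h.arch_scalar
        arch_compact := fun w k hk g => by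
          rw [h.cusp.aut.arch_compact w k hk g]
          show 1 * ψ g = ψ g
          rw [one_mul]
        cuspidal := h.cusp.cuspidal }
  · intro h
    refine ⟨isCuspFn5_of_isCuspFn130 hr h, h.arch_scalar, ?_⟩
    intro x hI hF _ g
    have hx : x = 1 := eq_one_of_triv130 hI (fun v => hF v (fun j hj => absurd hj (Nat.not_lt_zero j)))
    rw [hx, mul_one]

/-- A function of the class `IsWFn` (any Iwahori condition) is a cusp function of T2. -/
theorem isCuspFn_of_isWFn130 {𝔫 : Ideal (𝓞 K)} {r : G K} {l : ℕ}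
    {o : ℕ → HeightOneSpectrum (𝓞 K)} {ψ : G K → ℂ} (h : T7.IsWFn 𝔫 r l o ψ) :
    IsCuspFn 𝔫 ψ where
  cont := h.cusp.cont
  bdd := h.cusp.bdd
  left_inv := h.cusp.aut.left_inv
  level_inv := h.cusp.aut.level_inv
  arch_scalar := h.arch_scalar
  arch_compact := fun w k hk g => by
    rw [h.cusp.aut.arch_compact w k hk g]
    show 1 * ψ g = ψ g
    rw [one_mul]
  cuspidal := h.cusp.cuspidal

/-- The eigen-condition of level 2 at an infinite place is `T2.MeanEigC`. -/
theorem meanEig_iff130 (ψ : G K → ℂ) (w : InfinitePlace K) (m : ℝ → ℂ) :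
    T7.MeanEig ψ w m ↔ MeanEigC ψ w m := Iff.rfl

/-! ## 3. The basis -/

/-- An orthonormal family of joint eigenfunctions of the class `IsWFn 𝔫 R.r l o` of level 2,
complete for this class, with unitary eigen-data outside the level; the index type is
countable. -/
structure IsWBasis130 (𝔫 : Ideal (𝓞 K)) (R : T7.Frame5 K) (l : ℕ)
    (o : ℕ → HeightOneSpectrum (𝓞 K)) {ι : Type} (u : ι → G K → ℂ) (C : ι → T7.EigData K) :
    Prop where
  eig : ∀ j, T7.IsEigFn 𝔫 R.r l o (u j) (C j)
  norm_one : ∀ j, T5.innerD R.μ R.F (u j) (u j) = 1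
  orth : ∀ i j, i ≠ j → T5.innerD R.μ R.F (u i) (u j) = 0
  parseval : ∀ ψ : G K → ℂ, T7.IsWFn 𝔫 R.r l o ψ →
    HasSum (fun j => ‖T5.innerD R.μ R.F ψ (u j)‖ ^ 2) (T5.innerD R.μ R.F ψ ψ).re
  unitary : ∀ (j : ι) (S : Finset (HeightOneSpectrum (𝓞 K))),
    (∀ v : HeightOneSpectrum (𝓞 K), v.asIdeal ∣ 𝔫 → v ∈ S) → (C j).IsUnitaryOut S
  countable : Countable ι

/-- A basis of T2 (with the extras) is a basis of the class `IsWFn 𝔫 R.r 0 o`. -/
theorem isWBasis_of_plus130 (hcx : ∀ w : InfinitePlace K, w.IsComplex) {𝔫 : Ideal (𝓞 K)}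
    (h𝔫 : 𝔫 ≠ ⊥) (R : T7.Frame5 K) (hR : T7.IsFrame5 R) (o : ℕ → HeightOneSpectrum (𝓞 K))
    {ι : Type} {u : ι → G K → ℂ} {m : ι → InfinitePlace K → ℝ → ℂ}
    {a b : ι → HeightOneSpectrum (𝓞 K) → ℂ}
    (hB : IsCuspBasisPlus 𝔫 (frameOf130 R hR) u m a b) :
    IsWBasis130 𝔫 R 0 o u (fun j => ⟨a j, b j, m j⟩) where
  eig := fun j =>
    { inv := (isWFn_zero_iff130 hR.ray o (u j)).2 (hB.basis.cusp j)
      hecke := fun v hv => hB.basis.hecke j v hv
      mean := fun w => hB.basis.eig_complex j w (hcx w) }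
  norm_one := fun j => hB.basis.norm_one j
  orth := fun i j hij => hB.basis.orth i j hij
  parseval := fun ψ hψ => hB.basis.parseval ψ ((isWFn_zero_iff130 hR.ray o ψ).1 hψ)
  unitary := fun j _ hS =>
    ⟨fun v hv =>
      have hv' : ¬ v.asIdeal ∣ 𝔫 := fun h => hv (hS v h)
      ⟨hB.basis.unit_b j v hv', hB.basis.conj_a j v hv', hB.basis.bound_a j v hv'⟩,
      fun w d hd => ⟨hB.basis.real_m j w d hd, hB.bound_m j w d hd⟩⟩
  countable :=
    countable_index130 h𝔫 hB.basis.cusp hB.basis.norm_one hB.basis.orth hB.eig_op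

/-- **THE RESTRICTED `CuspSpec` OF LEVEL 2** (no Iwahori condition): for a totally complex field,
every level `𝔫 ≠ 0` and every frame of T5 there is an orthonormal family of joint eigenfunctions
of the class `IsWFn 𝔫 R.r 0 o`, complete for this class.  UNCONDITIONAL. -/
theorem wBasis0_130 (K : Type) [Field K] [NumberField K]
    (hcx : ∀ w : InfinitePlace K, w.IsComplex) (𝔫 : Ideal (𝓞 K)) (h𝔫 : 𝔫 ≠ ⊥)
    (R : T7.Frame5 K) (hR : T7.IsFrame5 R) (o : ℕ → HeightOneSpectrum (𝓞 K)) :
    ∃ (ι : Type) (u : ι → G K → ℂ) (C : ι → T7.EigData K), IsWBasis130 𝔫 R 0 o u C := by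
  obtain ⟨ι, u, m, a, b, hB⟩ := cuspSpecPlus_closed K 𝔫 h𝔫 (frameOf130 R hR)
  exact ⟨ι, u, fun j => ⟨a j, b j, m j⟩, isWBasis_of_plus130 hcx h𝔫 R hR o hB⟩

end Fermat.Agent.LT.T2
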