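import Fermat.Agent.LT.T2.Uncond
import Fermat.Agent.LT.T2.ExtrasSeq

/-!
# Row LT, tower T2: ADMISSIBILITY (helper130, architect)

OFF-MAIN.  ADDITIVE, PROVED, UNCONDITIONAL (totally complex fields).

For a totally complex field the members of a joint eigenbasis of T2 which have the same
eigenvalue functions of the sphere means at the infinite places are FINITE in number: the space
of cusp functions of level `U(𝔫)` with given archimedean parameters has finite dimension.

Proof.  `B_u(h) = ∫_D u(g h) conj u(g) dμ(g)` (matrix coefficient).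
* `B_u` is bi-invariant under the compact groups at infinity and right invariant under the
  positive scalars and under `U(𝔫)` (`H770.B_left770`, unitarity of the right translations);
* for `a` of component `torus d` at `w` and `h'` trivial at `w`:
  `4π B_u(a h') = m_w(d) B_u(h')` (Fubini, `fubini_pair130`, and `sphereMean Y u = m_w(d) u`);
* Cartan decomposition at each infinite place (`subCartanInf555`), induction over the places:
  `B_u = B_{u'}` on the elements which are trivial at the finite places when `u`, `u'` have the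
  same eigenvalue functions (`coeff_eq130`);
* Fubini again: the eigenvalue of `R(f)` on `u` is `∫ f(h) B_u(h) dμ(h)`; for the approximate
  identity of helper907 (supported in `GL₂(K_∞) U(𝔫)`) it depends on the eigenvalue functions
  only (`convEig_eq130`);
* Hilbert--Schmidt (`finite_large130`) and approximate identity (`large_of_approx130`).
-/

set_option autoImplicit false
set_option linter.unusedSectionVars false
set_option linter.style.haveILetI false

open IsDedekindDomain NumberField MeasureTheory Filter Topology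
open Fermat.Agent.LT.H556.A0
open scoped ComplexConjugate Matrix

noncomputable section

namespace Fermat.Agent.LT.T2

attribute [local instance] Fermat.Agent.LT.T2.borelG

/-! ## 1. Fubini -/

/-- Fubini for the pairing of a mean: `⟨∫_p s(p) R(y_p) φ dν, ψ⟩ = ∫_p s(p) ⟨R(y_p) φ, ψ⟩ dν`. -/
theorem fubini_pair130 {G P : Type*} [Group G] [TopologicalSpace G] [IsTopologicalGroup G]
    [MeasurableSpace G] [BorelSpace G] [TopologicalSpace P] [SecondCountableTopology P]
    [MeasurableSpace P] [BorelSpace P] (μ : Measure G) (D : Set G) (hD : μ D < ⊤)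
    (ν : Measure P) [SFinite ν] {φ ψ : G → ℂ} (hφ : Continuous φ) (hψ : Continuous ψ)
    {Cφ Cψ : ℝ} (hCφ : ∀ g, ‖φ g‖ ≤ Cφ) (hCψ : ∀ g, ‖ψ g‖ ≤ Cψ) {y : P → G} (hy : Continuous y)
    {s : P → ℂ} (hs : Continuous s) (hsi : Integrable s ν) :
    ∫ g in D, (∫ p, φ (g * y p) * s p ∂ν) * conj (ψ g) ∂μ
      = ∫ p, s p * ∫ g in D, φ (g * y p) * conj (ψ g) ∂μ ∂ν := by
  have : IsFiniteMeasure (μ.restrict D) := ⟨by rw [Measure.restrict_apply_univ]; exact hD⟩
  have hCφ0 : 0 ≤ Cφ := (norm_nonneg _).trans (hCφ 1)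
  have hCψ0 : 0 ≤ Cψ := (norm_nonneg _).trans (hCψ 1)
  have hmul : Continuous fun q : G × P => q.1 * y q.2 :=
    continuous_fst.mul (hy.comp continuous_snd)
  have hc1 : Continuous fun q : G × P => φ (q.1 * y q.2) * s q.2 * conj (ψ q.1) :=
    ((hφ.comp hmul).mul (hs.comp continuous_snd)).mul
      (Complex.continuous_conj.comp (hψ.comp continuous_fst))
  have hg0 : Integrable (fun q : G × P => Cφ * Cψ * ‖s q.2‖) ((μ.restrict D).prod ν) :=
    (hsi.norm.const_mul (Cφ * Cψ)).comp_snd (μ.restrict D)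
  have hi1 : Integrable (Function.uncurry fun (g : G) (p : P) =>
      φ (g * y p) * s p * conj (ψ g)) ((μ.restrict D).prod ν) := by
    refine hg0.mono' hc1.aestronglyMeasurable (Filter.Eventually.of_forall fun q => ?_)
    show ‖φ (q.1 * y q.2) * s q.2 * conj (ψ q.1)‖ ≤ _
    rw [norm_mul, norm_mul, RCLike.norm_conj]
    calc ‖φ (q.1 * y q.2)‖ * ‖s q.2‖ * ‖ψ q.1‖
        ≤ Cφ * ‖s q.2‖ * Cψ :=
          mul_le_mul (mul_le_mul_of_nonneg_right (hCφ _) (norm_nonneg _)) (hCψ _)
            (norm_nonneg _) (mul_nonneg hCφ0 (norm_nonneg _))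
      _ = Cφ * Cψ * ‖s q.2‖ := by ring
  calc ∫ g in D, (∫ p, φ (g * y p) * s p ∂ν) * conj (ψ g) ∂μ
      = ∫ g in D, ∫ p, φ (g * y p) * s p * conj (ψ g) ∂ν ∂μ := by
        congr 1
        funext g
        rw [integral_mul_const]
    _ = ∫ p, ∫ g in D, φ (g * y p) * s p * conj (ψ g) ∂μ ∂ν :=
        integral_integral_swap hi1
    _ = ∫ p, s p * ∫ g in D, φ (g * y p) * conj (ψ g) ∂μ ∂ν := by
        congr 1
        funext p
        rw [← integral_const_mul]
        congr 1
        funext g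
        ring

/-! ## 2. The Cartan decomposition with a torus element -/

theorem torus_eq130 (d : ℝ) :
    torus d = Matrix.diagonal ![((Real.exp (d / 2) : ℝ) : ℂ), ((Real.exp (-(d / 2)) : ℝ) : ℂ)] := by
  unfold torus
  ext i j
  fin_cases i <;> fin_cases j <;> simp

/-- A positive diagonal matrix `diag(p, q)`, `p ≥ q`, is a positive scalar times a torus
element of non-negative parameter. -/
theorem posDiag_eq130 {p q : ℝ} (hq : 0 < q) (hpq : q ≤ p) :
    ∃ d r : ℝ, 0 ≤ d ∧ 0 < r ∧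
      (Matrix.diagonal ![(p : ℂ), (q : ℂ)] : Matrix (Fin 2) (Fin 2) ℂ)
        = torus d * Matrix.diagonal (fun _ => (r : ℂ)) := by
  have hp : 0 < p := lt_of_lt_of_le hq hpq
  have hpq0 : 0 < p * q := mul_pos hp hq
  set d : ℝ := Real.log (p / q) with hd
  set r : ℝ := Real.sqrt (p * q) with hr
  have hrpos : 0 < r := Real.sqrt_pos.2 hpq0
  have hr2 : r * r = p * q := Real.mul_self_sqrt hpq0.le
  have hepos : 0 < Real.exp (d / 2) := Real.exp_pos _
  have he : Real.exp (d / 2) * Real.exp (d / 2) = p / q := by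
    rw [← Real.exp_add, add_halves, hd, Real.exp_log (div_pos hp hq)]
  have h1 : Real.exp (d / 2) * r = p := by
    have hsq : (Real.exp (d / 2) * r) ^ 2 = p ^ 2 := by
      calc (Real.exp (d / 2) * r) ^ 2
          = (Real.exp (d / 2) * Real.exp (d / 2)) * (r * r) := by ring
        _ = p / q * (p * q) := by rw [he, hr2]
        _ = p ^ 2 := by field_simp
    exact (sq_eq_sq₀ (mul_pos hepos hrpos).le hp.le).1 hsq
  have h2 : Real.exp (-(d / 2)) * r = q := by
    have h3 : Real.exp (-(d / 2)) * Real.exp (d / 2) = 1 := by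
      rw [← Real.exp_add, neg_add_cancel, Real.exp_zero]
    have h4 : Real.exp (-(d / 2)) * r * p = q * p := by
      calc Real.exp (-(d / 2)) * r * p
          = Real.exp (-(d / 2)) * r * (Real.exp (d / 2) * r) := by rw [h1]
        _ = (Real.exp (-(d / 2)) * Real.exp (d / 2)) * (r * r) := by ring
        _ = q * p := by rw [h3, hr2]; ring
    exact mul_right_cancel₀ hp.ne' h4
  refine ⟨d, r, Real.log_nonneg ((one_le_div hq).2 hpq), hrpos, ?_⟩
  rw [torus_eq130, Matrix.diagonal_mul_diagonal]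
  congr 1
  funext i
  fin_cases i
  · show (p : ℂ) = ((Real.exp (d / 2) : ℝ) : ℂ) * (r : ℂ)
    rw [← Complex.ofReal_mul, h1]
  · show (q : ℂ) = ((Real.exp (-(d / 2)) : ℝ) : ℂ) * (r : ℂ)
    rw [← Complex.ofReal_mul, h2]

theorem rotY_neg_pi130 : rotY (-Real.pi) = !![0, 1; -1, 0] := by
  unfold rotY
  ext i j
  fin_cases i <;> fin_cases j <;> simp [neg_div]

/-- The Weyl element exchanges the entries of a diagonal matrix. -/
theorem weyl_diag130 (p q : ℂ) :
    rotY Real.pi * Matrix.diagonal ![p, q] * rotY (-Real.pi)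
      = (Matrix.diagonal ![q, p] : Matrix (Fin 2) (Fin 2) ℂ) := by
  have e : ∀ x y : ℂ, (Matrix.diagonal ![x, y] : Matrix (Fin 2) (Fin 2) ℂ) = !![x, 0; 0, y] := by
    intro x y
    ext i j
    fin_cases i <;> fin_cases j <;> simp
  rw [H770.rotY_pi770, rotY_neg_pi130, e, e]
  ext i j
  fin_cases i <;> fin_cases j <;> simp [Matrix.mul_apply, Fin.sum_univ_two]

theorem diag_unitary130 {a b : ℂ} (ha : a ≠ 0) (hb : b ≠ 0) :
    (Matrix.diagonal ![a / (‖a‖ : ℂ), b / (‖b‖ : ℂ)] : Matrix (Fin 2) (Fin 2) ℂ)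
      * (Matrix.diagonal ![a / (‖a‖ : ℂ), b / (‖b‖ : ℂ)] : Matrix (Fin 2) (Fin 2) ℂ)ᴴ = 1 := by
  have key : ∀ c : ℂ, c ≠ 0 → c / (‖c‖ : ℂ) * conj (c / (‖c‖ : ℂ)) = 1 := by
    intro c hc
    have hn : (‖c‖ : ℂ) ≠ 0 := by
      rw [Ne, Complex.ofReal_eq_zero]
      exact norm_ne_zero_iff.2 hc
    rw [map_div₀, Complex.conj_ofReal, div_mul_div_comm, Complex.mul_conj, Complex.normSq_eq_norm_sq,
      Complex.ofReal_pow, sq]
    exact div_self (mul_ne_zero hn hn)
  have e : (Matrix.diagonal ![a / (‖a‖ : ℂ), b / (‖b‖ : ℂ)] : Matrix (Fin 2) (Fin 2) ℂ)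
      = !![a / (‖a‖ : ℂ), 0; 0, b / (‖b‖ : ℂ)] := by
    ext i j
    fin_cases i <;> fin_cases j <;> simp
  rw [e]
  exact H770.diag_unitary770 (key a ha) (key b hb)

theorem diag_polar130 {a b : ℂ} (ha : a ≠ 0) (hb : b ≠ 0) :
    (Matrix.diagonal ![a, b] : Matrix (Fin 2) (Fin 2) ℂ)
      = Matrix.diagonal ![a / (‖a‖ : ℂ), b / (‖b‖ : ℂ)]
        * Matrix.diagonal ![((‖a‖ : ℝ) : ℂ), ((‖b‖ : ℝ) : ℂ)] := by
  have key : ∀ c : ℂ, c ≠ 0 → c / (‖c‖ : ℂ) * (‖c‖ : ℂ) = c := by
    intro c hc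
    have hn : (‖c‖ : ℂ) ≠ 0 := by
      rw [Ne, Complex.ofReal_eq_zero]
      exact norm_ne_zero_iff.2 hc
    exact div_mul_cancel₀ c hn
  rw [Matrix.diagonal_mul_diagonal]
  congr 1
  funext i
  fin_cases i
  · exact (key a ha).symm
  · exact (key b hb).symm

/-- A scalar matrix commutes with every matrix. -/
theorem scalar_comm130 (r : ℂ) (M : Matrix (Fin 2) (Fin 2) ℂ) :
    Matrix.diagonal (fun _ => r) * M = M * Matrix.diagonal (fun _ => r) := by
  ext i j
  rw [Matrix.diagonal_mul, Matrix.mul_diagonal, mul_comm]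

/-- **The Cartan decomposition with a torus element**: every invertible complex matrix is
`U₁ · torus d · U₂ · r` with `U₁`, `U₂` unitary, `d ≥ 0` and `r > 0`. -/
theorem cartan_torus130 (X : Matrix (Fin 2) (Fin 2) ℂ) (hX : X.det ≠ 0) :
    ∃ (U₁ U₂ : Matrix (Fin 2) (Fin 2) ℂ) (d r : ℝ), U₁ * U₁ᴴ = 1 ∧ U₂ * U₂ᴴ = 1 ∧ 0 ≤ d ∧
      0 < r ∧ X = U₁ * torus d * U₂ * Matrix.diagonal (fun _ => (r : ℂ)) := by
  obtain ⟨k₁, k₂, a, b, hk₁, hk₂, hXe, -⟩ := H555.subCartanInf555 X hX
  have hab : a * b ≠ 0 := by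
    intro h0
    apply hX
    rw [hXe, Matrix.det_mul, Matrix.det_mul, Matrix.det_diagonal, Fin.prod_univ_two]
    simp only [Matrix.cons_val_zero, Matrix.cons_val_one]
    rw [h0, mul_zero, zero_mul]
  have ha : a ≠ 0 := left_ne_zero_of_mul hab
  have hb : b ≠ 0 := right_ne_zero_of_mul hab
  have hna : 0 < ‖a‖ := norm_pos_iff.2 ha
  have hnb : 0 < ‖b‖ := norm_pos_iff.2 hb
  have hE := diag_unitary130 ha hb
  set E : Matrix (Fin 2) (Fin 2) ℂ := Matrix.diagonal ![a / (‖a‖ : ℂ), b / (‖b‖ : ℂ)] with hEdef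
  rcases le_total ‖b‖ ‖a‖ with hle | hle
  · obtain ⟨d, r, hd, hr, hdr⟩ := posDiag_eq130 hnb hle
    refine ⟨k₁ * E, k₂, d, r, H770.unitary_mul770 hk₁ hE, hk₂, hd, hr, ?_⟩
    rw [hXe, diag_polar130 ha hb, hdr]
    simp only [Matrix.mul_assoc]
    rw [scalar_comm130 (r : ℂ) k₂]
  · obtain ⟨d, r, hd, hr, hdr⟩ := posDiag_eq130 hna hle
    have hJ : rotY Real.pi * (rotY Real.pi)ᴴ = 1 := H770.rotY_unitary770 _
    have hJ' : rotY (-Real.pi) * (rotY (-Real.pi))ᴴ = 1 := H770.rotY_unitary770 _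
    refine ⟨k₁ * E * rotY Real.pi, rotY (-Real.pi) * k₂, d, r,
      H770.unitary_mul770 (H770.unitary_mul770 hk₁ hE) hJ, H770.unitary_mul770 hJ' hk₂, hd, hr, ?_⟩
    have hsw : (Matrix.diagonal ![((‖a‖ : ℝ) : ℂ), ((‖b‖ : ℝ) : ℂ)] : Matrix (Fin 2) (Fin 2) ℂ)
        = rotY Real.pi * (torus d * Matrix.diagonal (fun _ => (r : ℂ))) * rotY (-Real.pi) := by
      rw [← hdr, weyl_diag130]
    rw [hXe, diag_polar130 ha hb, hsw]
    simp only [Matrix.mul_assoc]
    rw [scalar_comm130 (r : ℂ) (rotY (-Real.pi) * k₂)]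
    simp only [Matrix.mul_assoc]
    rfl

/-! ## 3. The matrix coefficient -/

section Coeff

variable {K : Type} [Field K] [NumberField K]

/-- An element supported at `w` commutes with an element which is trivial at `w`. -/
theorem commute_local_triv130 {w : InfinitePlace K} {x h : G K} (hx : IsLocalAtInf w x)
    (hh : TrivAtInf w h) : x * h = h * x := by
  rw [H429.isLocalAtInf_iff429] at hx
  refine H429.commute_of_disjoint429 (fun w' => ?_) (fun v => Or.inl (hx.2 v))
  by_cases hw : w' = w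
  · subst hw
    exact Or.inr ((H129.trivAtInf_iff129 _ h).1 hh)
  · exact Or.inl (hx.1 w' hw)

/-- The mass of the sphere: `∫ sin β dα dβ = 4π`. -/
theorem sphereMass130 :
    ∫ p, ((Real.sin p.2 : ℝ) : ℂ) ∂H770.nuS770 = ((4 * Real.pi : ℝ) : ℂ) := by
  have hpi : (0 : ℝ) ≤ Real.pi := Real.pi_pos.le
  have h2pi : (0 : ℝ) ≤ 2 * Real.pi := by positivity
  unfold H770.nuS770
  rw [integral_fun_snd (μ := volume.restrict (Set.Ioc (0 : ℝ) (2 * Real.pi)))
    (ν := volume.restrict (Set.Ioc (0 : ℝ) Real.pi)) (fun β : ℝ => ((Real.sin β : ℝ) : ℂ))]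
  have h1 : (volume.restrict (Set.Ioc (0 : ℝ) (2 * Real.pi))).real Set.univ = 2 * Real.pi := by
    rw [Measure.real, Measure.restrict_apply_univ, Real.volume_Ioc, sub_zero,
      ENNReal.toReal_ofReal h2pi]
  have h2a : ∫ β in Set.Ioc (0 : ℝ) Real.pi, ((Real.sin β : ℝ) : ℂ)
      = ((∫ β in Set.Ioc (0 : ℝ) Real.pi, Real.sin β : ℝ) : ℂ) :=
    integral_ofReal (μ := volume.restrict (Set.Ioc (0 : ℝ) Real.pi)) (𝕜 := ℂ)
      (f := fun β => Real.sin β)
  have h2 : ∫ β in Set.Ioc (0 : ℝ) Real.pi, ((Real.sin β : ℝ) : ℂ) = ((2 : ℝ) : ℂ) := by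
    rw [h2a, ← intervalIntegral.integral_of_le hpi, integral_sin, Real.cos_zero, Real.cos_pi]
    norm_num
  rw [h1, h2, Complex.real_smul, ← Complex.ofReal_mul]
  congr 1
  ring

theorem sphereMass_ne_zero130 : ∫ p, ((Real.sin p.2 : ℝ) : ℂ) ∂H770.nuS770 ≠ 0 := by
  rw [sphereMass130, Ne, Complex.ofReal_eq_zero]
  positivity

variable (F : Frame K) {𝔫 : Ideal (𝓞 K)}

theorem coef_right_level130 (u ψ : G K → ℂ)
    (hu : ∀ k : G K, InLevelGroup 𝔫 k → ∀ g : G K, u (g * k) = u g) {k : G K}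
    (hk : InLevelGroup 𝔫 k) (h : G K) : H770.B770 F u ψ (h * k) = H770.B770 F u ψ h := by
  unfold H770.B770
  congr 1
  funext g
  rw [← mul_assoc, hu k hk]

theorem coef_right_scalar130 {u : G K → ℂ} (hu : IsCuspFn 𝔫 u) (ψ : G K → ℂ)
    {w : InfinitePlace K} {z : G K} (hz : IsArchPosScalar w z) (h : G K) :
    H770.B770 F u ψ (h * z) = H770.B770 F u ψ h := by
  unfold H770.B770
  congr 1
  funext g
  rw [← mul_assoc, hu.arch_scalar w z hz]

theorem coef_right_cpt130 {u : G K → ℂ} (hu : IsCuspFn 𝔫 u) (ψ : G K → ℂ)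
    {w : InfinitePlace K} {k : G K} (hk : IsArchCompact w k) (h : G K) :
    H770.B770 F u ψ (h * k) = H770.B770 F u ψ h := by
  unfold H770.B770
  congr 1
  funext g
  rw [← mul_assoc, hu.arch_compact w k hk]

theorem coef_one130 (u : G K → ℂ) : H770.B770 F u u 1 = pair F u u := by
  unfold H770.B770 pair
  congr 1
  funext g
  rw [mul_one]

/-- **The functional equation of the matrix coefficient**: for `a` of component `torus d` at the
complex place `w` and `h'` trivial at `w`, `4π B(a h') = m(d) B(h')`. -/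
theorem coef_torus130 (hcx : ∀ w : InfinitePlace K, w.IsComplex) {u : G K → ℂ}
    (hu : IsCuspFn 𝔫 u) {w : InfinitePlace K} {m : ℝ → ℂ} (hm : MeanEigC u w m) {d : ℝ}
    (hd : 0 < d) {a h' : G K} (ha : IsLocalAtInf w a) (hac : infComp w a = torus d)
    (hh' : TrivAtInf w h') :
    (∫ p, ((Real.sin p.2 : ℝ) : ℂ) ∂H770.nuS770) * H770.B770 F u u (a * h')
      = m d * H770.B770 F u u h' := by
  have hT1 := T1.t1Out K
  obtain ⟨-, hLC', hT2, hSC⟩ := hT1.locComp
  have := hLC'
  have := hT2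
  have := hSC
  have hBor : BorelSpace (G K) := ⟨rfl⟩
  have := F.haar
  have hfin := H770.isFiniteMeasure_nuS770
  have hnr : ¬ w.IsReal := InfinitePlace.not_isReal_iff_isComplex.2 (hcx w)
  have hex : ∀ α β : ℝ, ∃ k : G K, IsArchCompact w k ∧ infComp w k = rotZ α * rotY β :=
    fun α β => H878.exists_archCompact878 w _
      (H770.unitary_mul770 (H770.rotZ_unitary770 α) (H770.rotY_unitary770 β))
      (fun h => absurd h hnr)
  choose k hk using hex
  set Y : ℝ → ℝ → G K := fun α β => k α β * a with hYdef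
  have hY : IsSphereAt w d Y := fun α β =>
    ⟨H878.isLocalAtInf_mul878 (hk α β).1.1 ha, by
      rw [hYdef, H878.infComp_mul878, (hk α β).2, hac]⟩
  have hYc : Continuous fun p : ℝ × ℝ => Y p.1 p.2 :=
    H546.continuous_sphere_h546 (H472.subLocCont472 K) hY
  obtain ⟨C, hC⟩ := hu.bdd
  have hφc : Continuous fun g : G K => u (g * h') :=
    hu.cont.comp (continuous_id.mul continuous_const)
  have hs : Continuous fun p : ℝ × ℝ => ((Real.sin p.2 : ℝ) : ℂ) :=
    Complex.continuous_ofReal.comp (Real.continuous_sin.comp continuous_snd)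
  have hsi : Integrable (fun p : ℝ × ℝ => ((Real.sin p.2 : ℝ) : ℂ)) H770.nuS770 := by
    refine Integrable.of_bound hs.aestronglyMeasurable 1 (Filter.Eventually.of_forall fun p => ?_)
    rw [Complex.norm_real, Real.norm_eq_abs]
    exact Real.abs_sin_le_one _
  have key := fubini_pair130 F.μ F.D F.fin H770.nuS770 hφc hu.cont (fun g => hC (g * h')) hC hYc
    hs hsi
  -- the left side
  have hL : ∀ g : G K,
      ∫ p, u (g * Y p.1 p.2 * h') * ((Real.sin p.2 : ℝ) : ℂ) ∂H770.nuS770 = m d * u (g * h') := by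
    intro g
    have e : ∀ p : ℝ × ℝ, g * Y p.1 p.2 * h' = g * h' * Y p.1 p.2 := fun p => by
      rw [mul_assoc, commute_local_triv130 (hY p.1 p.2).1 hh', ← mul_assoc]
    simp only [e]
    rw [← H770.sphereMean_eq770 hYc hu.cont hC (g * h')]
    exact hm d hd Y hY (g * h')
  -- the right side
  have hR : ∀ p : ℝ × ℝ, ∫ g in F.D, u (g * Y p.1 p.2 * h') * conj (u g) ∂F.μ
      = H770.B770 F u u (a * h') := by
    intro p
    have e : H770.B770 F u u (k p.1 p.2 * (a * h')) = H770.B770 F u u (a * h') :=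
      H770.B_left770 (H429.subTransl429 K) hT1 F hu hu (hk p.1 p.2).1 (a * h')
    rw [← e]
    unfold H770.B770
    congr 1
    funext g
    rw [hYdef]
    simp only [mul_assoc]
  simp only [hL, hR] at key
  have e2 : ∫ g in F.D, m d * u (g * h') * conj (u g) ∂F.μ = m d * H770.B770 F u u h' := by
    unfold H770.B770
    rw [← integral_const_mul]
    congr 1
    funext g
    ring
  have e3 : ∫ p, ((Real.sin p.2 : ℝ) : ℂ) * H770.B770 F u u (a * h') ∂H770.nuS770
      = (∫ p, ((Real.sin p.2 : ℝ) : ℂ) ∂H770.nuS770) * H770.B770 F u u (a * h') :=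
    integral_mul_const _ _
  rw [← e3, ← key, e2]

/-- The matrix coefficient at `x h'`, `x` supported at `w`, `h'` trivial at `w`, is the matrix
coefficient at `a h'` for a torus element `a` at `w` of parameter `d ≥ 0` which depends on `x`
only. -/
theorem coef_cartan130 (hcx : ∀ w : InfinitePlace K, w.IsComplex) {w : InfinitePlace K}
    {x : G K} (hx : IsLocalAtInf w x) :
    ∃ (d : ℝ) (a : G K), 0 ≤ d ∧ IsLocalAtInf w a ∧ infComp w a = torus d ∧
      ∀ (u : G K → ℂ), IsCuspFn 𝔫 u → ∀ h' : G K, TrivAtInf w h' →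
        H770.B770 F u u (x * h') = H770.B770 F u u (a * h') := by
  have hT1 := T1.t1Out K
  have hnr : ¬ w.IsReal := InfinitePlace.not_isReal_iff_isComplex.2 (hcx w)
  obtain ⟨U₁, U₂, d, r, hU₁, hU₂, hd, hr, hX⟩ :=
    cartan_torus130 (infComp w x) (H907.det_infComp_ne_zero907 w x)
  obtain ⟨κ₁, hκ₁, hκ₁c⟩ := H878.exists_archCompact878 w U₁ hU₁ (fun h => absurd h hnr)
  obtain ⟨κ₂, hκ₂, hκ₂c⟩ := H878.exists_archCompact878 w U₂ hU₂ (fun h => absurd h hnr)
  obtain ⟨a, ha, hac⟩ := H878.exists_local878 w (torus d) (H878.det_torus878 d)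
    (fun h => absurd h hnr)
  have hrdet : (Matrix.diagonal (fun _ : Fin 2 => (r : ℂ))).det ≠ 0 := by
    rw [Matrix.det_diagonal, Fin.prod_univ_two]
    have : (r : ℂ) ≠ 0 := by
      rw [Ne, Complex.ofReal_eq_zero]
      exact hr.ne'
    exact mul_ne_zero this this
  obtain ⟨z, hz, hzc⟩ := H878.exists_local878 w (Matrix.diagonal (fun _ : Fin 2 => (r : ℂ)))
    hrdet (fun h => absurd h hnr)
  have hzs : IsArchPosScalar w z := ⟨hz, r, hr, hzc⟩
  have hprod : IsLocalAtInf w (κ₁ * a * κ₂ * z) :=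
    H878.isLocalAtInf_mul878 (H878.isLocalAtInf_mul878 (H878.isLocalAtInf_mul878 hκ₁.1 ha) hκ₂.1)
      hz
  have hxe : x = κ₁ * a * κ₂ * z := by
    refine H878.local_unique878 hx hprod ?_
    rw [H878.infComp_mul878, H878.infComp_mul878, H878.infComp_mul878, hκ₁c, hac, hκ₂c, hzc]
    exact hX
  refine ⟨d, a, hd, ha, hac, fun u hu h' hh' => ?_⟩
  have hκz : IsLocalAtInf w (κ₂ * z) := H878.isLocalAtInf_mul878 hκ₂.1 hz
  have e1 : x * h' = κ₁ * (a * h' * κ₂ * z) := by
    rw [hxe]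
    have := commute_local_triv130 hκz hh'
    calc κ₁ * a * κ₂ * z * h' = κ₁ * a * (κ₂ * z * h') := by simp only [mul_assoc]
      _ = κ₁ * a * (h' * (κ₂ * z)) := by rw [this]
      _ = κ₁ * (a * h' * κ₂ * z) := by simp only [mul_assoc]
  rw [e1, H770.B_left770 (H429.subTransl429 K) hT1 F hu hu hκ₁ (a * h' * κ₂ * z),
    coef_right_scalar130 F hu u hzs, coef_right_cpt130 F hu u hκ₂]

/-- One step of the induction over the places. -/
theorem coef_step130 (hcx : ∀ w : InfinitePlace K, w.IsComplex) {u u' : G K → ℂ}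
    (hu : IsCuspFn 𝔫 u) (hu' : IsCuspFn 𝔫 u') {w : InfinitePlace K} {m : ℝ → ℂ}
    (hm : MeanEigC u w m) (hm' : MeanEigC u' w m) {x h' : G K} (hx : IsLocalAtInf w x)
    (hh' : TrivAtInf w h') (hIH : H770.B770 F u u h' = H770.B770 F u' u' h') :
    H770.B770 F u u (x * h') = H770.B770 F u' u' (x * h') := by
  obtain ⟨d, a, hd, ha, hac, hred⟩ := coef_cartan130 (𝔫 := 𝔫) F hcx hx
  rw [hred u hu h' hh', hred u' hu' h' hh']
  rcases hd.eq_or_lt with h0 | hpos
  · have ha1 : a = 1 := by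
      refine H878.local_unique878 ha ⟨fun w' _ => ?_, fun v => ?_⟩ ?_
      · exact (H129.trivAtInf_iff129 w' 1).2 (map_one _)
      · exact (H129.trivAtFin_iff129 v 1).2 (map_one _)
      · rw [hac, ← h0, H879.torus_zero879, H878.infComp_one878]
    rw [ha1, one_mul]
    exact hIH
  · have h1 := coef_torus130 F hcx hu hm hpos ha hac hh'
    have h2 := coef_torus130 F hcx hu' hm' hpos ha hac hh'
    rw [hIH, ← h2] at h1
    exact mul_left_cancel₀ sphereMass_ne_zero130 h1

/-- **The matrix coefficients of two unit eigenfunctions with the same eigenvalue functions of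
the sphere means agree on the elements which are trivial at the finite places.** -/
theorem coef_eq130 (hcx : ∀ w : InfinitePlace K, w.IsComplex) {u u' : G K → ℂ}
    (hu : IsCuspFn 𝔫 u) (hu' : IsCuspFn 𝔫 u') (h1 : pair F u u = 1) (h1' : pair F u' u' = 1)
    {m : InfinitePlace K → ℝ → ℂ} (hm : ∀ w, MeanEigC u w (m w))
    (hm' : ∀ w, MeanEigC u' w (m w)) (S : Finset (InfinitePlace K)) :
    ∀ h : G K, (∀ v : HeightOneSpectrum (𝓞 K), TrivAtFin v h) →
      (∀ w : InfinitePlace K, w ∉ S → TrivAtInf w h) →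
      H770.B770 F u u h = H770.B770 F u' u' h := by
  classical
  induction S using Finset.induction_on with
  | empty =>
    intro h hF hI
    have e : h = 1 := by
      refine H129.G_ext129 (fun w => ?_) (fun v => ?_)
      · rw [map_one]
        exact (H129.trivAtInf_iff129 w h).1 (hI w (Finset.notMem_empty w))
      · rw [map_one]
        exact (H129.trivAtFin_iff129 v h).1 (hF v)
    rw [e, coef_one130, coef_one130, h1, h1']
  | insert w S hw ih =>
    intro h hF hI
    set x : G K := H429.locInf429 w (H129.infCompHom129 w h) with hxdef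
    have hx : IsLocalAtInf w x := H429.isLocalAtInf_locInf429 w _
    have hx' := (H429.isLocalAtInf_iff429 w x).1 hx
    set h' : G K := x⁻¹ * h with hh'def
    have hh'w : TrivAtInf w h' := by
      rw [H129.trivAtInf_iff129, hh'def, map_mul, map_inv, hxdef, H429.infCompHom_locInf429,
        inv_mul_cancel]
    have hh'F : ∀ v : HeightOneSpectrum (𝓞 K), TrivAtFin v h' := fun v => by
      rw [H129.trivAtFin_iff129, hh'def, map_mul, map_inv, hx'.2 v, inv_one, one_mul]
      exact (H129.trivAtFin_iff129 v h).1 (hF v)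
    have hh'I : ∀ w' : InfinitePlace K, w' ∉ S → TrivAtInf w' h' := fun w' hw' => by
      by_cases e : w' = w
      · subst e
        exact hh'w
      · rw [H129.trivAtInf_iff129, hh'def, map_mul, map_inv, hx'.1 w' e, inv_one, one_mul]
        refine (H129.trivAtInf_iff129 w' h).1 (hI w' ?_)
        rw [Finset.mem_insert, not_or]
        exact ⟨e, hw'⟩
    have hxe : h = x * h' := by
      rw [hh'def, mul_inv_cancel_left]
    rw [hxe]
    exact coef_step130 F hcx hu hu' (hm w) (hm' w) hx hh'w (ih h' hh'F hh'I)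

/-- The pairing `⟨R(f) u, u⟩` is the integral of `f` against the matrix coefficient. -/
theorem pair_conv_eq130 {u : G K → ℂ} (hu : IsCuspFn 𝔫 u) {f : G K → ℂ} (hf : IsTestFn 𝔫 f) :
    pair F (conv F f u) u = ∫ h, f h * H770.B770 F u u h ∂F.μ := by
  have hT1 := T1.t1Out K
  obtain ⟨-, hLC', hT2, hSC⟩ := hT1.locComp
  have := hLC'
  have := hT2
  have := hSC
  have hBor : BorelSpace (G K) := ⟨rfl⟩
  have := F.haar
  obtain ⟨C, hC⟩ := hu.bdd
  have hfint : Integrable f F.μ := hf.cont.integrable_of_hasCompactSupport hf.cpt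
  have key := fubini_pair130 F.μ F.D F.fin F.μ hu.cont hu.cont hC hC (y := fun h : G K => h)
    continuous_id hf.cont hfint
  exact key

/-- **The eigenvalue of `R(f)` depends on the eigenvalue functions of the sphere means only**, for
a test function `f` which is supported in `GL₂(K_∞) U(𝔫)`. -/
theorem convEig_eq130 (hcx : ∀ w : InfinitePlace K, w.IsComplex) {u u' : G K → ℂ}
    (hu : IsCuspFn 𝔫 u) (hu' : IsCuspFn 𝔫 u') (h1 : pair F u u = 1) (h1' : pair F u' u' = 1)
    {m : InfinitePlace K → ℝ → ℂ} (hm : ∀ w, MeanEigC u w (m w))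
    (hm' : ∀ w, MeanEigC u' w (m w)) {f : G K → ℂ} (hf : IsTestFn 𝔫 f)
    (hsupp : ∀ g : G K, f g ≠ 0 → H437.FinLevel437 𝔫 g) :
    pair F (conv F f u) u = pair F (conv F f u') u' := by
  rw [pair_conv_eq130 F hu hf, pair_conv_eq130 F hu' hf]
  congr 1
  funext h
  by_cases h0 : f h = 0
  · rw [h0, zero_mul, zero_mul]
  · congr 1
    have hlev : InLevelGroup 𝔫 ((H437.pInf437 h)⁻¹ * h) :=
      H437.inLevelGroup_finPart437 (hsupp h h0)
    have hdec : h = H437.pInf437 h * ((H437.pInf437 h)⁻¹ * h) := by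
      rw [mul_inv_cancel_left]
    have hF : ∀ v : HeightOneSpectrum (𝓞 K), TrivAtFin v (H437.pInf437 h) := fun v => by
      have := congrArg Units.val (H437.fGL_pInf437 v h)
      rwa [H437.fGL_val437, Units.val_one] at this
    have e := coef_eq130 F hcx hu hu' h1 h1' hm hm' Finset.univ (H437.pInf437 h) hF
      (fun w hw => absurd (Finset.mem_univ w) hw)
    rw [hdec, coef_right_level130 F u u hu.level_inv hlev,
      coef_right_level130 F u' u' hu'.level_inv hlev]
    exact e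

end Coeff

/-! ## 4. Admissibility -/

section Adm

open Fermat.Agent.LT.T8.H864 Fermat.Agent.LT.H51.MS4 Fermat.Agent.LT.T2.H907

variable {K : Type} [Field K] [NumberField K]

/-- The test functions of helper907 are supported in `GL₂(K_∞) U(𝔫)`. -/
theorem finLevel_of_apx130 (F : Frame K) {𝔫 : Ideal (𝓞 K)} {η : ℝ} (hη : 0 < η) {g : G K}
    (hg : apx907 F 𝔫 η g ≠ 0) : H437.FinLevel437 𝔫 g := by
  intro v i j
  have hb : bump907 𝔫 η g ≠ 0 := by
    intro h0
    apply hg
    unfold apx907 testFn907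
    rw [h0, mul_zero, Complex.ofReal_zero]
  have hP := (pfin_of_bump907_ne_zero hη hb).1 v i j
  refine ⟨?_, ?_⟩
  · rw [← coe_finCompHom]
    exact hP.1
  · rw [← coe_finCompHom, map_inv]
    exact hP.2

/-- The approximate identity of `approxSeq130`, with its support. -/
theorem approxSeqSupp130 (K : Type) [Field K] [NumberField K] (𝔫 : Ideal (𝓞 K)) (h𝔫 : 𝔫 ≠ ⊥)
    (F : Frame K) :
    ∃ f : ℕ → G K → ℂ, (∀ k, IsSphTestFn 𝔫 (f k)) ∧
      (∀ k (g : G K), f k g ≠ 0 → H437.FinLevel437 𝔫 g) ∧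
      ∀ φ : G K → ℂ, IsCuspFn 𝔫 φ →
        Tendsto (fun k => nsq F (fun g => conv F (f k) φ g - φ g)) atTop (𝓝 0) := by
  have hC : ConvCusp K 𝔫 := convCusp_closed K 𝔫 h𝔫
  have := borelSpace_G907 (K := K)
  have := F.haar
  set η : ℕ → ℝ := fun k => 1 / ((k : ℝ) + 1) with hη
  have hηpos : ∀ k, 0 < η k := fun k => by positivity
  have hη1 : ∀ k, η k ≤ 1 := fun k => by
    rw [hη, div_le_one (by positivity)]
    have : (0 : ℝ) ≤ k := Nat.cast_nonneg k
    linarith
  refine ⟨fun k => apx907 F 𝔫 (η k), fun k => isSphTestFn_testFn907 h𝔫 (hηpos k) (hη1 k) _,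
    fun k g hg => finLevel_of_apx130 F (hηpos k) hg, fun φ hφ => ?_⟩
  obtain ⟨B, hB⟩ := hφ.bdd
  have hB0 : 0 ≤ B := (norm_nonneg _).trans (hB 1)
  set ψ : ℕ → G K → ℂ := fun k g => conv F (apx907 F 𝔫 (η k)) φ g - φ g with hψ
  have hψc : ∀ k, Continuous (ψ k) := fun k =>
    ((hC F).2.2.1 _ φ (isTestFn_testFn907 h𝔫 (hηpos k) (hη1 k) _) hφ).cont.sub hφ.cont
  have hψb : ∀ k g, ‖ψ k g‖ ≤ 2 * B := fun k g => by
    refine norm_conv_sub_le907 F h𝔫 (hηpos k) (hη1 k) hφ.cont g fun h _ => ?_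
    calc ‖φ (g * h) - φ g‖ ≤ ‖φ (g * h)‖ + ‖φ g‖ := norm_sub_le _ _
      _ ≤ B + B := add_le_add (hB _) (hB _)
      _ = 2 * B := by ring
  have hψlim : ∀ g, Tendsto (fun k => ψ k g) atTop (𝓝 0) := fun g => by
    rw [Metric.tendsto_atTop]
    intro ε' hε'
    obtain ⟨k₀, hk₀⟩ := exists_close907 h𝔫 hφ.cont hφ.level_inv hφ.arch_compact g
      (half_pos hε')
    refine ⟨k₀, fun k hk => ?_⟩
    rw [dist_zero_right]
    have hle : ‖ψ k g‖ ≤ ε' / 2 := by
      refine norm_conv_sub_le907 F h𝔫 (hηpos k) (hη1 k) hφ.cont g fun h hb => ?_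
      obtain ⟨hP, hD⟩ := pfin_of_bump907_ne_zero (hηpos k) hb
      refine (hk₀ h hP (hD.le.trans ?_)).le
      rw [hη]
      apply one_div_le_one_div_of_le (by positivity)
      have : (k₀ : ℝ) ≤ k := Nat.cast_le.mpr hk
      linarith
    linarith
  have hfin : IsFiniteMeasure (F.μ.restrict F.D) :=
    ⟨by rw [Measure.restrict_apply_univ]; exact F.fin⟩
  have hlim : Tendsto (fun k => ∫ g in F.D, ψ k g * (starRingEnd ℂ) (ψ k g) ∂F.μ) atTop
      (𝓝 (∫ _ in F.D, (0 : ℂ) ∂F.μ)) := by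
    refine tendsto_integral_of_dominated_convergence (fun _ => (2 * B) ^ 2)
      (fun k => ?_) (integrable_const _) (fun k => Eventually.of_forall fun g => ?_)
      (Eventually.of_forall fun g => ?_)
    · exact ((hψc k).mul (Complex.continuous_conj.comp (hψc k))).aestronglyMeasurable
    · rw [norm_mul, RCLike.norm_conj, ← sq]
      exact pow_le_pow_left₀ (norm_nonneg _) (hψb k g) 2
    · have := (hψlim g).mul ((Complex.continuous_conj.tendsto 0).comp (hψlim g))
      simpa using this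
  rw [integral_zero] at hlim
  have h0 : Tendsto (fun k => (∫ g in F.D, ψ k g * (starRingEnd ℂ) (ψ k g) ∂F.μ).re) atTop
      (𝓝 ((0 : ℂ).re)) := (Complex.continuous_re.tendsto 0).comp hlim
  rw [Complex.zero_re] at h0
  exact h0

/-- **ADMISSIBILITY.**  For a totally complex field: the members of an orthonormal family of
joint eigen-cusp-functions of level `U(𝔫)` which have the same eigenvalue functions of the sphere
means as a given member are finite in number. -/
theorem finite_meanClass130 (hcx : ∀ w : InfinitePlace K, w.IsComplex) {𝔫 : Ideal (𝓞 K)}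
    (h𝔫 : 𝔫 ≠ ⊥) {F : Frame K} {ι : Type} {u : ι → G K → ℂ}
    {m : ι → InfinitePlace K → ℝ → ℂ} (hcusp : ∀ j, IsCuspFn 𝔫 (u j))
    (hone : ∀ j, pair F (u j) (u j) = 1) (horth : ∀ i j, i ≠ j → pair F (u i) (u j) = 0)
    (hmean : ∀ j w, MeanEigC (u j) w (m j w))
    (heig : ∀ T, IsOp 𝔫 F T → ∀ j, ∃ c : ℂ, T (u j) = c • u j) (j₀ : ι) :
    {j : ι | ∀ (w : InfinitePlace K) (d : ℝ), 0 < d → m j w d = m j₀ w d}.Finite := by
  obtain ⟨f, hsph, hsupp, hlim⟩ := approxSeqSupp130 K 𝔫 h𝔫 F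
  have hHS : HSBound K 𝔫 := (estimates_closed K 𝔫 h𝔫).2.2.2.2.2.1
  have hex : ∀ (k : ℕ) (j : ι), ∃ c : ℂ, conv F (f k) (u j) = c • u j := fun k j =>
    heig (conv F (f k)) (IsOp.conv (f k) (hsph k)) j
  choose c hc using hex
  obtain ⟨k, hk⟩ := large_of_approx130 (hone j₀) (hlim (u j₀) (hcusp j₀)) (fun k => c k j₀)
    (fun k => hc k j₀)
  have hcp : ∀ j, c k j = pair F (conv F (f k) (u j)) (u j) := fun j => by
    rw [hc k j, H566.pair_smul_left566, hone j, mul_one]
  refine (finite_large130 hHS hcusp hone horth (f k) (hsph k).test (c k) (hc k)).subset ?_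
  intro j hj
  have hm' : ∀ w, MeanEigC (u j) w (m j₀ w) := fun w d hd Y hY g => by
    rw [← hj w d hd]
    exact hmean j w d hd Y hY g
  have e : c k j = c k j₀ := by
    rw [hcp j, hcp j₀]
    exact convEig_eq130 F hcx (hcusp j) (hcusp j₀) (hone j) (hone j₀) hm' (hmean j₀)
      (hsph k).test (hsupp k)
  show 1 / 2 < ‖c k j‖
  rw [e]
  exact hk

end Adm

end Fermat.Agent.LT.T2
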